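/-
TEAM CFT -> S55, top level (architect helper62).  File 2: "level constant" (= continuous) cochains
of a group `G` equipped with a directed system `𝒰` of normal subgroups of finite index
(= a basis of open normal subgroups), with values in an arbitrary `M : Rep k G`.

`Hlc 𝒰 M n` is `colim_U Hⁿ(G/U, M^U)`, realised as the cohomology of the subcomplex of Mathlib's
inhomogeneous cochains consisting of the cochains which have some level `U ∈ 𝒰`.
-/
import Fermat.Agent.CFT.Top.Cpx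

set_option autoImplicit false

noncomputable section

namespace Fermat.Agent.CFT.Top

open groupCohomology

/-- A directed system of normal subgroups of finite index. -/
structure LevelSys (G : Type) [Group G] where
  S : Set (Subgroup G)
  normal : ∀ U ∈ S, U.Normal
  fin : ∀ U ∈ S, U.FiniteIndex
  ne : ∃ U, U ∈ S
  dir : ∀ U ∈ S, ∀ V ∈ S, ∃ W ∈ S, W ≤ U ∧ W ≤ V

namespace LevelSys

variable {G G' : Type} [Group G] [Group G']

/-- pull back a level system along a homomorphism (induced topology). -/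
def comap (𝒰 : LevelSys G) (φ : G' →* G) : LevelSys G' where
  S := {V | ∃ U ∈ 𝒰.S, V = U.comap φ}
  normal := by
    rintro _ ⟨U, hU, rfl⟩
    have := 𝒰.normal U hU
    infer_instance
  fin := by
    rintro _ ⟨U, hU, rfl⟩
    have := 𝒰.fin U hU
    refine ⟨?_⟩
    rw [Subgroup.index_comap]
    exact fun h => U.index_ne_zero_of_finite (U.index_eq_zero_of_relIndex_eq_zero h)
  ne := by
    obtain ⟨U, hU⟩ := 𝒰.ne
    exact ⟨_, U, hU, rfl⟩
  dir := by
    rintro _ ⟨U, hU, rfl⟩ _ ⟨V, hV, rfl⟩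
    obtain ⟨W, hW, h1, h2⟩ := 𝒰.dir U hU V hV
    exact ⟨_, ⟨W, hW, rfl⟩, Subgroup.comap_mono h1, Subgroup.comap_mono h2⟩

/-- a subgroup is open if it contains a level -/
def IsOpen (𝒰 : LevelSys G) (H : Subgroup G) : Prop := ∃ U ∈ 𝒰.S, U ≤ H

/-- continuity of a homomorphism -/
def IsCont (𝒰' : LevelSys G') (𝒰 : LevelSys G) (φ : G' →* G) : Prop :=
  ∀ U ∈ 𝒰.S, ∃ V ∈ 𝒰'.S, V ≤ U.comap φ

end LevelSys

variable {k : Type} [CommRing k] {G : Type} [Group G]

/-- `M` is a discrete module: every element is fixed by some level. -/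
def IsDisc (𝒰 : LevelSys G) (M : Rep.{0} k G) : Prop :=
  ∀ m : M, ∃ U ∈ 𝒰.S, ∀ u ∈ U, M.ρ u m = m

/-- some level acts trivially on `M` -/
def IsTrivOn (𝒰 : LevelSys G) (M : Rep.{0} k G) : Prop :=
  ∃ U ∈ 𝒰.S, ∀ u ∈ U, ∀ m : M, M.ρ u m = m

/-- the cochain `f` factors through `(G/U)ⁿ` and takes values in `M^U`. -/
def IsLevel (M : Rep.{0} k G) (U : Subgroup G) (n : ℕ) (f : (Fin n → G) → M) : Prop :=
  (∀ g g' : Fin n → G, (∀ i, (g i)⁻¹ * g' i ∈ U) → f g = f g') ∧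
    ∀ (g : Fin n → G), ∀ u ∈ U, M.ρ u (f g) = f g

lemma IsLevel.mono {M : Rep.{0} k G} {U V : Subgroup G} (h : V ≤ U) {n : ℕ} {f : (Fin n → G) → M}
    (hf : IsLevel M U n f) : IsLevel M V n f :=
  ⟨fun g g' hg => hf.1 g g' fun i => h (hg i), fun g u hu => hf.2 g u (h hu)⟩

/-- level constant cochains -/
def lcCochains (𝒰 : LevelSys G) (M : Rep.{0} k G) (n : ℕ) : Submodule k ((Fin n → G) → M) where
  carrier := {f | ∃ U ∈ 𝒰.S, IsLevel M U n f}
  add_mem' := by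
    rintro f f' ⟨U, hU, hf⟩ ⟨V, hV, hf'⟩
    obtain ⟨W, hW, h1, h2⟩ := 𝒰.dir U hU V hV
    refine ⟨W, hW, fun g g' hg => ?_, fun g u hu => ?_⟩
    · simp only [Pi.add_apply]
      rw [(hf.mono h1).1 g g' hg, (hf'.mono h2).1 g g' hg]
    · simp only [Pi.add_apply, map_add]
      rw [(hf.mono h1).2 g u hu, (hf'.mono h2).2 g u hu]
  zero_mem' := by
    obtain ⟨U, hU⟩ := 𝒰.ne
    exact ⟨U, hU, fun _ _ _ => rfl, fun _ _ _ => by simp⟩
  smul_mem' := by
    rintro c f ⟨U, hU, hf⟩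
    refine ⟨U, hU, fun g g' hg => ?_, fun g u hu => ?_⟩
    · simp only [Pi.smul_apply]
      rw [hf.1 g g' hg]
    · simp only [Pi.smul_apply, map_smul]
      rw [hf.2 g u hu]

lemma mem_lcCochains {𝒰 : LevelSys G} {M : Rep.{0} k G} {n : ℕ} {f : (Fin n → G) → M} :
    f ∈ lcCochains 𝒰 M n ↔ ∃ U ∈ 𝒰.S, IsLevel M U n f := Iff.rfl

/-- Mathlib's inhomogeneous differential as a plain linear map. -/
abbrev dd (M : Rep.{0} k G) (n : ℕ) : ((Fin n → G) → M) →ₗ[k] ((Fin (n + 1) → G) → M) :=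
  (inhomogeneousCochains.d M n).hom

lemma dd_apply (M : Rep.{0} k G) (n : ℕ) (f : (Fin n → G) → M) (g : Fin (n + 1) → G) :
    dd M n f g = M.ρ (g 0) (f fun i => g i.succ) + Finset.univ.sum fun j : Fin (n + 1) =>
        (-1 : k) ^ ((j : ℕ) + 1) • f (Fin.contractNth j (· * ·) g) := rfl

lemma dd_dd (M : Rep.{0} k G) (n : ℕ) (f : (Fin n → G) → M) : dd M (n + 1) (dd M n f) = 0 := by
  have := inhomogeneousCochains.d_comp_d n M
  exact congrArg (fun φ => φ.hom f) this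

/-- the differential preserves the level (for normal `U`). -/
lemma IsLevel.dd {M : Rep.{0} k G} {U : Subgroup G} [U.Normal] {n : ℕ} {f : (Fin n → G) → M}
    (hf : IsLevel M U n f) : IsLevel M U (n + 1) (dd M n f) := by
  have hN : ∀ (x : G), ∀ u ∈ U, x⁻¹ * u * x ∈ U := fun x u hu => by
    have := (inferInstance : U.Normal).conj_mem u hu x⁻¹
    simpa using this
  refine ⟨fun g g' hg => ?_, fun g u hu => ?_⟩
  · rw [dd_apply, dd_apply]
    congr 1
    · have h0 : g' 0 = g 0 * ((g 0)⁻¹ * g' 0) := by group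
      rw [h0, map_mul, Module.End.mul_apply, hf.2 _ _ (hg 0)]
      rw [hf.1 (fun i => g i.succ) (fun i => g' i.succ) fun i => hg i.succ]
    · refine Finset.sum_congr rfl fun j _ => ?_
      congr 1
      refine hf.1 _ _ fun i => ?_
      unfold Fin.contractNth
      split_ifs
      · exact hg _
      · have : (g i.castSucc * g i.succ)⁻¹ * (g' i.castSucc * g' i.succ)
            = ((g i.succ)⁻¹ * ((g i.castSucc)⁻¹ * g' i.castSucc) * g i.succ)
              * ((g i.succ)⁻¹ * g' i.succ) := by group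
        rw [this]
        exact U.mul_mem (hN _ _ (hg _)) (hg _)
      · exact hg _
  · rw [dd_apply, map_add, map_sum]
    congr 1
    · have h0 : u * g 0 = g 0 * ((g 0)⁻¹ * u * g 0) := by group
      rw [← Module.End.mul_apply, ← map_mul, h0, map_mul, Module.End.mul_apply,
        hf.2 _ _ (hN _ _ hu)]
    · refine Finset.sum_congr rfl fun j _ => ?_
      rw [map_smul, hf.2 _ _ hu]

lemma dd_mem_lcCochains {𝒰 : LevelSys G} {M : Rep.{0} k G} {n : ℕ} {f : (Fin n → G) → M}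
    (hf : f ∈ lcCochains 𝒰 M n) : dd M n f ∈ lcCochains 𝒰 M (n + 1) := by
  obtain ⟨U, hU, h⟩ := hf
  have := 𝒰.normal U hU
  exact ⟨U, hU, h.dd⟩

/-- The complex of level constant cochains. -/
def lcCpx (𝒰 : LevelSys G) (M : Rep.{0} k G) : Cpx k where
  X n := ↥(lcCochains 𝒰 M n)
  d n := (dd M n).restrict fun _ hf => dd_mem_lcCochains hf
  d_d n x := Subtype.ext (dd_dd M n x.1)

lemma lcCpx_d_coe (𝒰 : LevelSys G) (M : Rep.{0} k G) (n : ℕ) (x : lcCochains 𝒰 M n) :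
    (show ↥(lcCochains 𝒰 M (n + 1)) from (lcCpx 𝒰 M).d n x).1 = dd M n x.1 := rfl

/-- "continuous" cohomology `Hⁿ(G, 𝒰; M) = colim_U Hⁿ(G/U, M^U)`. -/
abbrev Hlc (𝒰 : LevelSys G) (M : Rep.{0} k G) (n : ℕ) : Type := (lcCpx 𝒰 M).H n

section Functoriality

variable {G' : Type} [Group G']

/-- pull back along `φ : G' → G` and push forward along `ψ : M → M'` on all cochains. -/
def pullPush (φ : G' →* G) {M : Rep.{0} k G} {M' : Rep.{0} k G'} (ψ : M →ₗ[k] M') (n : ℕ) :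
    ((Fin n → G) → M) →ₗ[k] ((Fin n → G') → M') where
  toFun f := fun g => ψ (f fun i => φ (g i))
  map_add' f f' := by ext; simp
  map_smul' c f := by ext; simp

@[simp] lemma pullPush_apply (φ : G' →* G) {M : Rep.{0} k G} {M' : Rep.{0} k G'} (ψ : M →ₗ[k] M')
    (n : ℕ) (f : (Fin n → G) → M) (g : Fin n → G') :
    pullPush φ ψ n f g = ψ (f fun i => φ (g i)) := rfl

lemma pullPush_dd (φ : G' →* G) {M : Rep.{0} k G} {M' : Rep.{0} k G'} (ψ : M →ₗ[k] M')
    (hψ : ∀ (g : G') (m : M), ψ (M.ρ (φ g) m) = M'.ρ g (ψ m)) (n : ℕ) (f : (Fin n → G) → M) :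
    pullPush φ ψ (n + 1) (dd M n f) = dd M' n (pullPush φ ψ n f) := by
  funext g
  rw [pullPush_apply, dd_apply, dd_apply, map_add, map_sum, hψ]
  congr 1
  refine Finset.sum_congr rfl fun j _ => ?_
  rw [map_smul, pullPush_apply]
  congr 3
  funext i
  unfold Fin.contractNth
  split_ifs <;> simp

lemma pullPush_mem {𝒰' : LevelSys G'} {𝒰 : LevelSys G} (φ : G' →* G)
    (hφ : LevelSys.IsCont 𝒰' 𝒰 φ) {M : Rep.{0} k G} {M' : Rep.{0} k G'} (ψ : M →ₗ[k] M')
    (hψ : ∀ (g : G') (m : M), ψ (M.ρ (φ g) m) = M'.ρ g (ψ m)) (n : ℕ) {f : (Fin n → G) → M}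
    (hf : f ∈ lcCochains 𝒰 M n) : pullPush φ ψ n f ∈ lcCochains 𝒰' M' n := by
  obtain ⟨U, hU, h⟩ := hf
  obtain ⟨V, hV, hVU⟩ := hφ U hU
  refine ⟨V, hV, fun g g' hg => ?_, fun g u hu => ?_⟩
  · rw [pullPush_apply, pullPush_apply]
    congr 1
    refine h.1 _ _ fun i => ?_
    have := hVU (hg i)
    simpa using this
  · rw [pullPush_apply, ← hψ, h.2 _ _ (hVU hu)]

/-- General functoriality of the level constant complex. -/
def lcMap {𝒰' : LevelSys G'} {𝒰 : LevelSys G} (φ : G' →* G)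
    (hφ : LevelSys.IsCont 𝒰' 𝒰 φ) {M : Rep.{0} k G} {M' : Rep.{0} k G'} (ψ : M →ₗ[k] M')
    (hψ : ∀ (g : G') (m : M), ψ (M.ρ (φ g) m) = M'.ρ g (ψ m)) :
    Cpx.Hom (lcCpx 𝒰 M) (lcCpx 𝒰' M') where
  f n := (pullPush φ ψ n).restrict fun _ hf => pullPush_mem φ hφ ψ hψ n hf
  comm n x := Subtype.ext (pullPush_dd φ ψ hψ n x.1)

lemma LevelSys.isCont_id (𝒰 : LevelSys G) : LevelSys.IsCont 𝒰 𝒰 (MonoidHom.id G) :=
  fun U hU => ⟨U, hU, le_of_eq (Subgroup.comap_id U).symm⟩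

lemma LevelSys.isCont_comap (𝒰 : LevelSys G) (φ : G' →* G) :
    LevelSys.IsCont (𝒰.comap φ) 𝒰 φ :=
  fun U hU => ⟨_, ⟨U, hU, rfl⟩, le_rfl⟩

/-- functoriality in the module -/
def lcCoeff (𝒰 : LevelSys G) {M N : Rep.{0} k G} (ψ : M ⟶ N) :
    Cpx.Hom (lcCpx 𝒰 M) (lcCpx 𝒰 N) :=
  lcMap (MonoidHom.id G) 𝒰.isCont_id ψ.hom.toLinearMap fun g m => Rep.hom_comm_apply ψ g m

/-- restriction along a continuous homomorphism -/
def lcRes {𝒰' : LevelSys G'} {𝒰 : LevelSys G} (φ : G' →* G)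
    (hφ : LevelSys.IsCont 𝒰' 𝒰 φ) (M : Rep.{0} k G) :
    Cpx.Hom (lcCpx 𝒰 M) (lcCpx 𝒰' (Rep.res φ M)) :=
  lcMap φ hφ (LinearMap.id : M →ₗ[k] Rep.res φ M) fun _ _ => rfl

end Functoriality

end Fermat.Agent.CFT.Top

end
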