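/-
TEAM CFT -> S55, top level (architect helper62).  File 4: abstract arithmetic data, compact support
complex, Tate-Shafarevich groups, permutation modules, and the list of INPUTS of the abstract
Poitou-Tate theorem.
-/
import Fermat.Agent.CFT.Top.LC
import Fermat.Prelude.Def_GroupCohomology_Selmer

set_option autoImplicit false

noncomputable section

namespace Fermat.Agent.CFT.Top

open Cpx Module

section Modules

variable {k : Type} [CommRing k] {G : Type} [Group G]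

/-- `Map(X, N)` with the diagonal action `(g f)(x) = g (f (g⁻¹ x))`. -/
def mapRepr (X : Type) [MulAction G X] (N : Rep.{0} k G) : Representation k G (X → N) where
  toFun g :=
    { toFun := fun f x => N.ρ g (f (g⁻¹ • x))
      map_add' := fun f f' => by ext; simp
      map_smul' := fun c f => by ext; simp }
  map_one' := by ext; simp
  map_mul' g h := by
    ext f x
    simp [mul_smul]

/-- `Map(X, N)` as an object of `Rep`. -/
abbrev mapRep (X : Type) [MulAction G X] (N : Rep.{0} k G) : Rep.{0} k G := Rep.of (mapRepr X N)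

lemma mapRep_ρ_apply (X : Type) [MulAction G X] (N : Rep.{0} k G) (g : G) (f : X → N) (x : X) :
    (mapRep X N).ρ g f x = N.ρ g (f (g⁻¹ • x)) := rfl

variable (k) in
/-- the permutation module `R_H = Map(G/H, k)`. -/
abbrev permRep (H : Subgroup G) : Rep.{0} k G := mapRep (G ⧸ H) (Rep.trivial k G k)

variable (k) in
/-- the one dimensional module attached to a character (`μ_p` for the cyclotomic character). -/
abbrev muRep (χ : G →* kˣ) : Rep.{0} k G := Rep.of ((Representation.trivial k G k).twist χ)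

end Modules

/-- Abstract arithmetic datum: a "global" group with finitely many "local" groups and a
"cyclotomic" character. -/
structure Datum (p : ℕ) [Fact p.Prime] where
  G : Type
  [grp : Group G]
  𝒰 : LevelSys G
  ι : Type
  [fin : Fintype ι]
  Gv : ι → Type
  [grpv : ∀ v, Group (Gv v)]
  𝒰v : ∀ v, LevelSys (Gv v)
  φ : ∀ v, Gv v →* G
  cont : ∀ v, LevelSys.IsCont (𝒰v v) 𝒰 (φ v)
  χ : G →* (ZMod p)ˣ
  χtriv : ∃ U ∈ 𝒰.S, ∀ u ∈ U, χ u = 1

attribute [instance] Datum.grp Datum.fin Datum.grpv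

namespace Datum

variable {p : ℕ} [Fact p.Prime] (D : Datum p)

/-- the local complex at `v` -/
abbrev locCpxAt (N : Rep.{0} (ZMod p) D.G) (v : D.ι) : Cpx (ZMod p) :=
  lcCpx (D.𝒰v v) (Rep.res (D.φ v) N)

/-- the product of the local complexes -/
abbrev locCpx (N : Rep.{0} (ZMod p) D.G) : Cpx (ZMod p) := pi fun v => D.locCpxAt N v

/-- the localisation map -/
abbrev loc (N : Rep.{0} (ZMod p) D.G) : Hom (lcCpx D.𝒰 N) (D.locCpx N) :=
  piLift fun v => lcRes (D.φ v) (D.cont v) N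

/-- the compact support complex -/
abbrev cCpx (N : Rep.{0} (ZMod p) D.G) : Cpx (ZMod p) := cone (D.loc N)

/-- `Shaⁿ(N) = ker (Hⁿ(G,N) → ∏ Hⁿ(G_v,N))` -/
def Sha (N : Rep.{0} (ZMod p) D.G) (n : ℕ) : Submodule (ZMod p) (Hlc D.𝒰 N n) :=
  LinearMap.ker ((D.loc N).mapH n)

/-- the module `μ` -/
abbrev mu : Rep.{0} (ZMod p) D.G := muRep (ZMod p) D.χ

/-! ### Inputs, global -/

/-- (GA) `H³(G, R_H) = 0` for all open subgroups `H` on which `χ` is trivial. -/
def InGA : Prop :=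
  ∀ H : Subgroup D.G, D.𝒰.IsOpen H → (∀ h ∈ H, D.χ h = 1) →
    Subsingleton (Hlc D.𝒰 (permRep (ZMod p) H) 3)

/-- (GB) `dim H³_c(R_U) ≤ 1`. -/
def InGB : Prop :=
  ∀ U ∈ D.𝒰.S, (∀ u ∈ U, D.χ u = 1) →
    Module.Finite (ZMod p) ((D.cCpx (permRep (ZMod p) U)).H 3) ∧
      finrank (ZMod p) ((D.cCpx (permRep (ZMod p) U)).H 3) ≤ 1

/-- (GC) `dim H²_c(R_U) ≤ dim H¹(G, R_U) < ∞`. -/
def InGC : Prop :=
  ∀ U ∈ D.𝒰.S, (∀ u ∈ U, D.χ u = 1) →
    Module.Finite (ZMod p) ((D.cCpx (permRep (ZMod p) U)).H 2) ∧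
    Module.Finite (ZMod p) (Hlc D.𝒰 (permRep (ZMod p) U) 1) ∧
      finrank (ZMod p) ((D.cCpx (permRep (ZMod p) U)).H 2)
        ≤ finrank (ZMod p) (Hlc D.𝒰 (permRep (ZMod p) U) 1)

/-- (GR) weak reciprocity: for every `v` there is a class in `∏ H²(G_w, μ)` supported at `v` which
does not come from `H²(G, μ)` (equivalently, its image in `H³_c(μ)` is non zero). -/
def InGR : Prop :=
  ∀ v : D.ι, ∃ y : (D.locCpx D.mu).H 2,
    (∀ w, w ≠ v → (piProj (fun v => D.locCpxAt D.mu v) w).mapH 2 y = 0) ∧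
      ∀ x : Hlc D.𝒰 D.mu 2, (D.loc D.mu).mapH 2 x ≠ y

/-! ### Inputs, local -/

/-- (LA) `H³(G_v, R_H) = 0` for all open subgroups `H` of `G_v` on which `χ` is trivial. -/
def InLA (v : D.ι) : Prop :=
  ∀ H : Subgroup (D.Gv v), (D.𝒰v v).IsOpen H → (∀ h ∈ H, D.χ (D.φ v h) = 1) →
    Subsingleton (Hlc (D.𝒰v v) (permRep (ZMod p) H) 3)

/-- (LB) `dim H²(G_v, R_V) ≤ 1`. -/
def InLB (v : D.ι) : Prop :=
  ∀ V ∈ (D.𝒰v v).S, (∀ h ∈ V, D.χ (D.φ v h) = 1) →
    Module.Finite (ZMod p) (Hlc (D.𝒰v v) (permRep (ZMod p) V) 2) ∧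
      finrank (ZMod p) (Hlc (D.𝒰v v) (permRep (ZMod p) V) 2) ≤ 1

/-- (LC) `dim H¹(G_v, R_V) < ∞`. -/
def InLC (v : D.ι) : Prop :=
  ∀ V ∈ (D.𝒰v v).S, (∀ h ∈ V, D.χ (D.φ v h) = 1) →
    Module.Finite (ZMod p) (Hlc (D.𝒰v v) (permRep (ZMod p) V) 1)

/-- all inputs -/
structure Inputs : Prop where
  ne : Nonempty D.ι
  ga : D.InGA
  gb : D.InGB
  gc : D.InGC
  gr : D.InGR
  la : ∀ v, D.InLA v
  lb : ∀ v, D.InLB v
  lc : ∀ v, D.InLC v

end Datum

/-- **Abstract Poitou-Tate duality (dimension form).** -/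
def Stmt_PT : Prop :=
  ∀ (p : ℕ) [Fact p.Prime] (D : Datum p), D.Inputs →
    ∀ (N : Rep.{0} (ZMod p) D.G), Module.Finite (ZMod p) N → IsTrivOn D.𝒰 N →
      Module.Finite (ZMod p) (D.Sha N 2) ∧ Module.Finite (ZMod p) (D.Sha (N.dualTwist D.χ) 1) ∧
        finrank (ZMod p) (D.Sha N 2) = finrank (ZMod p) (D.Sha (N.dualTwist D.χ) 1)

end Fermat.Agent.CFT.Top

end
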