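/-
TEAM CFT -> S55, top level (architect helper62).  File 5: the concrete arithmetic datum
`(G_ℚ with the S-levels; G_{ℚ_q}, q ∈ S; cyclotomic character)`, the bridge statements to the
prelude's `sha₁`, `sha₂`, and the final assembly statement.
-/
import Fermat.Agent.CFT.Top.Datum
import Fermat.Prelude.Def_GroupCohomology_ContinuousUnramified

set_option autoImplicit false

noncomputable section

namespace Fermat.Agent.CFT.Top

open Cpx Module groupCohomology ExtCitation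

/-- the absolute Galois group of `ℚ` -/
abbrev GQ : Type := AlgebraicClosure ℚ ≃ₐ[ℚ] AlgebraicClosure ℚ

lemma finiteIndex_fixingSubgroup (F : IntermediateField ℚ (AlgebraicClosure ℚ))
    [FiniteDimensional ℚ F] : F.fixingSubgroup.FiniteIndex := by
  have : Algebra.IsAlgebraic ℚ (AlgebraicClosure ℚ) := AlgebraicClosure.isAlgebraic ℚ
  have : IsAlgClosure ℚ (AlgebraicClosure ℚ) := ⟨inferInstance, inferInstance⟩
  have : Normal ℚ (AlgebraicClosure ℚ) := IsAlgClosure.normal ℚ (AlgebraicClosure ℚ)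
  have : IsGalois ℚ (AlgebraicClosure ℚ) := ⟨⟩
  refine ⟨?_⟩
  rw [← IntermediateField.finrank_eq_fixingSubgroup_index]
  exact Module.finrank_pos.ne'

/-- the open normal subgroups of `G_ℚ` (Krull topology). -/
def levAll : LevelSys GQ where
  S := {U | U.Normal ∧ ∃ F : IntermediateField ℚ (AlgebraicClosure ℚ),
    FiniteDimensional ℚ F ∧ F.fixingSubgroup ≤ U}
  normal U hU := hU.1
  fin := by
    rintro U ⟨_, F, hF, hFU⟩
    have := hF
    have := finiteIndex_fixingSubgroup F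
    exact Subgroup.finiteIndex_of_le hFU
  ne := ⟨⊤, inferInstance, ⊥, inferInstance, le_top⟩
  dir := by
    rintro U ⟨hU, F, hF, hFU⟩ V ⟨hV, F', hF', hFV⟩
    have := hF; have := hF'
    refine ⟨U ⊓ V, ⟨inferInstance, F ⊔ F', inferInstance, ?_⟩, inf_le_left, inf_le_right⟩
    rw [IntermediateField.fixingSubgroup_sup]
    exact inf_le_inf hFU hFV

/-- the open normal subgroups of `G_ℚ` containing `Gal(ℚ̄/ℚ_S)`, i.e. the open normal subgroups
of `G_S`. -/
def levS (S : Finset Nat.Primes) : LevelSys GQ where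
  S := {U | U.Normal ∧ ∃ F : IntermediateField ℚ (AlgebraicClosure ℚ),
    F.IsUnramifiedOutside S ∧ F.fixingSubgroup ≤ U}
  normal U hU := hU.1
  fin := by
    rintro U ⟨_, F, hF, hFU⟩
    have := hF.1
    have := finiteIndex_fixingSubgroup F
    exact Subgroup.finiteIndex_of_le hFU
  ne := ⟨⊤, inferInstance, ⊥, IntermediateField.isUnramifiedOutside_bot S, le_top⟩
  dir := by
    rintro U ⟨hU, F, hF, hFU⟩ V ⟨hV, F', hF', hFV⟩
    refine ⟨U ⊓ V, ⟨inferInstance, F ⊔ F', hF.sup hF', ?_⟩, inf_le_left, inf_le_right⟩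
    rw [IntermediateField.fixingSubgroup_sup]
    exact inf_le_inf hFU hFV

lemma levS_subset_levAll (S : Finset Nat.Primes) : (levS S).S ⊆ levAll.S := by
  rintro U ⟨hU, F, hF, hFU⟩
  exact ⟨hU, F, hF.1, hFU⟩

/-- the cyclotomic character is trivial on some `S`-level (true as soon as `p ∈ S`). -/
def CycloTriv (p : ℕ) [Fact p.Prime] (S : Finset Nat.Primes) : Prop :=
  ∃ U ∈ (levS S).S, ∀ u ∈ U, cycloChar p u = 1

/-- **The arithmetic datum.**  Only the finite places `q ∈ S` are used (`p` is odd). -/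
def qDatum (p : ℕ) [Fact p.Prime] (S : Finset Nat.Primes) (h : CycloTriv p S) : Datum p where
  G := GQ
  𝒰 := levS S
  ι := ↥S
  Gv q := primeLocalGaloisGroup q.1
  𝒰v q := levAll.comap (primeLocalToGlobal q.1)
  φ q := primeLocalToGlobal q.1
  cont _ := fun U hU => ⟨_, ⟨U, levS_subset_levAll S hU, rfl⟩, le_rfl⟩
  χ := cycloChar p
  χtriv := h

/-- BR0. `ℚ(μ_p)` is unramified outside `S ∋ p`. -/
def Stmt_cycloTriv : Prop :=
  ∀ (p : ℕ) [Fact p.Prime] (S : Finset Nat.Primes), pPrime p ∈ S → CycloTriv p S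

/-- BR1. a finite dimensional smooth module unramified outside `S` is trivial on an `S`-level. -/
def Stmt_trivOn : Prop :=
  ∀ (p : ℕ) [Fact p.Prime] (S : Finset Nat.Primes) (M : Rep.{0} (ZMod p) GQ),
    Module.Finite (ZMod p) M →
    (∀ m : M, ∃ F : IntermediateField ℚ (AlgebraicClosure ℚ), FiniteDimensional ℚ F ∧
      ∀ s ∈ F.fixingSubgroup, M.ρ s m = m) →
    (∀ q : Nat.Primes, q ∉ S → ∀ A : ValuationSubring (AlgebraicClosure ℚ),
      A.LiesOverPrime (q : ℕ) → ∀ g ∈ A.inertiaSubgroupIn ℚ, M.ρ g = 1) →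
    IsTrivOn (levS S) M

/-- BR2. the prelude's `sha₂` is the level-constant `Sha²` (for `p` odd the archimedean condition
is empty). -/
def Stmt_bridgeSha2 : Prop :=
  ∀ (p : ℕ) [Fact p.Prime], p ≠ 2 → ∀ (S : Finset Nat.Primes) (h : CycloTriv p S)
    (M : Rep.{0} (ZMod p) GQ), Module.Finite (ZMod p) M → IsTrivOn (levS S) M →
    Nonempty (sha₂ S M ≃ₗ[ZMod p] (qDatum p S h).Sha M 2)

/-- BR3. the prelude's `sha₁` is the level-constant `Sha¹`. -/
def Stmt_bridgeSha1 : Prop :=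
  ∀ (p : ℕ) [Fact p.Prime], p ≠ 2 → ∀ (S : Finset Nat.Primes) (h : CycloTriv p S)
    (M : Rep.{0} (ZMod p) GQ), Module.Finite (ZMod p) M → IsTrivOn (levS S) M →
    Nonempty (sha₁ S M ≃ₗ[ZMod p] (qDatum p S h).Sha M 1)

/-- ARITH. **All the arithmetic**: the inputs of the abstract Poitou-Tate theorem hold. -/
def Stmt_arith : Prop :=
  ∀ (p : ℕ) [Fact p.Prime], p ≠ 2 → ∀ (S : Finset Nat.Primes), pPrime p ∈ S →
    ∀ h : CycloTriv p S, (qDatum p S h).Inputs

/-- the statement S55 -/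
def Stmt_S55 : Prop :=
  ∀ {p : ℕ} [Fact p.Prime] (_ : p ≠ 2) (S : Finset Nat.Primes) (_ : pPrime p ∈ S)
    (M : Rep (ZMod p) (AlgebraicClosure ℚ ≃ₐ[ℚ] AlgebraicClosure ℚ))
    [FiniteDimensional (ZMod p) M]
    (_ : ∀ m : M, ∃ F : IntermediateField ℚ (AlgebraicClosure ℚ), FiniteDimensional ℚ F ∧
      ∀ s ∈ F.fixingSubgroup, M.ρ s m = m)
    (_ : ∀ q : Nat.Primes, q ∉ S → ∀ A : ValuationSubring (AlgebraicClosure ℚ),
      A.LiesOverPrime (q : ℕ) → ∀ g ∈ A.inertiaSubgroupIn ℚ, M.ρ g = 1),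
    ∃ B : sha₁ S (M.dualTwist (cycloChar p)) →ₗ[ZMod p] sha₂ S M →ₗ[ZMod p] ZMod p,
      (∀ y, (∀ x, B y x = 0) → y = 0) ∧ (∀ x, (∀ y, B y x = 0) → x = 0)

/-- FINAL. assembly. -/
def Stmt_final : Prop :=
  Stmt_PT → Stmt_arith → Stmt_cycloTriv → Stmt_trivOn → Stmt_bridgeSha1 → Stmt_bridgeSha2 →
    Stmt_S55

end Fermat.Agent.CFT.Top

end
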