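/-
TEAM CFT -> S55, top level / bridge P6 (helper32).
Levels: conjugation invariance of inertia, the normal core of `F.fixingSubgroup` is a level,
and the dictionary between the prelude's level-constant functions and `lcCochains`.
-/
import Fermat.Agent.CFT.Top.QDatum

set_option autoImplicit false

noncomputable section

namespace Fermat.Agent.CFT.Top

open groupCohomology ExtCitation
open scoped Pointwise

namespace BrLev

local notation "Qb" => AlgebraicClosure ℚ

/-! ### inertia subgroups -/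

theorem mem_inertia_iff (A : ValuationSubring Qb) (σ : GQ) :
    σ ∈ A.inertiaSubgroupIn ℚ ↔ σ • A = A ∧ ∀ a ∈ A, σ a - a ∈ A.nonunits := by
  constructor
  · rintro ⟨g, hg, rfl⟩
    refine ⟨g.2, fun a ha => ?_⟩
    have h1 : g • (IsLocalRing.residue A ⟨a, ha⟩) = IsLocalRing.residue A ⟨a, ha⟩ :=
      RingEquiv.congr_fun (MonoidHom.mem_ker.1 hg) (IsLocalRing.residue A ⟨a, ha⟩)
    rw [← IsLocalRing.ResidueField.residue_smul, ← sub_eq_zero, ← map_sub,
      IsLocalRing.residue_eq_zero_iff, ← ValuationSubring.coe_mem_nonunits_iff] at h1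
    exact h1
  · rintro ⟨hdec, h⟩
    have hdec' : σ ∈ A.decompositionSubgroup ℚ := hdec
    refine ⟨⟨σ, hdec'⟩, ?_, rfl⟩
    change (⟨σ, hdec'⟩ : A.decompositionSubgroup ℚ) ∈ MonoidHom.ker _
    rw [MonoidHom.mem_ker]
    ext xbar
    obtain ⟨x, rfl⟩ := IsLocalRing.residue_surjective xbar
    change (⟨σ, hdec'⟩ : A.decompositionSubgroup ℚ) • IsLocalRing.residue A x
      = IsLocalRing.residue A x
    rw [← IsLocalRing.ResidueField.residue_smul, ← sub_eq_zero, ← map_sub,
      IsLocalRing.residue_eq_zero_iff, ← ValuationSubring.coe_mem_nonunits_iff]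
    exact h x x.2

theorem smul_mem_nonunits (A : ValuationSubring Qb) (τ : GQ) {x : Qb} (hx : x ∈ A.nonunits) :
    τ x ∈ (τ • A).nonunits := by
  rw [ValuationSubring.mem_nonunits_iff_or] at hx ⊢
  rcases hx with rfl | hx
  · left; exact map_zero τ
  · right
    intro h
    apply hx
    rw [← map_inv₀] at h
    exact ValuationSubring.smul_mem_pointwise_smul_iff.1 h

theorem liesOver_smul (A : ValuationSubring Qb) (τ : GQ) {q : ℕ} (h : A.LiesOverPrime q) :
    (τ • A).LiesOverPrime q := by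
  have := smul_mem_nonunits A τ h
  rwa [map_natCast] at this

theorem conj_mem_inertia (A : ValuationSubring Qb) (τ σ : GQ) (h : σ ∈ A.inertiaSubgroupIn ℚ) :
    τ * σ * τ⁻¹ ∈ (τ • A).inertiaSubgroupIn ℚ := by
  rw [mem_inertia_iff] at h ⊢
  obtain ⟨h1, h2⟩ := h
  refine ⟨?_, fun a ha => ?_⟩
  · rw [← mul_smul, inv_mul_cancel_right, mul_smul, h1]
  · obtain ⟨b, hb, rfl⟩ := (ValuationSubring.mem_smul_pointwise_iff_exists τ a A).1 ha
    have h3 := smul_mem_nonunits A τ (h2 b hb)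
    rw [map_sub] at h3
    have h4 : (τ * σ * τ⁻¹) (τ • b) = τ (σ b) := by
      change τ (σ (τ⁻¹ (τ b))) = τ (σ b)
      congr 2
      exact τ.symm_apply_apply b
    rw [h4]
    exact h3

/-! ### the normal core of a fixing subgroup -/

/-- the normal closure of `F` in `ℚ̄`. -/
def ncl (F : IntermediateField ℚ Qb) : IntermediateField ℚ Qb :=
  ⨆ f : GQ, F.map (f : Qb →ₐ[ℚ] Qb)

theorem ncl_finiteDimensional (F : IntermediateField ℚ Qb) (hF : FiniteDimensional ℚ F) :
    FiniteDimensional ℚ (ncl F) := by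
  have : Algebra.IsAlgebraic ℚ Qb := AlgebraicClosure.isAlgebraic ℚ
  have : IsAlgClosure ℚ Qb := ⟨inferInstance, inferInstance⟩
  have : Normal ℚ Qb := IsAlgClosure.normal ℚ Qb
  have h : ncl F = IntermediateField.normalClosure ℚ F Qb :=
    (IntermediateField.normalClosure_def'' F).symm
  rw [h]
  infer_instance

theorem fixing_normalClosure_le (F : IntermediateField ℚ Qb) :
    (ncl F).fixingSubgroup ≤ F.fixingSubgroup.normalCore := by
  intro g hg τ
  rw [IntermediateField.mem_fixingSubgroup_iff] at hg ⊢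
  intro x hx
  have h1 : τ⁻¹ x ∈ ncl F := by
    refine (le_iSup (fun f : GQ => F.map (f : Qb →ₐ[ℚ] Qb)) τ⁻¹) ?_
    exact ⟨x, hx, rfl⟩
  have h2 := hg _ h1
  change τ (g (τ⁻¹ x)) = x
  have h2' : g (τ⁻¹ x) = τ⁻¹ x := h2
  rw [h2']
  exact τ.apply_symm_apply x

theorem normalClosure_unram {S : Finset Nat.Primes} {F : IntermediateField ℚ Qb}
    (hF : F.IsUnramifiedOutside S) :
    (ncl F).IsUnramifiedOutside S := by
  refine ⟨ncl_finiteDimensional F hF.1, fun q hq A hA g hg => ?_⟩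
  rw [IntermediateField.mem_fixingSubgroup_iff]
  -- the fixed field of `g`
  have key : ncl F ≤ IntermediateField.fixedField (Subgroup.zpowers g) := by
    refine iSup_le fun τ => ?_
    rintro _ ⟨x, hx, rfl⟩
    rw [IntermediateField.mem_fixedField_iff]
    have hfix : g (τ x) = τ x := by
      have h1 := conj_mem_inertia A τ⁻¹ g hg
      have h2 := hF.2 q hq (τ⁻¹ • A) (liesOver_smul A τ⁻¹ hA) h1
      rw [IntermediateField.mem_fixingSubgroup_iff] at h2
      have h3 : (τ⁻¹ * g * τ⁻¹⁻¹) x = x := h2 x hx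
      rw [inv_inv] at h3
      have h4 : τ⁻¹ (g (τ x)) = x := h3
      have h5 := congrArg τ h4
      rwa [show τ (τ⁻¹ (g (τ x))) = g (τ x) from τ.apply_symm_apply _] at h5
    intro f hf
    obtain ⟨n, rfl⟩ := Subgroup.mem_zpowers_iff.1 hf
    have hstab : g ∈ MulAction.stabilizer GQ (τ x) := hfix
    exact (MulAction.stabilizer GQ (τ x)).zpow_mem hstab n
  intro x hx
  exact (IntermediateField.mem_fixedField_iff _ _).1 (key hx) g (Subgroup.mem_zpowers g)

theorem normalCore_mem_levS {S : Finset Nat.Primes} {F : IntermediateField ℚ Qb}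
    (hF : F.IsUnramifiedOutside S) : F.fixingSubgroup.normalCore ∈ (levS S).S :=
  ⟨inferInstance, _, normalClosure_unram hF, fixing_normalClosure_le F⟩

theorem normalCore_mem_levAll {F : IntermediateField ℚ Qb} (hF : FiniteDimensional ℚ F) :
    F.fixingSubgroup.normalCore ∈ levAll.S :=
  ⟨inferInstance, _, ncl_finiteDimensional F hF, fixing_normalClosure_le F⟩

/-! ### low degree dictionary -/

section Dict

variable {k : Type} [CommRing k] {G : Type} [Group G]

/-- functions of one variable as `1`-cochains. -/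
def e1 (M : Rep.{0} k G) : (G → M) ≃ₗ[k] ((Fin 1 → G) → M) :=
  LinearEquiv.funCongrLeft k M (Equiv.funUnique (Fin 1) G)

lemma e1_apply (M : Rep.{0} k G) (y : G → M) (g : Fin 1 → G) : e1 M y g = y (g 0) := rfl

/-- functions of two variables as `2`-cochains. -/
def e2 (M : Rep.{0} k G) : (G × G → M) ≃ₗ[k] ((Fin 2 → G) → M) :=
  LinearEquiv.funCongrLeft k M (piFinTwoEquiv fun _ => G)

lemma e2_apply (M : Rep.{0} k G) (f : G × G → M) (g : Fin 2 → G) :
    e2 M f g = f (g 0, g 1) := rfl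

lemma dd_e1 (M : Rep.{0} k G) (y : G → M) : dd M 1 (e1 M y) = e2 M ((d₁₂ M).hom y) := by
  funext g
  rw [dd_apply, e2_apply, d₁₂_hom_apply, Fin.sum_univ_two]
  simp only [e1_apply, Fin.val_zero, zero_add, pow_one, neg_smul, one_smul, Fin.val_one,
    Nat.one_add, neg_one_sq, sub_eq_add_neg, add_assoc]
  rfl

lemma dd_e2_apply (M : Rep.{0} k G) (f : G × G → M) (g : Fin 3 → G) :
    dd M 2 (e2 M f) g
      = M.ρ (g 0) (f (g 1, g 2)) - f (g 0 * g 1, g 2) + f (g 0, g 1 * g 2) - f (g 0, g 1) := by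
  rw [dd_apply, Fin.sum_univ_three]
  simp only [e2_apply, sub_eq_add_neg, add_assoc, Fin.val_zero, zero_add, pow_one, neg_smul,
    one_smul, Fin.val_one, Fin.val_two, pow_succ' (-1 : k) 2, neg_sq, Nat.one_add, one_pow, mul_one]
  rfl

lemma dd_e2_eq_zero_iff (M : Rep.{0} k G) (f : G × G → M) :
    dd M 2 (e2 M f) = 0 ↔ f ∈ cocycles₂ M := by
  rw [mem_cocycles₂_iff]
  constructor
  · intro h a b c
    have h1 := congrFun h ![a, b, c]
    rw [dd_e2_apply] at h1
    simp only [Matrix.cons_val_zero, Matrix.cons_val_one, Matrix.cons_val_two, Matrix.head_cons,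
      Matrix.tail_cons, Pi.zero_apply] at h1
    have h2 : M.ρ a (f (b, c)) - f (a * b, c) + f (a, b * c) - f (a, b) = 0 := h1
    rw [← sub_eq_zero, ← neg_eq_zero, ← h2]
    abel
  · intro h
    funext g
    rw [dd_e2_apply, Pi.zero_apply]
    have h1 := h (g 0) (g 1) (g 2)
    rw [← sub_eq_zero] at h1
    rw [← neg_eq_zero, ← h1]
    abel

lemma mem_lc_iff_of_trivOn {𝒰 : LevelSys G} {M : Rep.{0} k G} (hM : IsTrivOn 𝒰 M) {n : ℕ}
    {f : (Fin n → G) → M} :
    f ∈ lcCochains 𝒰 M n ↔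
      ∃ U ∈ 𝒰.S, ∀ g g' : Fin n → G, (∀ i, (g i)⁻¹ * g' i ∈ U) → f g = f g' := by
  constructor
  · rintro ⟨U, hU, h⟩
    exact ⟨U, hU, h.1⟩
  · rintro ⟨U, hU, h⟩
    obtain ⟨V, hV, hVM⟩ := hM
    obtain ⟨W, hW, h1, h2⟩ := 𝒰.dir U hU V hV
    exact ⟨W, hW, fun g g' hg => h g g' fun i => h1 (hg i), fun g u hu => hVM u (h2 hu) _⟩

end Dict

section DictQ

variable {k : Type} [CommRing k]

lemma trivOn_levAll {S : Finset Nat.Primes} {M : Rep.{0} k GQ} (hM : IsTrivOn (levS S) M) :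
    IsTrivOn levAll M := by
  obtain ⟨U, hU, h⟩ := hM
  exact ⟨U, levS_subset_levAll S hU, h⟩

lemma trivOn_comap {H : Type} [Group H] (r : H →* GQ) {M : Rep.{0} k GQ}
    (hM : IsTrivOn levAll M) : IsTrivOn (levAll.comap r) (Rep.res r M) := by
  obtain ⟨U, hU, h⟩ := hM
  exact ⟨U.comap r, ⟨U, hU, rfl⟩, fun u hu m => h (r u) hu m⟩

lemma e1_mem_levS_iff {S : Finset Nat.Primes} {M : Rep.{0} k GQ} (hM : IsTrivOn (levS S) M)
    (y : GQ → M) : e1 M y ∈ lcCochains (levS S) M 1 ↔ IsLevelConstantS₁ S y := by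
  rw [mem_lc_iff_of_trivOn hM]
  constructor
  · rintro ⟨U, ⟨-, F, hF, hFU⟩, h⟩
    refine ⟨F, hF, fun g s hs => ?_⟩
    have := h (fun _ => g * s) (fun _ => g) fun _ => by
      have : (g * s)⁻¹ * g = s⁻¹ := by group
      rw [this]
      exact hFU (inv_mem hs)
    exact this
  · rintro ⟨F, hF, h⟩
    refine ⟨_, normalCore_mem_levS hF, fun g g' hg => ?_⟩
    rw [e1_apply, e1_apply]
    have h1 := h (g 0) ((g 0)⁻¹ * g' 0) (Subgroup.normalCore_le _ (hg 0))
    rw [mul_inv_cancel_left] at h1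
    exact h1.symm

lemma e2_mem_levS_iff {S : Finset Nat.Primes} {M : Rep.{0} k GQ} (hM : IsTrivOn (levS S) M)
    (f : GQ × GQ → M) : e2 M f ∈ lcCochains (levS S) M 2 ↔ IsLevelConstantS₂ S f := by
  rw [mem_lc_iff_of_trivOn hM]
  constructor
  · rintro ⟨U, ⟨-, F, hF, hFU⟩, h⟩
    refine ⟨F, hF, fun g g' s s' hs hs' => ?_⟩
    have := h ![g * s, g' * s'] ![g, g'] fun i => by
      fin_cases i
      · have : (g * s)⁻¹ * g = s⁻¹ := by group
        change (g * s)⁻¹ * g ∈ U
        rw [this]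
        exact hFU (inv_mem hs)
      · have : (g' * s')⁻¹ * g' = s'⁻¹ := by group
        change (g' * s')⁻¹ * g' ∈ U
        rw [this]
        exact hFU (inv_mem hs')
    exact this
  · rintro ⟨F, hF, h⟩
    refine ⟨_, normalCore_mem_levS hF, fun g g' hg => ?_⟩
    rw [e2_apply, e2_apply]
    have h1 := h (g 0) (g 1) ((g 0)⁻¹ * g' 0) ((g 1)⁻¹ * g' 1)
      (Subgroup.normalCore_le _ (hg 0)) (Subgroup.normalCore_le _ (hg 1))
    rw [mul_inv_cancel_left, mul_inv_cancel_left] at h1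
    exact h1.symm

lemma e1_mem_comap_iff {H : Type} [Group H] (r : H →* GQ) {M : Rep.{0} k GQ}
    (hM : IsTrivOn levAll M) (y : H → M) :
    e1 (Rep.res r M) y ∈ lcCochains (levAll.comap r) (Rep.res r M) 1 ↔ IsLevelConstant₁ r y := by
  rw [mem_lc_iff_of_trivOn (trivOn_comap r hM)]
  constructor
  · rintro ⟨_, ⟨U, ⟨-, F, hF, hFU⟩, rfl⟩, h⟩
    refine ⟨F, hF, fun g s hs => ?_⟩
    have := h (fun _ => g * s) (fun _ => g) fun _ => by
      have : (g * s)⁻¹ * g = s⁻¹ := by group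
      rw [this, Subgroup.mem_comap, map_inv]
      exact hFU (inv_mem hs)
    exact this
  · rintro ⟨F, hF, h⟩
    refine ⟨_, ⟨_, normalCore_mem_levAll hF, rfl⟩, fun g g' hg => ?_⟩
    rw [e1_apply, e1_apply]
    have h1 := h (g 0) ((g 0)⁻¹ * g' 0) (Subgroup.normalCore_le _ (hg 0))
    rw [mul_inv_cancel_left] at h1
    exact h1.symm

end DictQ

end BrLev

end Fermat.Agent.CFT.Top

end
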