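/-
TEAM CFT -> S55, top level (architect helper62).  File 1: elementary cochain complexes of modules.

Everything is hands-on: a complex is a family of modules `X n` (`n : ℕ`) with differentials,
cohomology is the honest subquotient `Z n ⧸ B n`.  No category theory.
-/
import Mathlib

set_option autoImplicit false

noncomputable section

namespace Fermat.Agent.CFT.Top

/-- An `ℕ`-indexed cochain complex of `k`-modules (all in `Type`). -/
structure Cpx (k : Type) [CommRing k] where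
  X : ℕ → Type
  [acg : ∀ n, AddCommGroup (X n)]
  [mod : ∀ n, Module k (X n)]
  d : ∀ n, X n →ₗ[k] X (n + 1)
  d_d : ∀ (n : ℕ) (x : X n), d (n + 1) (d n x) = 0

attribute [instance] Cpx.acg Cpx.mod

namespace Cpx

variable {k : Type} [CommRing k]

/-- cocycles -/
def Z (C : Cpx k) (n : ℕ) : Submodule k (C.X n) := LinearMap.ker (C.d n)

/-- coboundaries -/
def B (C : Cpx k) : ∀ n : ℕ, Submodule k (C.X n)
  | 0 => ⊥
  | (n + 1) => LinearMap.range (C.d n)

lemma mem_Z {C : Cpx k} {n : ℕ} {x : C.X n} : x ∈ C.Z n ↔ C.d n x = 0 := LinearMap.mem_ker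

lemma mem_B_zero {C : Cpx k} {x : C.X 0} : x ∈ C.B 0 ↔ x = 0 := Submodule.mem_bot k

lemma mem_B_succ {C : Cpx k} {n : ℕ} {x : C.X (n + 1)} : x ∈ C.B (n + 1) ↔ ∃ y, C.d n y = x :=
  LinearMap.mem_range

lemma B_le_Z (C : Cpx k) : ∀ n, C.B n ≤ C.Z n
  | 0 => bot_le
  | (n + 1) => by
    rintro x ⟨y, rfl⟩
    exact mem_Z.2 (C.d_d n y)

/-- cohomology -/
abbrev H (C : Cpx k) (n : ℕ) : Type := ↥(C.Z n) ⧸ (C.B n).comap (C.Z n).subtype

/-- the class of a cocycle -/
abbrev cls (C : Cpx k) (n : ℕ) : ↥(C.Z n) →ₗ[k] C.H n := Submodule.mkQ _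

lemma cls_surjective (C : Cpx k) (n : ℕ) : Function.Surjective (C.cls n) :=
  Submodule.mkQ_surjective _

lemma cls_eq_zero_iff {C : Cpx k} {n : ℕ} (z : C.Z n) : C.cls n z = 0 ↔ (z : C.X n) ∈ C.B n := by
  simp [Submodule.Quotient.mk_eq_zero, Submodule.mem_comap]

/-- morphisms of complexes -/
structure Hom (C D : Cpx k) where
  f : ∀ n, C.X n →ₗ[k] D.X n
  comm : ∀ (n : ℕ) (x : C.X n), f (n + 1) (C.d n x) = D.d n (f n x)

namespace Hom

variable {C D E : Cpx k}

@[ext] lemma ext {φ ψ : Hom C D} (h : ∀ n x, φ.f n x = ψ.f n x) : φ = ψ := by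
  cases φ; cases ψ
  congr
  funext n
  exact LinearMap.ext (h n)

/-- identity -/
def id (C : Cpx k) : Hom C C := ⟨fun _ => LinearMap.id, fun _ _ => rfl⟩

/-- composition (`φ` first) -/
def comp (φ : Hom C D) (ψ : Hom D E) : Hom C E :=
  ⟨fun n => (ψ.f n).comp (φ.f n), fun n x => by simp [φ.comm, ψ.comm]⟩

lemma map_mem_Z (φ : Hom C D) {n : ℕ} {x : C.X n} (hx : x ∈ C.Z n) : φ.f n x ∈ D.Z n := by
  rw [mem_Z] at hx ⊢
  rw [← φ.comm, hx, map_zero]

lemma map_mem_B (φ : Hom C D) : ∀ {n : ℕ} {x : C.X n}, x ∈ C.B n → φ.f n x ∈ D.B n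
  | 0, x, hx => by
    rw [mem_B_zero] at hx ⊢
    rw [hx, map_zero]
  | (n + 1), x, hx => by
    obtain ⟨y, rfl⟩ := mem_B_succ.1 hx
    exact mem_B_succ.2 ⟨φ.f n y, (φ.comm n y).symm⟩

/-- induced map on cocycles -/
def mapZ (φ : Hom C D) (n : ℕ) : ↥(C.Z n) →ₗ[k] ↥(D.Z n) :=
  (φ.f n).restrict fun _ hx => φ.map_mem_Z hx

@[simp] lemma coe_mapZ (φ : Hom C D) (n : ℕ) (z : C.Z n) : (φ.mapZ n z : D.X n) = φ.f n z := rfl

/-- induced map on cohomology -/
def mapH (φ : Hom C D) (n : ℕ) : C.H n →ₗ[k] D.H n :=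
  Submodule.mapQ _ _ (φ.mapZ n) fun _ hx => φ.map_mem_B hx

@[simp] lemma mapH_cls (φ : Hom C D) (n : ℕ) (z : C.Z n) :
    φ.mapH n (C.cls n z) = D.cls n (φ.mapZ n z) := rfl

end Hom

/-- `0 → A → B → C → 0` is exact in every degree. -/
structure IsSES {A B C : Cpx k} (i : Hom A B) (q : Hom B C) : Prop where
  inj : ∀ n, Function.Injective (i.f n)
  surj : ∀ n, Function.Surjective (q.f n)
  exact : ∀ (n : ℕ) (b : B.X n), q.f n b = 0 ↔ ∃ a, i.f n a = b

/-- `δ` is a connecting homomorphism for `(i, q)` in degree `n`. -/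
def IsDelta {A B C : Cpx k} (i : Hom A B) (q : Hom B C) (n : ℕ)
    (δ : C.H n →ₗ[k] A.H (n + 1)) : Prop :=
  ∀ (z : C.Z n) (b : B.X n) (a : A.Z (n + 1)), q.f n b = z → i.f (n + 1) a = B.d n b →
    δ (C.cls n z) = A.cls (n + 1) a

open Classical in
/-- the connecting homomorphism (junk `0` if `(i, q)` is not short exact). -/
def delta {A B C : Cpx k} (i : Hom A B) (q : Hom B C) (n : ℕ) : C.H n →ₗ[k] A.H (n + 1) :=
  if h : ∃ δ, IsDelta i q n δ then h.choose else 0

/-- product of complexes -/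
def pi {ι : Type} (D : ι → Cpx k) : Cpx k where
  X n := ∀ v, (D v).X n
  d n := LinearMap.pi fun v => ((D v).d n).comp (LinearMap.proj v)
  d_d n x := by
    funext v
    exact (D v).d_d n (x v)

/-- projection of a product -/
def piProj {ι : Type} (D : ι → Cpx k) (v : ι) : Hom (pi D) (D v) :=
  ⟨fun _ => LinearMap.proj v, fun _ _ => rfl⟩

/-- map into a product -/
def piLift {ι : Type} {C : Cpx k} {D : ι → Cpx k} (r : ∀ v, Hom C (D v)) : Hom C (pi D) :=
  ⟨fun n => LinearMap.pi fun v => (r v).f n, fun n x => by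
    funext v
    exact (r v).comm n x⟩

/-- underlying modules of the (shifted) mapping cone of `r : C → D`:
`cone⁰ = C⁰`, `coneⁿ⁺¹ = Cⁿ⁺¹ × Dⁿ`. -/
def coneX (C D : Cpx k) : ℕ → Type
  | 0 => C.X 0
  | (n + 1) => C.X (n + 1) × D.X n

instance coneAcg (C D : Cpx k) : ∀ n, AddCommGroup (coneX C D n)
  | 0 => inferInstanceAs (AddCommGroup (C.X 0))
  | (n + 1) => inferInstanceAs (AddCommGroup (C.X (n + 1) × D.X n))

instance coneMod (C D : Cpx k) : ∀ n, Module k (coneX C D n)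
  | 0 => inferInstanceAs (Module k (C.X 0))
  | (n + 1) => inferInstanceAs (Module k (C.X (n + 1) × D.X n))

/-- differential of the cone: `c ↦ (dc, r c)` in degree `0`,
`(c, b) ↦ (dc, r c - d b)` in positive degrees. -/
def coneD {C D : Cpx k} (r : Hom C D) : ∀ n, coneX C D n →ₗ[k] coneX C D (n + 1)
  | 0 => LinearMap.prod (C.d 0) (r.f 0)
  | (n + 1) => LinearMap.prod ((C.d (n + 1)).comp (LinearMap.fst k _ _))
      ((r.f (n + 1)).comp (LinearMap.fst k _ _) - (D.d n).comp (LinearMap.snd k _ _))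

/-- The (shifted) mapping cone ("compact support complex") of `r : C → D`. -/
def cone {C D : Cpx k} (r : Hom C D) : Cpx k where
  X := coneX C D
  d := coneD r
  d_d
    | 0, x => by
      have h1 : ∀ y : C.X 0, ((C.d 1) (C.d 0 y), r.f 1 (C.d 0 y) - D.d 0 (r.f 0 y))
          = (0 : C.X 2 × D.X 1) := fun y => by
        rw [C.d_d 0 y, r.comm 0 y, sub_self]; rfl
      exact h1 x
    | (n + 1), x => by
      obtain ⟨c, b⟩ := x
      show ((C.d (n + 2)) (C.d (n + 1) c),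
        r.f (n + 2) (C.d (n + 1) c) - D.d (n + 1) (r.f (n + 1) c - D.d n b)) = 0
      rw [C.d_d, r.comm, map_sub, D.d_d, sub_zero, sub_self]; rfl

/-- the projection `cone r → C` -/
def coneFst {C D : Cpx k} (r : Hom C D) : Hom (cone r) C where
  f
    | 0 => LinearMap.id
    | (_ + 1) => LinearMap.fst k _ _
  comm
    | 0, _ => rfl
    | (_ + 1), _ => rfl

/-- the map `Dⁿ → coneⁿ⁺¹`, `b ↦ (0, b)`; it anticommutes with the differentials. -/
def coneInr {C D : Cpx k} (r : Hom C D) (n : ℕ) : D.X n →ₗ[k] (cone r).X (n + 1) :=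
  LinearMap.inr k (C.X (n + 1)) (D.X n)

lemma coneInr_d {C D : Cpx k} (r : Hom C D) (n : ℕ) (b : D.X n) :
    (cone r).d (n + 1) (coneInr r n b) = - coneInr r (n + 1) (D.d n b) := by
  show ((C.d (n + 1)) 0, r.f (n + 1) 0 - D.d n b) = - ((0 : C.X (n + 2)), D.d n b)
  simp

end Cpx

end Fermat.Agent.CFT.Top

end
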