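/-
TEAM CFT -> S55, top level.  File 3: statements (as Props) of the generic homological algebra of
`Cpx`: long exact sequence, naturality of the connecting map, products, cones.
Each package proves `theorem stmt_xxx : Stmt_xxx` in its own file.
-/
import Fermat.Agent.CFT.Top.Cpx

set_option autoImplicit false

noncomputable section

namespace Fermat.Agent.CFT.Top

namespace Cpx

variable {k : Type} [CommRing k]

/-- `H ⁿ(D) → Hⁿ⁺¹(cone r)`, induced by `b ↦ (0, b)`. -/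
def coneι {C D : Cpx k} (r : Hom C D) (n : ℕ) : D.H n →ₗ[k] (cone r).H (n + 1) :=
  Submodule.mapQ _ _
    ((coneInr r n).restrict (p := D.Z n) (q := (cone r).Z (n + 1)) fun b hb => by
      rw [mem_Z] at hb ⊢
      rw [coneInr_d, hb, map_zero, neg_zero])
    (by
      rintro ⟨b, hb⟩ hb'
      simp only [Submodule.mem_comap, Submodule.subtype_apply] at hb' ⊢
      show coneInr r n b ∈ (cone r).B (n + 1)
      cases n with
      | zero =>
        rw [mem_B_zero] at hb'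
        subst hb'
        rw [map_zero]
        exact Submodule.zero_mem _
      | succ m =>
        obtain ⟨y, rfl⟩ := mem_B_succ.1 hb'
        refine mem_B_succ.2 ⟨- coneInr r m y, ?_⟩
        rw [map_neg, coneInr_d, neg_neg])

lemma coneι_cls {C D : Cpx k} (r : Hom C D) (n : ℕ) (b : D.Z n)
    (h : coneInr r n b ∈ (cone r).Z (n + 1)) :
    coneι r n (D.cls n b) = (cone r).cls (n + 1) ⟨coneInr r n b, h⟩ := rfl

/-- functoriality of the cone for a commutative square. -/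
def coneMap {C D C' D' : Cpx k} (r : Hom C D) (r' : Hom C' D') (a : Hom C C') (b : Hom D D')
    (h : ∀ n x, r'.f n (a.f n x) = b.f n (r.f n x)) : Hom (cone r) (cone r') where
  f
    | 0 => a.f 0
    | (n + 1) => LinearMap.prodMap (a.f (n + 1)) (b.f n)
  comm
    | 0, x => by
      have h1 : ∀ y : C.X 0, ((a.f 1) (C.d 0 y), b.f 0 (r.f 0 y))
          = ((C'.d 0 (a.f 0 y), r'.f 0 (a.f 0 y)) : C'.X 1 × D'.X 0) := fun y => by
        rw [a.comm, h]
      exact h1 x
    | (n + 1), x => by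
      obtain ⟨c, e⟩ := x
      show ((a.f (n + 2)) (C.d (n + 1) c), b.f (n + 1) (r.f (n + 1) c - D.d n e))
          = ((C'.d (n + 1) (a.f (n + 1) c), r'.f (n + 1) (a.f (n + 1) c) - D'.d n (b.f n e)) :
            C'.X (n + 2) × D'.X (n + 1))
      rw [a.comm, h, map_sub, b.comm]

end Cpx

open Cpx

/-- G1. the connecting homomorphism exists. -/
def Stmt_delta : Prop :=
  ∀ (k : Type) [CommRing k] (A B C : Cpx k) (i : Hom A B) (q : Hom B C), IsSES i q →
    ∀ n, IsDelta i q n (delta i q n)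

/-- G2. the long exact cohomology sequence. -/
def Stmt_les : Prop :=
  ∀ (k : Type) [CommRing k] (A B C : Cpx k) (i : Hom A B) (q : Hom B C), IsSES i q →
    Function.Injective (i.mapH 0) ∧
    (∀ (n : ℕ) (x : B.H n), q.mapH n x = 0 ↔ ∃ y, i.mapH n y = x) ∧
    (∀ (n : ℕ) (x : C.H n), delta i q n x = 0 ↔ ∃ y, q.mapH n y = x) ∧
    (∀ (n : ℕ) (x : A.H (n + 1)), i.mapH (n + 1) x = 0 ↔ ∃ y, delta i q n y = x)

/-- G3. naturality of the connecting homomorphism. -/
def Stmt_deltaNat : Prop :=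
  ∀ (k : Type) [CommRing k] (A B C A' B' C' : Cpx k) (i : Hom A B) (q : Hom B C)
    (i' : Hom A' B') (q' : Hom B' C') (a : Hom A A') (b : Hom B B') (c : Hom C C'),
    IsSES i q → IsSES i' q' →
    (∀ n x, i'.f n (a.f n x) = b.f n (i.f n x)) → (∀ n x, q'.f n (b.f n x) = c.f n (q.f n x)) →
    ∀ (n : ℕ) (x : C.H n), delta i' q' n (c.mapH n x) = a.mapH (n + 1) (delta i q n x)

/-- G4. functoriality of `mapH`. -/
def Stmt_mapH : Prop :=
  ∀ (k : Type) [CommRing k] (C D E : Cpx k) (φ : Hom C D) (ψ : Hom D E) (n : ℕ) (x : C.H n),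
    (Hom.id C).mapH n x = x ∧ (φ.comp ψ).mapH n x = ψ.mapH n (φ.mapH n x)

/-- G5. cohomology commutes with products. -/
def Stmt_piH : Prop :=
  ∀ (k : Type) [CommRing k] (ι : Type) (D : ι → Cpx k) (n : ℕ),
    Function.Bijective (fun (x : (pi D).H n) (v : ι) => (piProj D v).mapH n x)

/-- G6. the long exact sequence of the cone
`Hⁿ(C) → Hⁿ(D) → Hⁿ⁺¹(cone) → Hⁿ⁺¹(C) → Hⁿ⁺¹(D)`. -/
def Stmt_coneLES : Prop :=
  ∀ (k : Type) [CommRing k] (C D : Cpx k) (r : Hom C D) (n : ℕ),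
    (∀ x : D.H n, coneι r n x = 0 ↔ ∃ y, r.mapH n y = x) ∧
    (∀ x : (cone r).H (n + 1), (coneFst r).mapH (n + 1) x = 0 ↔ ∃ y, coneι r n y = x) ∧
    (∀ x : C.H (n + 1), r.mapH (n + 1) x = 0 ↔ ∃ y, (coneFst r).mapH (n + 1) y = x)

/-- G7. the cone of a short exact sequence of maps is short exact. -/
def Stmt_coneSES : Prop :=
  ∀ (k : Type) [CommRing k] (C₁ C₂ C₃ D₁ D₂ D₃ : Cpx k)
    (r₁ : Hom C₁ D₁) (r₂ : Hom C₂ D₂) (r₃ : Hom C₃ D₃)
    (i : Hom C₁ C₂) (q : Hom C₂ C₃) (j : Hom D₁ D₂) (s : Hom D₂ D₃)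
    (h₁ : ∀ n x, r₂.f n (i.f n x) = j.f n (r₁.f n x))
    (h₂ : ∀ n x, r₃.f n (q.f n x) = s.f n (r₂.f n x)),
    IsSES i q → IsSES j s → IsSES (coneMap r₁ r₂ i j h₁) (coneMap r₂ r₃ q s h₂)

/-- G8. `coneι` anticommutes with connecting homomorphisms, and is natural. -/
def Stmt_coneDelta : Prop :=
  ∀ (k : Type) [CommRing k] (C₁ C₂ C₃ D₁ D₂ D₃ : Cpx k)
    (r₁ : Hom C₁ D₁) (r₂ : Hom C₂ D₂) (r₃ : Hom C₃ D₃)
    (i : Hom C₁ C₂) (q : Hom C₂ C₃) (j : Hom D₁ D₂) (s : Hom D₂ D₃)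
    (h₁ : ∀ n x, r₂.f n (i.f n x) = j.f n (r₁.f n x))
    (h₂ : ∀ n x, r₃.f n (q.f n x) = s.f n (r₂.f n x)),
    IsSES i q → IsSES j s → ∀ (n : ℕ) (x : D₃.H n),
      delta (coneMap r₁ r₂ i j h₁) (coneMap r₂ r₃ q s h₂) (n + 1) (coneι r₃ n x)
        = - coneι r₁ (n + 1) (delta j s n x)

/-- G9. naturality of `coneι` and `coneFst`. -/
def Stmt_coneNat : Prop :=
  ∀ (k : Type) [CommRing k] (C D C' D' : Cpx k) (r : Hom C D) (r' : Hom C' D') (a : Hom C C')
    (b : Hom D D') (h : ∀ n x, r'.f n (a.f n x) = b.f n (r.f n x)) (n : ℕ),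
    (∀ x : D.H n, (coneMap r r' a b h).mapH (n + 1) (coneι r n x) = coneι r' n (b.mapH n x)) ∧
    (∀ x : (cone r).H n, (coneFst r').mapH n ((coneMap r r' a b h).mapH n x)
      = a.mapH n ((coneFst r).mapH n x))

/-- G10. products of short exact sequences are short exact. -/
def Stmt_piSES : Prop :=
  ∀ (k : Type) [CommRing k] (ι : Type) (A B C : ι → Cpx k) (i : ∀ v, Hom (A v) (B v))
    (q : ∀ v, Hom (B v) (C v)), (∀ v, IsSES (i v) (q v)) →
    IsSES (piLift fun v => (piProj A v).comp (i v)) (piLift fun v => (piProj B v).comp (q v))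

/-- G11. the connecting homomorphism of a product is the product of the connecting
homomorphisms. -/
def Stmt_piDelta : Prop :=
  ∀ (k : Type) [CommRing k] (ι : Type) (A B C : ι → Cpx k) (i : ∀ v, Hom (A v) (B v))
    (q : ∀ v, Hom (B v) (C v)), (∀ v, IsSES (i v) (q v)) → ∀ (n : ℕ) (x : (pi C).H n) (v : ι),
    (piProj A v).mapH (n + 1)
      (delta (piLift fun v => (piProj A v).comp (i v)) (piLift fun v => (piProj B v).comp (q v)) n x)
      = delta (i v) (q v) n ((piProj C v).mapH n x)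

end Fermat.Agent.CFT.Top

end
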