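/-
TEAM CFT -> S55, top level.  Package TOP-G1G2: the connecting homomorphism and the long exact
cohomology sequence for the hands-on complexes `Cpx`.
-/
import Fermat.Agent.CFT.Top.CpxStmts

set_option autoImplicit false

noncomputable section

namespace Fermat.Agent.CFT.Top

open Cpx

namespace LES

variable {k : Type} [CommRing k] {A B C : Cpx k} {i : Hom A B} {q : Hom B C}

lemma q_i (h : IsSES i q) (n : ℕ) (a : A.X n) : q.f n (i.f n a) = 0 :=
  (h.exact n _).2 ⟨a, rfl⟩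

/-- if `q b` is a coboundary then `b` is in the image of `i` up to a coboundary. -/
lemma exists_sub_mem_B (h : IsSES i q) : ∀ (n : ℕ) (b : B.X n), q.f n b ∈ C.B n →
    ∃ a : A.X n, b - i.f n a ∈ B.B n
  | 0, b, hb => by
    rw [mem_B_zero] at hb
    obtain ⟨a, rfl⟩ := (h.exact 0 b).1 hb
    exact ⟨a, by rw [sub_self]; exact Submodule.zero_mem _⟩
  | (m + 1), b, hb => by
    obtain ⟨c', hc'⟩ := mem_B_succ.1 hb
    obtain ⟨b', rfl⟩ := h.surj m c'
    have h0 : q.f (m + 1) (b - B.d m b') = 0 := by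
      rw [map_sub, q.comm, hc', sub_self]
    obtain ⟨a, ha⟩ := (h.exact (m + 1) _).1 h0
    refine ⟨a, mem_B_succ.2 ⟨b', ?_⟩⟩
    rw [ha]; abel

lemma d_eq_zero_of_mem_B {D : Cpx k} {n : ℕ} {x : D.X n} (hx : x ∈ D.B n) : D.d n x = 0 :=
  mem_Z.1 (D.B_le_Z n hx)

/-- well-definedness of the connecting map. -/
lemma mem_B_of_lift (h : IsSES i q) (n : ℕ) (b : B.X n) (a : A.X (n + 1))
    (hb : q.f n b ∈ C.B n) (ha : i.f (n + 1) a = B.d n b) : a ∈ A.B (n + 1) := by
  obtain ⟨a', ha'⟩ := exists_sub_mem_B h n b hb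
  refine mem_B_succ.2 ⟨a', h.inj (n + 1) ?_⟩
  have h1 := d_eq_zero_of_mem_B ha'
  rw [map_sub, sub_eq_zero] at h1
  rw [i.comm, ha, h1]

/-- lifts exist. -/
lemma exists_lift (h : IsSES i q) (n : ℕ) (z : C.Z n) :
    ∃ (b : B.X n) (a : A.Z (n + 1)), q.f n b = z ∧ i.f (n + 1) a = B.d n b := by
  obtain ⟨b, hb⟩ := h.surj n z
  have h0 : q.f (n + 1) (B.d n b) = 0 := by
    rw [q.comm, hb]; exact mem_Z.1 z.2
  obtain ⟨a, ha⟩ := (h.exact (n + 1) _).1 h0
  refine ⟨b, ⟨a, mem_Z.2 (h.inj (n + 2) ?_)⟩, hb, ha⟩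
  rw [i.comm, ha, B.d_d, map_zero]

/-- chosen lift to `B`. -/
def liftB (h : IsSES i q) (n : ℕ) (z : C.Z n) : B.X n := (exists_lift h n z).choose

/-- chosen lift to `A`. -/
def liftA (h : IsSES i q) (n : ℕ) (z : C.Z n) : A.Z (n + 1) :=
  (exists_lift h n z).choose_spec.choose

lemma q_liftB (h : IsSES i q) (n : ℕ) (z : C.Z n) : q.f n (liftB h n z) = z :=
  (exists_lift h n z).choose_spec.choose_spec.1

lemma i_liftA (h : IsSES i q) (n : ℕ) (z : C.Z n) :
    i.f (n + 1) (liftA h n z) = B.d n (liftB h n z) :=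
  (exists_lift h n z).choose_spec.choose_spec.2

/-- two lifts of cohomologous cocycles give cohomologous cocycles. -/
lemma cls_eq_of_lifts (h : IsSES i q) (n : ℕ) (b b' : B.X n) (a a' : A.Z (n + 1))
    (hb : q.f n b - q.f n b' ∈ C.B n) (ha : i.f (n + 1) a = B.d n b)
    (ha' : i.f (n + 1) a' = B.d n b') : A.cls (n + 1) a = A.cls (n + 1) a' := by
  rw [← sub_eq_zero, ← map_sub, cls_eq_zero_iff]
  refine mem_B_of_lift h n (b - b') _ (by rwa [map_sub]) ?_
  rw [Submodule.coe_sub, map_sub, map_sub, ha, ha']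

/-- the connecting map on cocycles. -/
def deltaZ (h : IsSES i q) (n : ℕ) : ↥(C.Z n) →ₗ[k] A.H (n + 1) where
  toFun z := A.cls (n + 1) (liftA h n z)
  map_add' z z' := by
    rw [← map_add]
    refine cls_eq_of_lifts h n (liftB h n (z + z')) (liftB h n z + liftB h n z') _ _ ?_
      (i_liftA h n _) ?_
    · rw [map_add, q_liftB, q_liftB, q_liftB, Submodule.coe_add, sub_self]
      exact Submodule.zero_mem _
    · rw [Submodule.coe_add, map_add, map_add, i_liftA, i_liftA]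
  map_smul' c z := by
    rw [RingHom.id_apply, ← map_smul]
    refine cls_eq_of_lifts h n (liftB h n (c • z)) (c • liftB h n z) _ _ ?_
      (i_liftA h n _) ?_
    · rw [map_smul, q_liftB, q_liftB, Submodule.coe_smul, sub_self]
      exact Submodule.zero_mem _
    · rw [Submodule.coe_smul, map_smul, map_smul, i_liftA]

/-- the connecting map (explicit construction). -/
def deltaH (h : IsSES i q) (n : ℕ) : C.H n →ₗ[k] A.H (n + 1) :=
  Submodule.liftQ _ (deltaZ h n) (by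
    intro z hz
    rw [Submodule.mem_comap, Submodule.subtype_apply] at hz
    rw [LinearMap.mem_ker]
    show A.cls (n + 1) (liftA h n z) = 0
    rw [cls_eq_zero_iff]
    exact mem_B_of_lift h n (liftB h n z) _ (by rwa [q_liftB]) (i_liftA h n z))

lemma deltaH_cls (h : IsSES i q) (n : ℕ) (z : C.Z n) :
    deltaH h n (C.cls n z) = A.cls (n + 1) (liftA h n z) := rfl

lemma isDelta_deltaH (h : IsSES i q) (n : ℕ) : IsDelta i q n (deltaH h n) := by
  intro z b a hb ha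
  rw [deltaH_cls]
  refine cls_eq_of_lifts h n _ b _ _ ?_ (i_liftA h n z) ha
  rw [q_liftB, hb, sub_self]
  exact Submodule.zero_mem _

lemma isDelta_delta (h : IsSES i q) (n : ℕ) : IsDelta i q n (delta i q n) := by
  have hex : ∃ δ, IsDelta i q n δ := ⟨_, isDelta_deltaH h n⟩
  unfold delta
  rw [dif_pos hex]
  exact hex.choose_spec

/-- the defining formula of `delta`. -/
lemma delta_cls (h : IsSES i q) (n : ℕ) (z : C.Z n) (b : B.X n) (a : A.Z (n + 1))
    (hb : q.f n b = z) (ha : i.f (n + 1) a = B.d n b) :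
    delta i q n (C.cls n z) = A.cls (n + 1) a :=
  isDelta_delta h n z b a hb ha

/-- a connecting homomorphism is unique. -/
lemma isDelta_unique (h : IsSES i q) (n : ℕ) {δ δ' : C.H n →ₗ[k] A.H (n + 1)}
    (hδ : IsDelta i q n δ) (hδ' : IsDelta i q n δ') : δ = δ' := by
  refine LinearMap.ext fun x => ?_
  obtain ⟨z, rfl⟩ := C.cls_surjective n x
  obtain ⟨b, a, hb, ha⟩ := exists_lift h n z
  rw [hδ z b a hb ha, hδ' z b a hb ha]

lemma delta_eq_of_isDelta (h : IsSES i q) (n : ℕ) {δ : C.H n →ₗ[k] A.H (n + 1)}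
    (hδ : IsDelta i q n δ) : delta i q n = δ :=
  isDelta_unique h n (isDelta_delta h n) hδ

/-- every class in `Hⁿ(C)` together with its image under `delta`, in terms of lifts. -/
lemma exists_delta_eq (h : IsSES i q) (n : ℕ) (x : C.H n) :
    ∃ (z : C.Z n) (b : B.X n) (a : A.Z (n + 1)), C.cls n z = x ∧ q.f n b = z ∧
      i.f (n + 1) a = B.d n b ∧ delta i q n x = A.cls (n + 1) a := by
  obtain ⟨z, rfl⟩ := C.cls_surjective n x
  obtain ⟨b, a, hb, ha⟩ := exists_lift h n z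
  exact ⟨z, b, a, rfl, hb, ha, delta_cls h n z b a hb ha⟩

lemma mapH_zero_injective (h : IsSES i q) : Function.Injective (i.mapH 0) := by
  rw [injective_iff_map_eq_zero]
  intro x hx
  obtain ⟨z, rfl⟩ := A.cls_surjective 0 x
  rw [Hom.mapH_cls, cls_eq_zero_iff, mem_B_zero, Hom.coe_mapZ] at hx
  have hz : (z : A.X 0) = 0 := h.inj 0 (by rw [hx, map_zero])
  rw [cls_eq_zero_iff, mem_B_zero, hz]

lemma exact_B (h : IsSES i q) (n : ℕ) (x : B.H n) :
    q.mapH n x = 0 ↔ ∃ y, i.mapH n y = x := by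
  constructor
  · intro hx
    obtain ⟨b, rfl⟩ := B.cls_surjective n x
    rw [Hom.mapH_cls, cls_eq_zero_iff, Hom.coe_mapZ] at hx
    obtain ⟨a, ha⟩ := exists_sub_mem_B h n b hx
    have haZ : a ∈ A.Z n := by
      refine mem_Z.2 (h.inj (n + 1) ?_)
      have h1 := d_eq_zero_of_mem_B ha
      rw [map_sub, sub_eq_zero] at h1
      rw [i.comm, ← h1, map_zero]
      exact mem_Z.1 b.2
    refine ⟨A.cls n ⟨a, haZ⟩, ?_⟩
    rw [Hom.mapH_cls, eq_comm, ← sub_eq_zero, ← map_sub, cls_eq_zero_iff]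
    exact ha
  · rintro ⟨y, rfl⟩
    obtain ⟨a, rfl⟩ := A.cls_surjective n y
    rw [Hom.mapH_cls, Hom.mapH_cls, cls_eq_zero_iff, Hom.coe_mapZ, Hom.coe_mapZ, q_i h]
    exact Submodule.zero_mem _

lemma exact_C (h : IsSES i q) (n : ℕ) (x : C.H n) :
    delta i q n x = 0 ↔ ∃ y, q.mapH n y = x := by
  constructor
  · intro hx
    obtain ⟨z, b, a, rfl, hb, ha, hd⟩ := exists_delta_eq h n x
    rw [hd, cls_eq_zero_iff] at hx
    obtain ⟨a', ha'⟩ := mem_B_succ.1 hx
    have hZ : b - i.f n a' ∈ B.Z n := by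
      rw [mem_Z, map_sub, ← i.comm, ha', ha, sub_self]
    refine ⟨B.cls n ⟨_, hZ⟩, ?_⟩
    rw [Hom.mapH_cls]
    congr 1
    apply Subtype.ext
    rw [Hom.coe_mapZ]
    show q.f n (b - i.f n a') = z
    rw [map_sub, q_i h, sub_zero, hb]
  · rintro ⟨y, rfl⟩
    obtain ⟨b, rfl⟩ := B.cls_surjective n y
    rw [Hom.mapH_cls, delta_cls h n _ b 0 rfl, map_zero]
    rw [Submodule.coe_zero, map_zero]
    exact (mem_Z.1 b.2).symm

lemma exact_A (h : IsSES i q) (n : ℕ) (x : A.H (n + 1)) :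
    i.mapH (n + 1) x = 0 ↔ ∃ y, delta i q n y = x := by
  constructor
  · intro hx
    obtain ⟨a, rfl⟩ := A.cls_surjective (n + 1) x
    rw [Hom.mapH_cls, cls_eq_zero_iff, Hom.coe_mapZ] at hx
    obtain ⟨b, hb⟩ := mem_B_succ.1 hx
    have hZ : q.f n b ∈ C.Z n := by
      rw [mem_Z, ← q.comm, hb, q_i h]
    exact ⟨C.cls n ⟨_, hZ⟩, delta_cls h n _ b a rfl hb.symm⟩
  · rintro ⟨y, rfl⟩
    obtain ⟨z, b, a, rfl, hb, ha, hd⟩ := exists_delta_eq h n y
    rw [hd, Hom.mapH_cls, cls_eq_zero_iff, Hom.coe_mapZ, ha]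
    exact mem_B_succ.2 ⟨b, rfl⟩

end LES

/-- G1. -/
theorem stmt_delta : Stmt_delta := fun _ _ _ _ _ _ _ h n => LES.isDelta_delta h n

/-- G2. -/
theorem stmt_les : Stmt_les := fun _ _ _ _ _ _ _ h =>
  ⟨LES.mapH_zero_injective h, LES.exact_B h, LES.exact_C h, LES.exact_A h⟩

end Fermat.Agent.CFT.Top

end
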