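/-
TEAM CFT -> S55, block SC-a: the level constant cochain complexes of a short exact sequence of
discrete modules form a short exact sequence of complexes.
-/
import Fermat.Agent.CFT.Top.LC

set_option autoImplicit false

noncomputable section

namespace Fermat.Agent.CFT.Top

open Cpx

variable {k : Type} [CommRing k] {G : Type} [Group G]

/-- a finite family of levels has a common refinement. -/
lemma LevelSys.exists_le_of_finite (𝒰 : LevelSys G) {α : Type*} [Finite α] (W : α → Subgroup G)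
    (hW : ∀ a, W a ∈ 𝒰.S) : ∃ V ∈ 𝒰.S, ∀ a, V ≤ W a := by
  classical
  have := Fintype.ofFinite α
  have key : ∀ s : Finset α, ∃ V ∈ 𝒰.S, ∀ a ∈ s, V ≤ W a := by
    intro s
    induction s using Finset.induction_on with
    | empty =>
      obtain ⟨U, hU⟩ := 𝒰.ne
      exact ⟨U, hU, fun a ha => absurd ha (Finset.notMem_empty a)⟩
    | insert a s _ ih =>
      obtain ⟨V, hV, h⟩ := ih
      obtain ⟨V', hV', h1, h2⟩ := 𝒰.dir V hV (W a) (hW a)
      refine ⟨V', hV', fun b hb => ?_⟩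
      rcases Finset.mem_insert.1 hb with rfl | hb
      · exact h2
      · exact h1.trans (h b hb)
  obtain ⟨V, hV, h⟩ := key Finset.univ
  exact ⟨V, hV, fun a => h a (Finset.mem_univ a)⟩

/-- a module on which a level acts trivially is discrete. -/
lemma IsTrivOn.isDisc {𝒰 : LevelSys G} {M : Rep.{0} k G} (h : IsTrivOn 𝒰 M) : IsDisc 𝒰 M := by
  obtain ⟨U, hU, hM⟩ := h
  exact fun m => ⟨U, hU, fun u hu => hM u hu m⟩

/-- the map of level constant complexes attached to an equivariant linear map. -/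
def lcLin (𝒰 : LevelSys G) {M N : Rep.{0} k G} (ψ : M →ₗ[k] N)
    (hψ : ∀ (g : G) (m : M), ψ (M.ρ g m) = N.ρ g (ψ m)) :
    Cpx.Hom (lcCpx 𝒰 M) (lcCpx 𝒰 N) :=
  lcMap (MonoidHom.id G) 𝒰.isCont_id ψ hψ

lemma lcLin_f_coe (𝒰 : LevelSys G) {M N : Rep.{0} k G} (ψ : M →ₗ[k] N)
    (hψ : ∀ (g : G) (m : M), ψ (M.ρ g m) = N.ρ g (ψ m)) (n : ℕ) (x : lcCochains 𝒰 M n)
    (g : Fin n → G) :
    (show ↥(lcCochains 𝒰 N n) from (lcLin 𝒰 ψ hψ).f n x).1 g = ψ (x.1 g) := rfl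

lemma lcCoeff_eq_lcLin (𝒰 : LevelSys G) {M N : Rep.{0} k G} (ψ : M ⟶ N) :
    lcCoeff 𝒰 ψ = lcLin 𝒰 ψ.hom.toLinearMap (fun g m => Rep.hom_comm_apply ψ g m) := rfl

/-- lifting a level constant cochain through a surjection from a discrete module. -/
lemma exists_lcCochain_lift (𝒰 : LevelSys G) {M N : Rep.{0} k G} (q : M →ₗ[k] N)
    (hq : Function.Surjective q) (hd : IsDisc 𝒰 M) (n : ℕ) (f : (Fin n → G) → N)
    (hf : f ∈ lcCochains 𝒰 N n) : ∃ f' ∈ lcCochains 𝒰 M n, ∀ g, q (f' g) = f g := by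
  classical
  obtain ⟨U, hU, hfU⟩ := hf
  have := 𝒰.fin U hU
  have : Finite (G ⧸ U) := Subgroup.finite_quotient_of_finiteIndex
  let π : (Fin n → G) → (Fin n → G ⧸ U) := fun g i => (g i : G ⧸ U)
  let rep : (Fin n → G ⧸ U) → (Fin n → G) := fun c i => Quotient.out (c i)
  let s : N → M := Function.surjInv hq
  have hs : ∀ x, q (s x) = x := Function.surjInv_eq hq
  choose W hW hWfix using fun c : Fin n → G ⧸ U => hd (s (f (rep c)))
  obtain ⟨V, hV, hVW⟩ := 𝒰.exists_le_of_finite W hW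
  obtain ⟨V', hV', h1, h2⟩ := 𝒰.dir V hV U hU
  refine ⟨fun g => s (f (rep (π g))), ⟨V', hV', fun g g' hg => ?_, fun g u hu => ?_⟩, fun g => ?_⟩
  · have : π g = π g' := by
      funext i
      exact QuotientGroup.eq.2 (h2 (hg i))
    show s (f (rep (π g))) = s (f (rep (π g')))
    rw [this]
  · exact hWfix (π g) u (hVW _ (h1 hu))
  · rw [hs]
    refine hfU.1 _ _ fun i => ?_
    apply QuotientGroup.eq.1
    exact QuotientGroup.out_eq' _

/-- **SC-a** (linear map form). -/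
theorem lcLin_isSES (𝒰 : LevelSys G) {M₁ M₂ M₃ : Rep.{0} k G} (i : M₁ →ₗ[k] M₂) (q : M₂ →ₗ[k] M₃)
    (hi : ∀ (g : G) (m : M₁), i (M₁.ρ g m) = M₂.ρ g (i m))
    (hq : ∀ (g : G) (m : M₂), q (M₂.ρ g m) = M₃.ρ g (q m))
    (inj : Function.Injective i) (surj : Function.Surjective q)
    (exact : ∀ x, q x = 0 ↔ ∃ y, i y = x) (hd : IsDisc 𝒰 M₂) :
    IsSES (lcLin 𝒰 i hi) (lcLin 𝒰 q hq) := by
  refine ⟨fun n x y hxy => ?_, fun n y => ?_, fun n b => ⟨fun hb => ?_, ?_⟩⟩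
  · apply Subtype.ext
    funext g
    apply inj
    exact congrFun (congrArg Subtype.val hxy) g
  · obtain ⟨f', hf', h⟩ := exists_lcCochain_lift 𝒰 q surj hd n y.1 y.2
    exact ⟨⟨f', hf'⟩, Subtype.ext (funext h)⟩
  · have h0 : ∀ g, q (b.1 g) = 0 := fun g => congrFun (congrArg Subtype.val hb) g
    choose a ha using fun g => (exact (b.1 g)).1 (h0 g)
    obtain ⟨U, hU, hbU⟩ := b.2
    refine ⟨⟨a, U, hU, fun g g' hg => ?_, fun g u hu => ?_⟩, Subtype.ext (funext ha)⟩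
    · apply inj
      rw [ha, ha]
      exact hbU.1 g g' hg
    · apply inj
      rw [hi, ha]
      exact hbU.2 g u hu
  · rintro ⟨a, rfl⟩
    apply Subtype.ext
    funext g
    exact (exact _).2 ⟨a.1 g, rfl⟩

/-- **SC-a** (morphisms of `Rep`). -/
theorem lcCoeff_isSES (𝒰 : LevelSys G) {M₁ M₂ M₃ : Rep.{0} k G} (i : M₁ ⟶ M₂) (q : M₂ ⟶ M₃)
    (inj : Function.Injective i.hom.toLinearMap) (surj : Function.Surjective q.hom.toLinearMap)
    (exact : ∀ x, q.hom.toLinearMap x = 0 ↔ ∃ y, i.hom.toLinearMap y = x) (hd : IsDisc 𝒰 M₂) :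
    IsSES (lcCoeff 𝒰 i) (lcCoeff 𝒰 q) :=
  lcLin_isSES 𝒰 _ _ _ _ inj surj exact hd

end Fermat.Agent.CFT.Top

end
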