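/-
TEAM CFT -> S55, block SC-b: low degree dictionary for `Hlc 𝒰 M n`, `n = 0, 1, 2`, in terms of
invariants, functions `G → M` and functions `G × G → M` (Mathlib's `cocycles₁`, `cocycles₂`,
`d₀₁`, `d₁₂`).
-/
import Fermat.Agent.CFT.Top.SCa
import Fermat.Agent.CFT.Top.LES

set_option autoImplicit false

noncomputable section

namespace Fermat.Agent.CFT.Top

open Cpx groupCohomology

variable {k : Type} [CommRing k] {G : Type} [Group G]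

/-! ### translation between `Fin n → G` and tuples -/

/-- `m ↦ (_ ↦ m)` -/
def t0 (M : Rep.{0} k G) : M →ₗ[k] ((Fin 0 → G) → M) where
  toFun m _ := m
  map_add' _ _ := rfl
  map_smul' _ _ := rfl

/-- `f ↦ (g ↦ f (g 0))` -/
def t1 (M : Rep.{0} k G) : (G → M) →ₗ[k] ((Fin 1 → G) → M) where
  toFun f g := f (g 0)
  map_add' _ _ := rfl
  map_smul' _ _ := rfl

/-- `f ↦ (g ↦ f (g 0, g 1))` -/
def t2 (M : Rep.{0} k G) : (G × G → M) →ₗ[k] ((Fin 2 → G) → M) where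
  toFun f g := f (g 0, g 1)
  map_add' _ _ := rfl
  map_smul' _ _ := rfl

/-- `f ↦ (g ↦ f (g 0, g 1, g 2))` -/
def t3 (M : Rep.{0} k G) : (G × G × G → M) →ₗ[k] ((Fin 3 → G) → M) where
  toFun f g := f (g 0, g 1, g 2)
  map_add' _ _ := rfl
  map_smul' _ _ := rfl

@[simp] lemma t0_apply (M : Rep.{0} k G) (m : M) (g : Fin 0 → G) : t0 M m g = m := rfl
@[simp] lemma t1_apply (M : Rep.{0} k G) (f : G → M) (g : Fin 1 → G) : t1 M f g = f (g 0) := rfl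
@[simp] lemma t2_apply (M : Rep.{0} k G) (f : G × G → M) (g : Fin 2 → G) :
    t2 M f g = f (g 0, g 1) := rfl
@[simp] lemma t3_apply (M : Rep.{0} k G) (f : G × G × G → M) (g : Fin 3 → G) :
    t3 M f g = f (g 0, g 1, g 2) := rfl

lemma t0_injective (M : Rep.{0} k G) : Function.Injective (t0 M) :=
  fun _ _ h => congrFun h default

lemma t1_injective (M : Rep.{0} k G) : Function.Injective (t1 M) :=
  fun _ _ h => funext fun g => congrFun h ![g]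

lemma t2_injective (M : Rep.{0} k G) : Function.Injective (t2 M) :=
  fun _ _ h => funext fun g => congrFun h ![g.1, g.2]

lemma t3_injective (M : Rep.{0} k G) : Function.Injective (t3 M) :=
  fun _ _ h => funext fun g => congrFun h ![g.1, g.2.1, g.2.2]

lemma t0_surjective (M : Rep.{0} k G) : Function.Surjective (t0 M) :=
  fun f => ⟨f default, funext fun _ => congrArg f (Subsingleton.elim _ _)⟩

lemma t1_surjective (M : Rep.{0} k G) : Function.Surjective (t1 M) :=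
  fun f => ⟨fun g => f ![g], funext fun g => congrArg f (by
    funext i; rw [Subsingleton.elim i 0]; rfl)⟩

lemma t2_surjective (M : Rep.{0} k G) : Function.Surjective (t2 M) :=
  fun f => ⟨fun g => f ![g.1, g.2], funext fun g => congrArg f (by
    funext i; fin_cases i <;> rfl)⟩

lemma dd_t0 (M : Rep.{0} k G) (m : M) : dd M 0 (t0 M m) = t1 M ((d₀₁ M).hom m) := by
  funext g
  rw [dd_apply]
  simp [sub_eq_add_neg]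

lemma dd_t1 (M : Rep.{0} k G) (f : G → M) : dd M 1 (t1 M f) = t2 M ((d₁₂ M).hom f) := by
  funext g
  rw [dd_apply, Fin.sum_univ_two]
  simp only [t1_apply, t2_apply, d₁₂_hom_apply, Fin.val_zero, zero_add, pow_one, neg_smul,
    one_smul, Fin.val_one, Nat.one_add, neg_one_sq, sub_eq_add_neg, add_assoc]
  rfl

lemma dd_t2 (M : Rep.{0} k G) (f : G × G → M) : dd M 2 (t2 M f) = t3 M ((d₂₃ M).hom f) := by
  funext g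
  rw [dd_apply, Fin.sum_univ_three]
  simp only [t2_apply, t3_apply, d₂₃_hom_apply, sub_eq_add_neg, add_assoc, Fin.val_zero, zero_add,
    pow_one, neg_smul, one_smul, Fin.val_one, Fin.val_two, pow_succ' (-1 : k) 2, neg_sq,
    Nat.one_add, one_pow, mul_one]
  rfl

/-! ### level constant cochains in low degree -/

/-- elements of `M` fixed by some level -/
def C0 (𝒰 : LevelSys G) (M : Rep.{0} k G) : Submodule k M := (lcCochains 𝒰 M 0).comap (t0 M)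

/-- level constant functions `G → M` -/
def C1 (𝒰 : LevelSys G) (M : Rep.{0} k G) : Submodule k (G → M) := (lcCochains 𝒰 M 1).comap (t1 M)

/-- level constant functions `G × G → M` -/
def C2 (𝒰 : LevelSys G) (M : Rep.{0} k G) : Submodule k (G × G → M) :=
  (lcCochains 𝒰 M 2).comap (t2 M)

lemma mem_C0 {𝒰 : LevelSys G} {M : Rep.{0} k G} {m : M} :
    m ∈ C0 𝒰 M ↔ ∃ U ∈ 𝒰.S, ∀ u ∈ U, M.ρ u m = m := by
  constructor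
  · rintro ⟨U, hU, h⟩
    exact ⟨U, hU, fun u hu => h.2 default u hu⟩
  · rintro ⟨U, hU, h⟩
    exact ⟨U, hU, fun _ _ _ => rfl, fun _ u hu => h u hu⟩

lemma mem_C1 {𝒰 : LevelSys G} {M : Rep.{0} k G} {f : G → M} :
    f ∈ C1 𝒰 M ↔ ∃ U ∈ 𝒰.S, (∀ g, ∀ u ∈ U, f (g * u) = f g) ∧ ∀ g, ∀ u ∈ U, M.ρ u (f g) = f g := by
  constructor
  · rintro ⟨U, hU, h⟩
    refine ⟨U, hU, fun g u hu => ?_, fun g u hu => h.2 ![g] u hu⟩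
    refine (h.1 ![g] ![g * u] fun i => ?_).symm
    rw [Subsingleton.elim i 0]
    simpa using hu
  · rintro ⟨U, hU, h1, h2⟩
    refine ⟨U, hU, fun g g' hg => ?_, fun g u hu => h2 _ u hu⟩
    have := h1 (g 0) _ (hg 0)
    rw [mul_inv_cancel_left] at this
    exact this.symm

lemma mem_C2 {𝒰 : LevelSys G} {M : Rep.{0} k G} {f : G × G → M} :
    f ∈ C2 𝒰 M ↔ ∃ U ∈ 𝒰.S, (∀ g h, ∀ u ∈ U, ∀ u' ∈ U, f (g * u, h * u') = f (g, h)) ∧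
      ∀ x, ∀ u ∈ U, M.ρ u (f x) = f x := by
  constructor
  · rintro ⟨U, hU, h⟩
    refine ⟨U, hU, fun g g' u hu u' hu' => ?_, fun x u hu => h.2 ![x.1, x.2] u hu⟩
    refine (h.1 ![g, g'] ![g * u, g' * u'] fun i => ?_).symm
    fin_cases i
    · simpa using hu
    · simpa using hu'
  · rintro ⟨U, hU, h1, h2⟩
    refine ⟨U, hU, fun g g' hg => ?_, fun g u hu => h2 _ u hu⟩
    have := h1 (g 0) (g 1) _ (hg 0) _ (hg 1)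
    rw [mul_inv_cancel_left, mul_inv_cancel_left] at this
    exact this.symm

lemma C0_eq_top {𝒰 : LevelSys G} {M : Rep.{0} k G} (hM : IsDisc 𝒰 M) : C0 𝒰 M = ⊤ :=
  eq_top_iff.2 fun m _ => mem_C0.2 (hM m)

/-- if a level acts trivially on `M`, only the invariance under right translation matters. -/
lemma mem_C1_of_isTrivOn {𝒰 : LevelSys G} {M : Rep.{0} k G} (hM : IsTrivOn 𝒰 M) {f : G → M} :
    f ∈ C1 𝒰 M ↔ ∃ U ∈ 𝒰.S, ∀ g, ∀ u ∈ U, f (g * u) = f g := by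
  rw [mem_C1]
  constructor
  · rintro ⟨U, hU, h, -⟩
    exact ⟨U, hU, h⟩
  · rintro ⟨U, hU, h⟩
    obtain ⟨V, hV, hVM⟩ := hM
    obtain ⟨W, hW, h1, h2⟩ := 𝒰.dir U hU V hV
    exact ⟨W, hW, fun g u hu => h g u (h1 hu), fun g u hu => hVM u (h2 hu) _⟩

lemma mem_C2_of_isTrivOn {𝒰 : LevelSys G} {M : Rep.{0} k G} (hM : IsTrivOn 𝒰 M) {f : G × G → M} :
    f ∈ C2 𝒰 M ↔ ∃ U ∈ 𝒰.S, ∀ g h, ∀ u ∈ U, ∀ u' ∈ U, f (g * u, h * u') = f (g, h) := by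
  rw [mem_C2]
  constructor
  · rintro ⟨U, hU, h, -⟩
    exact ⟨U, hU, h⟩
  · rintro ⟨U, hU, h⟩
    obtain ⟨V, hV, hVM⟩ := hM
    obtain ⟨W, hW, h1, h2⟩ := 𝒰.dir U hU V hV
    exact ⟨W, hW, fun g g' u hu u' hu' => h g g' u (h1 hu) u' (h1 hu'),
      fun g u hu => hVM u (h2 hu) _⟩

lemma d₀₁_mem_C1 {𝒰 : LevelSys G} {M : Rep.{0} k G} {m : M} (hm : m ∈ C0 𝒰 M) :
    (d₀₁ M).hom m ∈ C1 𝒰 M := by
  show t1 M ((d₀₁ M).hom m) ∈ lcCochains 𝒰 M 1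
  rw [← dd_t0]
  exact dd_mem_lcCochains hm

lemma d₁₂_mem_C2 {𝒰 : LevelSys G} {M : Rep.{0} k G} {f : G → M} (hf : f ∈ C1 𝒰 M) :
    (d₁₂ M).hom f ∈ C2 𝒰 M := by
  show t2 M ((d₁₂ M).hom f) ∈ lcCochains 𝒰 M 2
  rw [← dd_t1]
  exact dd_mem_lcCochains hf

/-- level constant `1`-cocycles -/
def Z1 (𝒰 : LevelSys G) (M : Rep.{0} k G) : Submodule k (G → M) := cocycles₁ M ⊓ C1 𝒰 M

/-- level constant `2`-cocycles -/
def Z2 (𝒰 : LevelSys G) (M : Rep.{0} k G) : Submodule k (G × G → M) := cocycles₂ M ⊓ C2 𝒰 M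

lemma mem_Z1 {𝒰 : LevelSys G} {M : Rep.{0} k G} {f : G → M} :
    f ∈ Z1 𝒰 M ↔ (∀ g h, f (g * h) = M.ρ g (f h) + f g) ∧ f ∈ C1 𝒰 M := by
  rw [Z1, Submodule.mem_inf, mem_cocycles₁_iff]

lemma mem_Z2 {𝒰 : LevelSys G} {M : Rep.{0} k G} {f : G × G → M} :
    f ∈ Z2 𝒰 M ↔ (∀ g h j, f (g * h, j) + f (g, h) = M.ρ g (f (h, j)) + f (g, h * j)) ∧
      f ∈ C2 𝒰 M := by
  rw [Z2, Submodule.mem_inf, mem_cocycles₂_iff]

/-! ### the classes -/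

/-- cochains of degree `0` -/
def c0 (𝒰 : LevelSys G) (M : Rep.{0} k G) : C0 𝒰 M →ₗ[k] (lcCpx 𝒰 M).X 0 where
  toFun m := (⟨t0 M m.1, m.2⟩ : lcCochains 𝒰 M 0)
  map_add' _ _ := rfl
  map_smul' _ _ := rfl

/-- cochains of degree `1` -/
def c1 (𝒰 : LevelSys G) (M : Rep.{0} k G) : C1 𝒰 M →ₗ[k] (lcCpx 𝒰 M).X 1 where
  toFun f := (⟨t1 M f.1, f.2⟩ : lcCochains 𝒰 M 1)
  map_add' _ _ := rfl
  map_smul' _ _ := rfl

/-- cochains of degree `2` -/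
def c2 (𝒰 : LevelSys G) (M : Rep.{0} k G) : C2 𝒰 M →ₗ[k] (lcCpx 𝒰 M).X 2 where
  toFun f := (⟨t2 M f.1, f.2⟩ : lcCochains 𝒰 M 2)
  map_add' _ _ := rfl
  map_smul' _ _ := rfl

lemma c0_surjective (𝒰 : LevelSys G) (M : Rep.{0} k G) : Function.Surjective (c0 𝒰 M) := by
  rintro ⟨f, hf⟩
  obtain ⟨m, rfl⟩ := t0_surjective M f
  exact ⟨⟨m, hf⟩, rfl⟩

lemma c1_surjective (𝒰 : LevelSys G) (M : Rep.{0} k G) : Function.Surjective (c1 𝒰 M) := by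
  rintro ⟨f, hf⟩
  obtain ⟨m, rfl⟩ := t1_surjective M f
  exact ⟨⟨m, hf⟩, rfl⟩

lemma c2_surjective (𝒰 : LevelSys G) (M : Rep.{0} k G) : Function.Surjective (c2 𝒰 M) := by
  rintro ⟨f, hf⟩
  obtain ⟨m, rfl⟩ := t2_surjective M f
  exact ⟨⟨m, hf⟩, rfl⟩

lemma c0_injective (𝒰 : LevelSys G) (M : Rep.{0} k G) : Function.Injective (c0 𝒰 M) :=
  fun _ _ h => Subtype.ext (t0_injective M (congrArg Subtype.val h))

lemma c1_injective (𝒰 : LevelSys G) (M : Rep.{0} k G) : Function.Injective (c1 𝒰 M) :=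
  fun _ _ h => Subtype.ext (t1_injective M (congrArg Subtype.val h))

lemma c2_injective (𝒰 : LevelSys G) (M : Rep.{0} k G) : Function.Injective (c2 𝒰 M) :=
  fun _ _ h => Subtype.ext (t2_injective M (congrArg Subtype.val h))

lemma d_c0 (𝒰 : LevelSys G) (M : Rep.{0} k G) (m : C0 𝒰 M) :
    (lcCpx 𝒰 M).d 0 (c0 𝒰 M m) = c1 𝒰 M ⟨(d₀₁ M).hom m.1, d₀₁_mem_C1 m.2⟩ :=
  Subtype.ext (dd_t0 M m.1)

lemma d_c1 (𝒰 : LevelSys G) (M : Rep.{0} k G) (f : C1 𝒰 M) :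
    (lcCpx 𝒰 M).d 1 (c1 𝒰 M f) = c2 𝒰 M ⟨(d₁₂ M).hom f.1, d₁₂_mem_C2 f.2⟩ :=
  Subtype.ext (dd_t1 M f.1)

lemma invariants_le_C0 (𝒰 : LevelSys G) (M : Rep.{0} k G) : M.ρ.invariants ≤ C0 𝒰 M := by
  intro m hm
  obtain ⟨U, hU⟩ := 𝒰.ne
  exact mem_C0.2 ⟨U, hU, fun u _ => hm u⟩

lemma c0_mem_Z (𝒰 : LevelSys G) (M : Rep.{0} k G) (m : C0 𝒰 M) :
    c0 𝒰 M m ∈ (lcCpx 𝒰 M).Z 0 ↔ m.1 ∈ M.ρ.invariants := by
  rw [Cpx.mem_Z, d_c0, ← d₀₁_ker_eq_invariants, LinearMap.mem_ker]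
  constructor
  · intro h
    have := c1_injective 𝒰 M (h.trans (map_zero _).symm)
    exact congrArg Subtype.val this
  · intro h
    rw [← map_zero (c1 𝒰 M)]
    exact congrArg _ (Subtype.ext h)

lemma c1_mem_Z (𝒰 : LevelSys G) (M : Rep.{0} k G) (f : C1 𝒰 M) :
    c1 𝒰 M f ∈ (lcCpx 𝒰 M).Z 1 ↔ f.1 ∈ cocycles₁ M := by
  rw [Cpx.mem_Z, d_c1, cocycles₁, LinearMap.mem_ker]
  constructor
  · intro h
    have := c2_injective 𝒰 M (h.trans (map_zero _).symm)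
    exact congrArg Subtype.val this
  · intro h
    rw [← map_zero (c2 𝒰 M)]
    exact congrArg _ (Subtype.ext h)

lemma c2_mem_Z (𝒰 : LevelSys G) (M : Rep.{0} k G) (f : C2 𝒰 M) :
    c2 𝒰 M f ∈ (lcCpx 𝒰 M).Z 2 ↔ f.1 ∈ cocycles₂ M := by
  rw [Cpx.mem_Z, cocycles₂, LinearMap.mem_ker]
  have h1 : ((show ↥(lcCochains 𝒰 M 3) from (lcCpx 𝒰 M).d 2 (c2 𝒰 M f)).1) =
      t3 M ((d₂₃ M).hom f.1) := dd_t2 M f.1
  constructor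
  · intro h
    apply t3_injective M
    rw [← h1, h, map_zero]
    rfl
  · intro h
    apply Subtype.ext
    rw [h1, h, map_zero]
    rfl

/-- the class of an invariant element -/
def cls0 (𝒰 : LevelSys G) (M : Rep.{0} k G) : M.ρ.invariants →ₗ[k] Hlc 𝒰 M 0 :=
  (lcCpx 𝒰 M).cls 0 ∘ₗ
    LinearMap.codRestrict _ (c0 𝒰 M ∘ₗ Submodule.inclusion (invariants_le_C0 𝒰 M))
      fun m => (c0_mem_Z 𝒰 M _).2 m.2

/-- the class of a level constant `1`-cocycle -/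
def cls1 (𝒰 : LevelSys G) (M : Rep.{0} k G) : Z1 𝒰 M →ₗ[k] Hlc 𝒰 M 1 :=
  (lcCpx 𝒰 M).cls 1 ∘ₗ
    LinearMap.codRestrict _ (c1 𝒰 M ∘ₗ Submodule.inclusion (inf_le_right : Z1 𝒰 M ≤ C1 𝒰 M))
      fun f => (c1_mem_Z 𝒰 M _).2 f.2.1

/-- the class of a level constant `2`-cocycle -/
def cls2 (𝒰 : LevelSys G) (M : Rep.{0} k G) : Z2 𝒰 M →ₗ[k] Hlc 𝒰 M 2 :=
  (lcCpx 𝒰 M).cls 2 ∘ₗ
    LinearMap.codRestrict _ (c2 𝒰 M ∘ₗ Submodule.inclusion (inf_le_right : Z2 𝒰 M ≤ C2 𝒰 M))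
      fun f => (c2_mem_Z 𝒰 M _).2 f.2.1

lemma cls0_eq (𝒰 : LevelSys G) (M : Rep.{0} k G) (m : M.ρ.invariants) :
    cls0 𝒰 M m = (lcCpx 𝒰 M).cls 0 ⟨c0 𝒰 M ⟨m.1, invariants_le_C0 𝒰 M m.2⟩,
      (c0_mem_Z 𝒰 M _).2 m.2⟩ := rfl

lemma cls1_eq (𝒰 : LevelSys G) (M : Rep.{0} k G) (f : Z1 𝒰 M) :
    cls1 𝒰 M f = (lcCpx 𝒰 M).cls 1 ⟨c1 𝒰 M ⟨f.1, f.2.2⟩, (c1_mem_Z 𝒰 M _).2 f.2.1⟩ := rfl

lemma cls2_eq (𝒰 : LevelSys G) (M : Rep.{0} k G) (f : Z2 𝒰 M) :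
    cls2 𝒰 M f = (lcCpx 𝒰 M).cls 2 ⟨c2 𝒰 M ⟨f.1, f.2.2⟩, (c2_mem_Z 𝒰 M _).2 f.2.1⟩ := rfl

/-- **SC-b, degree 0**: `H⁰ = M^G`. -/
theorem cls0_bijective (𝒰 : LevelSys G) (M : Rep.{0} k G) : Function.Bijective (cls0 𝒰 M) := by
  constructor
  · rw [injective_iff_map_eq_zero]
    intro m hm
    rw [cls0_eq, cls_eq_zero_iff, mem_B_zero] at hm
    have := c0_injective 𝒰 M (hm.trans (map_zero _).symm)
    have h2 : (m : M) = 0 := congrArg (Subtype.val : C0 𝒰 M → M) this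
    exact Subtype.ext h2
  · intro x
    obtain ⟨⟨z, hz⟩, rfl⟩ := (lcCpx 𝒰 M).cls_surjective 0 x
    obtain ⟨m, rfl⟩ := c0_surjective 𝒰 M z
    exact ⟨⟨m.1, (c0_mem_Z 𝒰 M m).1 hz⟩, rfl⟩

/-- `H⁰ = M^G` as a linear equivalence. -/
def H0Equiv (𝒰 : LevelSys G) (M : Rep.{0} k G) : M.ρ.invariants ≃ₗ[k] Hlc 𝒰 M 0 :=
  LinearEquiv.ofBijective (cls0 𝒰 M) (cls0_bijective 𝒰 M)

/-- **SC-b, degree 1**: every class is the class of a level constant cocycle. -/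
theorem cls1_surjective (𝒰 : LevelSys G) (M : Rep.{0} k G) : Function.Surjective (cls1 𝒰 M) := by
  intro x
  obtain ⟨⟨z, hz⟩, rfl⟩ := (lcCpx 𝒰 M).cls_surjective 1 x
  obtain ⟨f, rfl⟩ := c1_surjective 𝒰 M z
  exact ⟨⟨f.1, (c1_mem_Z 𝒰 M f).1 hz, f.2⟩, rfl⟩

/-- **SC-b, degree 1**: coboundaries. -/
theorem cls1_eq_zero_iff (𝒰 : LevelSys G) (M : Rep.{0} k G) (f : Z1 𝒰 M) :
    cls1 𝒰 M f = 0 ↔ ∃ m ∈ C0 𝒰 M, ∀ g, f.1 g = M.ρ g m - m := by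
  rw [cls1_eq, cls_eq_zero_iff, mem_B_succ]
  constructor
  · rintro ⟨y, hy⟩
    obtain ⟨m, rfl⟩ := c0_surjective 𝒰 M y
    rw [d_c0] at hy
    have := congrArg Subtype.val (c1_injective 𝒰 M hy)
    exact ⟨m.1, m.2, fun g => (congrFun this g).symm⟩
  · rintro ⟨m, hm, h⟩
    refine ⟨c0 𝒰 M ⟨m, hm⟩, ?_⟩
    rw [d_c0]
    exact congrArg _ (Subtype.ext (funext fun g => (h g).symm))

/-- **SC-b, degree 2**: every class is the class of a level constant cocycle. -/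
theorem cls2_surjective (𝒰 : LevelSys G) (M : Rep.{0} k G) : Function.Surjective (cls2 𝒰 M) := by
  intro x
  obtain ⟨⟨z, hz⟩, rfl⟩ := (lcCpx 𝒰 M).cls_surjective 2 x
  obtain ⟨f, rfl⟩ := c2_surjective 𝒰 M z
  exact ⟨⟨f.1, (c2_mem_Z 𝒰 M f).1 hz, f.2⟩, rfl⟩

/-- **SC-b, degree 2**: coboundaries. -/
theorem cls2_eq_zero_iff (𝒰 : LevelSys G) (M : Rep.{0} k G) (f : Z2 𝒰 M) :
    cls2 𝒰 M f = 0 ↔ ∃ c ∈ C1 𝒰 M, ∀ g h, f.1 (g, h) = M.ρ g (c h) - c (g * h) + c g := by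
  rw [cls2_eq, cls_eq_zero_iff, mem_B_succ]
  constructor
  · rintro ⟨y, hy⟩
    obtain ⟨c, rfl⟩ := c1_surjective 𝒰 M y
    rw [d_c1] at hy
    have := congrArg Subtype.val (c2_injective 𝒰 M hy)
    exact ⟨c.1, c.2, fun g h => (congrFun this (g, h)).symm⟩
  · rintro ⟨c, hc, h⟩
    refine ⟨c1 𝒰 M ⟨c, hc⟩, ?_⟩
    rw [d_c1]
    exact congrArg _ (Subtype.ext (funext fun g => (h g.1 g.2).symm))

theorem cls2_eq_zero_iff' (𝒰 : LevelSys G) (M : Rep.{0} k G) (f : Z2 𝒰 M) :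
    cls2 𝒰 M f = 0 ↔ f.1 ∈ (C1 𝒰 M).map (d₁₂ M).hom := by
  rw [cls2_eq_zero_iff, Submodule.mem_map]
  constructor
  · rintro ⟨c, hc, h⟩
    exact ⟨c, hc, funext fun g => (h g.1 g.2).symm⟩
  · rintro ⟨c, hc, h⟩
    exact ⟨c, hc, fun g g' => (congrFun h (g, g')).symm⟩

/-! ### functoriality -/

section Functoriality

variable {G' : Type} [Group G'] {𝒰' : LevelSys G'} {𝒰 : LevelSys G} (φ : G' →* G)
  (hφ : LevelSys.IsCont 𝒰' 𝒰 φ) {M : Rep.{0} k G} {M' : Rep.{0} k G'} (ψ : M →ₗ[k] M')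
  (hψ : ∀ (g : G') (m : M), ψ (M.ρ (φ g) m) = M'.ρ g (ψ m))

include hφ hψ

lemma map_mem_C0 {m : M} (hm : m ∈ C0 𝒰 M) : ψ m ∈ C0 𝒰' M' :=
  pullPush_mem φ hφ ψ hψ 0 hm

lemma map_mem_C1 {f : G → M} (hf : f ∈ C1 𝒰 M) : (fun g => ψ (f (φ g))) ∈ C1 𝒰' M' :=
  pullPush_mem φ hφ ψ hψ 1 hf

lemma map_mem_C2 {f : G × G → M} (hf : f ∈ C2 𝒰 M) :
    (fun g : G' × G' => ψ (f (φ g.1, φ g.2))) ∈ C2 𝒰' M' :=
  pullPush_mem φ hφ ψ hψ 2 hf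

omit hφ in
lemma map_mem_invariants {m : M} (hm : m ∈ M.ρ.invariants) : ψ m ∈ M'.ρ.invariants := by
  intro g
  rw [← hψ, hm (φ g)]

lemma map_mem_Z1 {f : G → M} (hf : f ∈ Z1 𝒰 M) : (fun g => ψ (f (φ g))) ∈ Z1 𝒰' M' := by
  rw [mem_Z1] at hf ⊢
  refine ⟨fun g h => ?_, map_mem_C1 φ hφ ψ hψ hf.2⟩
  rw [map_mul, hf.1, map_add, hψ]

lemma map_mem_Z2 {f : G × G → M} (hf : f ∈ Z2 𝒰 M) :
    (fun g : G' × G' => ψ (f (φ g.1, φ g.2))) ∈ Z2 𝒰' M' := by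
  rw [mem_Z2] at hf ⊢
  refine ⟨fun g h j => ?_, map_mem_C2 φ hφ ψ hψ hf.2⟩
  simp only [map_mul]
  rw [← map_add, hf.1, map_add, hψ]

theorem mapH_cls0 (m : M.ρ.invariants) :
    (lcMap φ hφ ψ hψ).mapH 0 (cls0 𝒰 M m) = cls0 𝒰' M' ⟨ψ m.1, map_mem_invariants φ ψ hψ m.2⟩ :=
  rfl

theorem mapH_cls1 (f : Z1 𝒰 M) :
    (lcMap φ hφ ψ hψ).mapH 1 (cls1 𝒰 M f) =
      cls1 𝒰' M' ⟨fun g => ψ (f.1 (φ g)), map_mem_Z1 φ hφ ψ hψ f.2⟩ :=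
  rfl

theorem mapH_cls2 (f : Z2 𝒰 M) :
    (lcMap φ hφ ψ hψ).mapH 2 (cls2 𝒰 M f) =
      cls2 𝒰' M' ⟨fun g => ψ (f.1 (φ g.1, φ g.2)), map_mem_Z2 φ hφ ψ hψ f.2⟩ :=
  rfl

end Functoriality

/-! ### connecting homomorphisms -/

section Delta

variable {𝒰 : LevelSys G} {M₁ M₂ M₃ : Rep.{0} k G} (i : M₁ →ₗ[k] M₂) (q : M₂ →ₗ[k] M₃)
    (hi : ∀ (g : G) (m : M₁), i (M₁.ρ g m) = M₂.ρ g (i m))
    (hq : ∀ (g : G) (m : M₂), q (M₂.ρ g m) = M₃.ρ g (q m))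

/-- `δ : H⁰(M₃) → H¹(M₁)`: lift `m₃` to `m₂`, then `δ m₃ = [g ↦ i⁻¹ (g m₂ - m₂)]`. -/
theorem delta_cls0 (h : IsSES (lcLin 𝒰 i hi) (lcLin 𝒰 q hq)) (m₃ : M₃.ρ.invariants) (m₂ : M₂)
    (hm₂ : m₂ ∈ C0 𝒰 M₂) (a : Z1 𝒰 M₁) (h1 : q m₂ = m₃.1)
    (h2 : ∀ g, i (a.1 g) = M₂.ρ g m₂ - m₂) :
    delta (lcLin 𝒰 i hi) (lcLin 𝒰 q hq) 0 (cls0 𝒰 M₃ m₃) = cls1 𝒰 M₁ a := by
  rw [cls0_eq, cls1_eq]
  refine LES.delta_cls h 0 _ (c0 𝒰 M₂ ⟨m₂, hm₂⟩) _ ?_ ?_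
  · apply Subtype.ext
    funext g
    exact h1
  · rw [d_c0]
    apply Subtype.ext
    funext g
    exact h2 (g 0)

/-- `δ : H¹(M₃) → H²(M₁)`: lift `f₃` to a level constant `f₂`, then `δ f₃ = [i⁻¹ (d f₂)]`. -/
theorem delta_cls1 (h : IsSES (lcLin 𝒰 i hi) (lcLin 𝒰 q hq)) (f₃ : Z1 𝒰 M₃) (f₂ : G → M₂)
    (hf₂ : f₂ ∈ C1 𝒰 M₂) (a : Z2 𝒰 M₁) (h1 : ∀ g, q (f₂ g) = f₃.1 g)
    (h2 : ∀ g g', i (a.1 (g, g')) = M₂.ρ g (f₂ g') - f₂ (g * g') + f₂ g) :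
    delta (lcLin 𝒰 i hi) (lcLin 𝒰 q hq) 1 (cls1 𝒰 M₃ f₃) = cls2 𝒰 M₁ a := by
  rw [cls1_eq, cls2_eq]
  refine LES.delta_cls h 1 _ (c1 𝒰 M₂ ⟨f₂, hf₂⟩) _ ?_ ?_
  · apply Subtype.ext
    funext g
    exact h1 (g 0)
  · rw [d_c1]
    apply Subtype.ext
    funext g
    exact h2 (g 0) (g 1)

end Delta

/-! ### quotient presentations -/

lemma ker_cls1 (𝒰 : LevelSys G) (M : Rep.{0} k G) :
    LinearMap.ker (cls1 𝒰 M) = ((C0 𝒰 M).map (d₀₁ M).hom).comap (Z1 𝒰 M).subtype := by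
  ext f
  rw [LinearMap.mem_ker, cls1_eq_zero_iff, Submodule.mem_comap, Submodule.mem_map]
  constructor
  · rintro ⟨m, hm, h⟩
    exact ⟨m, hm, funext fun g => (h g).symm⟩
  · rintro ⟨m, hm, h⟩
    exact ⟨m, hm, fun g => (congrFun h g).symm⟩

lemma ker_cls2 (𝒰 : LevelSys G) (M : Rep.{0} k G) :
    LinearMap.ker (cls2 𝒰 M) = ((C1 𝒰 M).map (d₁₂ M).hom).comap (Z2 𝒰 M).subtype := by
  ext f
  rw [LinearMap.mem_ker, cls2_eq_zero_iff', Submodule.mem_comap]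
  rfl

/-- `H¹ = Z¹ / B¹`. -/
def H1Equiv (𝒰 : LevelSys G) (M : Rep.{0} k G) :
    (Z1 𝒰 M ⧸ ((C0 𝒰 M).map (d₀₁ M).hom).comap (Z1 𝒰 M).subtype) ≃ₗ[k] Hlc 𝒰 M 1 :=
  (Submodule.quotEquivOfEq _ _ (ker_cls1 𝒰 M).symm).trans
    ((cls1 𝒰 M).quotKerEquivOfSurjective (cls1_surjective 𝒰 M))

/-- `H² = Z² / B²`. -/
def H2Equiv (𝒰 : LevelSys G) (M : Rep.{0} k G) :
    (Z2 𝒰 M ⧸ ((C1 𝒰 M).map (d₁₂ M).hom).comap (Z2 𝒰 M).subtype) ≃ₗ[k] Hlc 𝒰 M 2 :=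
  (Submodule.quotEquivOfEq _ _ (ker_cls2 𝒰 M).symm).trans
    ((cls2 𝒰 M).quotKerEquivOfSurjective (cls2_surjective 𝒰 M))

@[simp] lemma H1Equiv_mk (𝒰 : LevelSys G) (M : Rep.{0} k G) (f : Z1 𝒰 M) :
    H1Equiv 𝒰 M (Submodule.Quotient.mk f) = cls1 𝒰 M f := rfl

@[simp] lemma H2Equiv_mk (𝒰 : LevelSys G) (M : Rep.{0} k G) (f : Z2 𝒰 M) :
    H2Equiv 𝒰 M (Submodule.Quotient.mk f) = cls2 𝒰 M f := rfl

end Fermat.Agent.CFT.Top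

end
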