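/-
TEAM CFT -> S55 (helper55, ruling 3).  THE OFFICIAL LIST OF INPUTS of the abstract theorem for the
"positivity" route (report 602): only `H⁰, H¹, H²`, no cones, no `H³`.

Everything is stated for helper62's `Datum` (file `Top/Datum.lean`).  `N_H := permRep (ZMod p) H`.
A subgroup `H` is *good* if it is open and the character `χ` is trivial on it.
-/
import Fermat.Agent.CFT.Top.QDatum

set_option autoImplicit false

noncomputable section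

namespace Fermat.Agent.CFT.Top

open Cpx Module groupCohomology ExtCitation

namespace Datum

variable {p : ℕ} [Fact p.Prime] (D : Datum p)

/-- `H ≤ G` is open and `χ` is trivial on it. -/
def Good (H : Subgroup D.G) : Prop := D.𝒰.IsOpen H ∧ ∀ h ∈ H, D.χ h = 1

/-- `H ≤ G_v` is open and `χ` is trivial on it. -/
def GoodAt (v : D.ι) (H : Subgroup (D.Gv v)) : Prop :=
  (D.𝒰v v).IsOpen H ∧ ∀ h ∈ H, D.χ (D.φ v h) = 1

/-- `hⁱ(G, N)` -/
abbrev hdim (N : Rep.{0} (ZMod p) D.G) (i : ℕ) : ℕ := finrank (ZMod p) (Hlc D.𝒰 N i)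

/-- `dim Pⁱ(N) = ∑_v hⁱ(G_v, N)` -/
abbrev pdim (N : Rep.{0} (ZMod p) D.G) (i : ℕ) : ℕ := finrank (ZMod p) ((D.locCpx N).H i)

/-- `dim Shaⁱ(N)` -/
abbrev shadim (N : Rep.{0} (ZMod p) D.G) (i : ℕ) : ℕ := finrank (ZMod p) (D.Sha N i)

/-- (LN) local numerics: there is `ε_v` (`= 1` for `v = p`, `= 0` otherwise) such that for every
good `H ≤ G_v`: `h¹(G_v, N_H) = 2 + ε_v [G_v : H]` and `h²(G_v, N_H) = 1`.
[Arithmetic: `E` = fixed field of `H`, `μ_p ⊆ E`: `dim Eˣ/p = 2 + [E:ℚ_p]·[q = p]`,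
`dim Br(E)[p] = 1`, and Shapiro.] -/
def InLN (v : D.ι) (ε : ℕ) : Prop :=
  ∀ H : Subgroup (D.Gv v), D.GoodAt v H →
    Module.Finite (ZMod p) (Hlc (D.𝒰v v) (permRep (ZMod p) H) 1) ∧
    finrank (ZMod p) (Hlc (D.𝒰v v) (permRep (ZMod p) H) 1) = 2 + ε * H.index ∧
    Module.Finite (ZMod p) (Hlc (D.𝒰v v) (permRep (ZMod p) H) 2) ∧
    finrank (ZMod p) (Hlc (D.𝒰v v) (permRep (ZMod p) H) 2) = 1

/-- (LN3) `H²(G_v, μ) ≠ 0`. -/
def InLN3 (v : D.ι) : Prop := Nontrivial (Hlc (D.𝒰v v) (Rep.res (D.φ v) D.mu) 2)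

/-- (GF) finiteness of `H¹(G, N_H)`, `H²(G, N_H)`. -/
def InGF : Prop :=
  ∀ H : Subgroup D.G, D.Good H →
    Module.Finite (ZMod p) (Hlc D.𝒰 (permRep (ZMod p) H) 1) ∧
    Module.Finite (ZMod p) (Hlc D.𝒰 (permRep (ZMod p) H) 2)

/-- (GN+) `2 sha²(N_H) + dim P¹(N_H) ≤ 2 h¹(N_H)`.
[Arithmetic: `dim P¹ = 2 s + n`, `h¹ = s + n/2 + c`, `sha² ≤ c = dim Cl_S(k)/p`.] -/
def InGNplus : Prop :=
  ∀ H : Subgroup D.G, D.Good H →
    2 * D.shadim (permRep (ZMod p) H) 2 + D.pdim (permRep (ZMod p) H) 1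
      ≤ 2 * D.hdim (permRep (ZMod p) H) 1

/-- (GN-) `2 h¹(N_H) ≤ 2 h²(N_H) + dim P¹(N_H)`.   [Arithmetic: `c ≤ h²`.] -/
def InGNminus : Prop :=
  ∀ H : Subgroup D.G, D.Good H →
    2 * D.hdim (permRep (ZMod p) H) 1
      ≤ 2 * D.hdim (permRep (ZMod p) H) 2 + D.pdim (permRep (ZMod p) H) 1

/-- (TW) below every good `H` there is an open `W`, normal in `H`, of `p`-power index in `H`, with
`2 (dim P²(N_W) - 1) < [H : W]`.
[Arithmetic: the number of places above `S` is bounded in the cyclotomic `ℤ_p`-tower.] -/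
def InTW : Prop :=
  ∀ H : Subgroup D.G, D.Good H → ∃ W : Subgroup D.G, D.𝒰.IsOpen W ∧ W ≤ H ∧
    (W.subgroupOf H).Normal ∧ (∃ m : ℕ, W.relIndex H = p ^ m) ∧
    2 * D.pdim (permRep (ZMod p) W) 2 < W.relIndex H + 2

/-- (GR) reciprocity, strong form: a functional `∑_v λ_v`, all `λ_v ≠ 0`, killing the image of
`H²(G, μ)`. -/
def InGRs : Prop :=
  ∃ lam : ∀ v : D.ι, Hlc (D.𝒰v v) (Rep.res (D.φ v) D.mu) 2 →ₗ[ZMod p] ZMod p,
    (∀ v, lam v ≠ 0) ∧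
    ∀ x : Hlc D.𝒰 D.mu 2, ∑ v, lam v ((lcRes (D.φ v) (D.cont v) D.mu).mapH 2 x) = 0

/-- (GRw) reciprocity, weak form: a class of `H²(G, μ)` which is locally trivial at all `w ≠ v`
is locally trivial at `v`. -/
def InGRw : Prop :=
  ∀ (v : D.ι) (x : Hlc D.𝒰 D.mu 2),
    (∀ w, w ≠ v → (lcRes (D.φ w) (D.cont w) D.mu).mapH 2 x = 0) →
      (lcRes (D.φ v) (D.cont v) D.mu).mapH 2 x = 0

/-- **All inputs of the positivity route.** -/
structure Inputs2 : Prop where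
  ne : Nonempty D.ι
  ln : ∀ v, ∃ ε, D.InLN v ε
  ln3 : ∀ v, D.InLN3 v
  gf : D.InGF
  gnp : D.InGNplus
  gnm : D.InGNminus
  tw : D.InTW
  gr : D.InGRw

end Datum

/-- weak reciprocity + the other inputs imply strong reciprocity (see the header of
`Stmt_PT2`, steps A-D). -/
def Stmt_GRs_of_GRw : Prop :=
  ∀ (p : ℕ) [Fact p.Prime] (D : Datum p), D.Inputs2 → D.InGRs

/-- **Abstract Poitou-Tate duality (dimension form), positivity route.**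
Steps: (A) local theory from (LN),(LN3): `χ_v` additive, `H²(G_v,-)` right exact, (LD);
(B) `ψ(H) := 2 χ(N_H) - χ_loc(N_H) ≥ 0` from (GN-),(TW), subadditivity of `χ`;
(C) with (GN+): `dim Y_{N_H} ≥ dim P²(N_H) - 1`; (D) `μ` is a retract of `N_H`, `H = ker χ`:
(GRw) gives (GRs); (E) (GE) for `N_W`, (F) (GE) for all `X`; (G) Claims 1-3: `φ ≥ 0`;
(H) Claim 4: `φ(A) ≤ dim A · ψ(P) ≤ 0`. -/
def Stmt_PT2 : Prop :=
  ∀ (p : ℕ) [Fact p.Prime] (D : Datum p), D.Inputs2 →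
    ∀ (N : Rep.{0} (ZMod p) D.G), Module.Finite (ZMod p) N → IsTrivOn D.𝒰 N →
      Module.Finite (ZMod p) (D.Sha N 2) ∧ Module.Finite (ZMod p) (D.Sha (N.dualTwist D.χ) 1) ∧
        finrank (ZMod p) (D.Sha N 2) = finrank (ZMod p) (D.Sha (N.dualTwist D.χ) 1)

/-- ARITH2. **All the arithmetic.** -/
def Stmt_arith2 : Prop :=
  ∀ (p : ℕ) [Fact p.Prime], p ≠ 2 → ∀ (S : Finset Nat.Primes), pPrime p ∈ S →
    ∀ h : CycloTriv p S, (qDatum p S h).Inputs2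

/-- FINAL2. assembly (same proof as `Stmt_final`). -/
def Stmt_final2 : Prop :=
  Stmt_PT2 → Stmt_arith2 → Stmt_cycloTriv → Stmt_trivOn → Stmt_bridgeSha1 → Stmt_bridgeSha2 →
    Stmt_S55

end Fermat.Agent.CFT.Top

end
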