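/-
TEAM CFT -> S55, top level.  Package TOP-G3G4 (helper32):
functoriality of `mapH` and naturality of the connecting homomorphism.
-/
import Fermat.Agent.CFT.Top.CpxStmts

set_option autoImplicit false

noncomputable section

namespace Fermat.Agent.CFT.Top

open Cpx

/-- G4. functoriality of `mapH`. -/
theorem stmt_mapH : Stmt_mapH := by
  intro k _ C D E φ ψ n x
  obtain ⟨z, rfl⟩ := C.cls_surjective n x
  refine ⟨?_, ?_⟩
  · rw [Hom.mapH_cls]
    congr 1
  · rw [Hom.mapH_cls, Hom.mapH_cls, Hom.mapH_cls]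
    congr 1

/-- G3. naturality of the connecting homomorphism. -/
theorem stmt_deltaNat (h : Stmt_delta) : Stmt_deltaNat := by
  intro k _ A B C A' B' C' i q i' q' a b c hS hS' hi hq n x
  obtain ⟨z, rfl⟩ := C.cls_surjective n x
  have hδ := h k A B C i q hS n
  have hδ' := h k A' B' C' i' q' hS' n
  -- choose a lift of `z`
  obtain ⟨y, hy⟩ := hS.surj n (z : C.X n)
  -- `d y` comes from `A`
  have hdy : q.f (n + 1) (B.d n y) = 0 := by
    rw [q.comm, hy]
    exact mem_Z.1 z.2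
  obtain ⟨w, hw⟩ := (hS.exact (n + 1) (B.d n y)).1 hdy
  have hwZ : w ∈ A.Z (n + 1) := by
    rw [mem_Z]
    apply hS.inj (n + 2)
    rw [map_zero]
    have := i.comm (n + 1) w
    rw [hw, B.d_d] at this
    exact this
  have e1 : delta i q n (C.cls n z) = A.cls (n + 1) ⟨w, hwZ⟩ := hδ z y ⟨w, hwZ⟩ hy hw
  have e2 : delta i' q' n (C'.cls n (c.mapZ n z)) = A'.cls (n + 1) (a.mapZ (n + 1) ⟨w, hwZ⟩) := by
    refine hδ' (c.mapZ n z) (b.f n y) (a.mapZ (n + 1) ⟨w, hwZ⟩) ?_ ?_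
    · rw [hq, hy]; rfl
    · show i'.f (n + 1) (a.f (n + 1) w) = B'.d n (b.f n y)
      rw [hi, hw, b.comm]
  rw [Hom.mapH_cls, e2, e1, Hom.mapH_cls]

end Fermat.Agent.CFT.Top

end
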