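/-
TEAM CFT -> S55, top level.  Products of complexes: G5, G10, G11.
-/
import Fermat.Agent.CFT.Top.CpxStmts

set_option autoImplicit false

noncomputable section

namespace Fermat.Agent.CFT.Top

open Cpx

/-- G5. cohomology commutes with products. -/
theorem stmt_piH : Stmt_piH := by
  intro k _ ι D n
  let Φ : (pi D).H n →ₗ[k] ∀ v, (D v).H n := LinearMap.pi fun v => (piProj D v).mapH n
  show Function.Bijective Φ
  constructor
  · rw [injective_iff_map_eq_zero]
    intro x hx
    obtain ⟨z, rfl⟩ := (pi D).cls_surjective n x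
    have h1 : ∀ v, ((z : (pi D).X n) v) ∈ (D v).B n := by
      intro v
      have := congrFun hx v
      have h2 : (D v).cls n ((piProj D v).mapZ n z) = 0 := this
      rw [cls_eq_zero_iff] at h2
      exact h2
    rw [cls_eq_zero_iff]
    cases n with
    | zero =>
      rw [mem_B_zero]
      funext v
      exact mem_B_zero.1 (h1 v)
    | succ m =>
      choose y hy using fun v => mem_B_succ.1 (h1 v)
      refine mem_B_succ.2 ⟨y, ?_⟩
      funext v
      exact hy v
  · intro y
    choose z hz using fun v => (D v).cls_surjective n (y v)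
    let w : (pi D).X n := fun v => (z v : (D v).X n)
    have hZ : w ∈ (pi D).Z n := by
      rw [mem_Z]
      funext v
      exact mem_Z.1 (z v).2
    refine ⟨(pi D).cls n ⟨w, hZ⟩, ?_⟩
    funext v
    rw [← hz v]
    rfl

/-- G10. products of short exact sequences are short exact. -/
theorem stmt_piSES : Stmt_piSES := by
  intro k _ ι A B C i q h
  refine ⟨?_, ?_, ?_⟩
  · intro n x y hxy
    funext v
    exact (h v).inj n (congrFun hxy v)
  · intro n y
    choose x hx using fun v => (h v).surj n (y v)
    exact ⟨x, funext hx⟩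
  · intro n b
    constructor
    · intro hb
      choose a ha using fun v => ((h v).exact n (b v)).1 (congrFun hb v)
      exact ⟨a, funext ha⟩
    · rintro ⟨a, rfl⟩
      funext v
      exact ((h v).exact n _).2 ⟨a v, rfl⟩

/-- G11. the connecting homomorphism of a product. -/
theorem stmt_piDelta (h : Stmt_delta) : Stmt_piDelta := by
  intro k _ ι A B C i q hS n x v
  set I : Hom (pi A) (pi B) := piLift fun v => (piProj A v).comp (i v) with hI
  set Q : Hom (pi B) (pi C) := piLift fun v => (piProj B v).comp (q v) with hQ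
  have hSES : IsSES I Q := stmt_piSES k ι A B C i q hS
  have hD : IsDelta I Q n (delta I Q n) := h k _ _ _ I Q hSES n
  have hDv : IsDelta (i v) (q v) n (delta (i v) (q v) n) := h k _ _ _ (i v) (q v) (hS v) n
  obtain ⟨z, rfl⟩ := (pi C).cls_surjective n x
  obtain ⟨b, hb⟩ := hSES.surj n z
  have h1 : Q.f (n + 1) ((pi B).d n b) = 0 := by
    rw [Q.comm, hb]
    exact mem_Z.1 z.2
  obtain ⟨a, ha⟩ := (hSES.exact (n + 1) _).1 h1
  have haZ : a ∈ (pi A).Z (n + 1) := by
    rw [mem_Z]
    apply hSES.inj (n + 2)
    rw [I.comm, ha, (pi B).d_d, map_zero]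
  rw [hD z b ⟨a, haZ⟩ hb ha]
  have h2 : (piProj C v).mapH n ((pi C).cls n z) = (C v).cls n ((piProj C v).mapZ n z) := rfl
  rw [h2, hDv ((piProj C v).mapZ n z) (b v) ((piProj A v).mapZ (n + 1) ⟨a, haZ⟩)
    (congrFun hb v) (congrFun ha v)]
  rfl

end Fermat.Agent.CFT.Top

end
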