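/-
TEAM CFT, LC-TOOLKIT (helper33): SHAPIRO + MACKEY for `Hlc`, all degrees, by the δ-functor argument.

`X` a `G`-set, `O : OrbitData 𝒰 X ι` a system of orbit representatives `r i` with (open) stabilisers
`K i`.  Then `(ev_{r i} ∘ res_{K i})_i : Hⁿ(G, Map(X, A)) → ∏_i Hⁿ(K i, A)` is bijective for every
discrete `A`.   `X = G ⧸ H`, `ι = Unit`: Shapiro.   `G = G_v` acting on `G ⧸ H`: Mackey.
Definitions + statements-as-Props.
-/
import Fermat.Agent.CFT.Top.Tool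
import Fermat.Agent.CFT.Top.CpxStmts

set_option autoImplicit false

noncomputable section

namespace Fermat.Agent.CFT.Top

open Cpx

section Defs

variable {k : Type} [CommRing k] {G : Type} [Group G]

/-- equivariance of a linear map between the underlying modules of two representations -/
def IsEqv (A B : Rep.{0} k G) (ψ : A →ₗ[k] B) : Prop := ∀ (g : G) (a : A), ψ (A.ρ g a) = B.ρ g (ψ a)

/-- post-composition `Map(X, A) → Map(X, B)` -/
def postLin (X : Type) [MulAction G X] {A B : Rep.{0} k G} (ψ : A →ₗ[k] B) :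
    mapRep X A →ₗ[k] mapRep X B :=
  LinearMap.pi fun x => ψ ∘ₗ LinearMap.proj x

lemma postLin_apply (X : Type) [MulAction G X] {A B : Rep.{0} k G} (ψ : A →ₗ[k] B)
    (f : mapRep X A) (x : X) : postLin X ψ f x = ψ (f x) := rfl

lemma postLin_eqv (X : Type) [MulAction G X] {A B : Rep.{0} k G} {ψ : A →ₗ[k] B}
    (hψ : IsEqv A B ψ) : IsEqv (mapRep X A) (mapRep X B) (postLin X ψ) :=
  fun g f => funext fun x => hψ g (f (g⁻¹ • x))

/-- evaluation at `x`, over the inclusion of a subgroup `K` fixing `x`: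
`C(G, Map(X, A)) → C(K, A)`. -/
def evHom (𝒰 : LevelSys G) (X : Type) [MulAction G X] (A : Rep.{0} k G) (x : X) (K : Subgroup G)
    (hK : ∀ g ∈ K, g • x = x) :
    Cpx.Hom (lcCpx 𝒰 (mapRep X A)) (lcCpx (𝒰.sub K) (Rep.res K.subtype A)) :=
  lcMap K.subtype (𝒰.isCont_comap _)
    (LinearMap.proj x : mapRep X A →ₗ[k] Rep.res K.subtype A)
    (fun g f => by
      have h : (g : G)⁻¹ • x = x := by rw [inv_smul_eq_iff, hK g.1 g.2]
      show A.ρ g.1 (f ((g : G)⁻¹ • x)) = A.ρ g.1 (f x)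
      rw [h])

/-- a system of representatives of the orbits of `G` on `X`, with open stabilisers. -/
structure OrbitData (𝒰 : LevelSys G) (X : Type) [MulAction G X] (ι : Type) where
  r : ι → X
  K : ι → Subgroup G
  mem : ∀ i g, g ∈ K i ↔ g • r i = r i
  isOpen : ∀ i, 𝒰.IsOpen (K i)
  uniq : ∀ x : X, ∃! i, ∃ g : G, g • r i = x

variable (𝒰 : LevelSys G) (X : Type) [MulAction G X] {ι : Type}

/-- `T(A) = C(G, Map(X, A))` -/
abbrev shT (A : Rep.{0} k G) : Cpx k := lcCpx 𝒰 (mapRep X A)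

variable {𝒰 X}

/-- `U(A) = ∏_i C(K i, A)` -/
abbrev shU (O : OrbitData 𝒰 X ι) (A : Rep.{0} k G) : Cpx k :=
  pi fun i => lcCpx (𝒰.sub (O.K i)) (Rep.res (O.K i).subtype A)

/-- the Shapiro map `σ : T(A) → U(A)` -/
def shSig (O : OrbitData 𝒰 X ι) (A : Rep.{0} k G) : Cpx.Hom (shT 𝒰 X A) (shU O A) :=
  piLift fun i => evHom 𝒰 X A (O.r i) (O.K i) fun g hg => (O.mem i g).1 hg

variable (𝒰 X) in
/-- functoriality of `T` -/
def shTmap {A B : Rep.{0} k G} (ψ : A →ₗ[k] B) (hψ : IsEqv A B ψ) :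
    Cpx.Hom (shT 𝒰 X A) (shT 𝒰 X B) :=
  lcLin 𝒰 (postLin X ψ) (postLin_eqv X hψ)

/-- functoriality of `U` -/
def shUmap (O : OrbitData 𝒰 X ι) {A B : Rep.{0} k G} (ψ : A →ₗ[k] B) (hψ : IsEqv A B ψ) :
    Cpx.Hom (shU O A) (shU O B) :=
  piLift fun i => (piProj (fun i => lcCpx (𝒰.sub (O.K i)) (Rep.res (O.K i).subtype A)) i).comp
    (lcLin (𝒰.sub (O.K i)) (M := Rep.res (O.K i).subtype A) (N := Rep.res (O.K i).subtype B) ψ
      (fun h a => hψ h.1 a))

lemma shSig_comm (O : OrbitData 𝒰 X ι) {A B : Rep.{0} k G} (ψ : A →ₗ[k] B) (hψ : IsEqv A B ψ)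
    (n : ℕ) (x : (shT 𝒰 X A).X n) :
    (shUmap O ψ hψ).f n ((shSig O A).f n x) = (shSig O B).f n ((shTmap 𝒰 X ψ hψ).f n x) := rfl

lemma constLin_eqv (Y : Type) [MulAction G Y] (A : Rep.{0} k G) :
    IsEqv A (mapRep Y A) (constLin Y A) := constLin_comm Y A

/-- the quotient representation `Map(Y, A) / A` -/
def cokRepr (Y : Type) [MulAction G Y] (A : Rep.{0} k G) :
    Representation k G ((Y → A) ⧸ LinearMap.range (constLin Y A)) where
  toFun g := Submodule.mapQ _ _ ((mapRep Y A).ρ g) (by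
    rintro _ ⟨a, rfl⟩
    exact ⟨A.ρ g a, constLin_comm Y A g a⟩)
  map_one' := by
    ext f
    simp
  map_mul' g h := by
    ext f
    simp

/-- `Q = Map(Y, A) / A` as an object of `Rep` -/
abbrev cokRep (Y : Type) [MulAction G Y] (A : Rep.{0} k G) : Rep.{0} k G := Rep.of (cokRepr Y A)

/-- the projection `Map(Y, A) → Q` -/
def cokLin (Y : Type) [MulAction G Y] (A : Rep.{0} k G) : mapRep Y A →ₗ[k] cokRep Y A :=
  Submodule.mkQ _

lemma cokLin_eqv (Y : Type) [MulAction G Y] (A : Rep.{0} k G) :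
    IsEqv (mapRep Y A) (cokRep Y A) (cokLin Y A) := fun _ _ => rfl

end Defs

/-- SH-0. bijectivity in degree `0`. -/
def Stmt_sh0 : Prop :=
  ∀ (k : Type) [CommRing k] (G : Type) [Group G] (𝒰 : LevelSys G) (X : Type) [MulAction G X]
    (ι : Type) (O : OrbitData 𝒰 X ι) (A : Rep.{0} k G),
    Function.Bijective ((shSig O A).mapH 0)

/-- SH-1. discreteness of the auxiliary modules. -/
def Stmt_shDisc : Prop :=
  ∀ (k : Type) [CommRing k] (G : Type) [Group G] (𝒰 : LevelSys G) (A : Rep.{0} k G),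
    IsDisc 𝒰 A →
    (∀ (Y : Type) [MulAction G Y] [Finite Y],
      (∀ y : Y, 𝒰.IsOpen (MulAction.stabilizer G y)) →
      IsDisc 𝒰 (mapRep Y A) ∧ IsDisc 𝒰 (cokRep Y A)) ∧
    (∀ W ∈ 𝒰.S, ∀ y : G ⧸ W, 𝒰.IsOpen (MulAction.stabilizer G y)) ∧
    (∀ K : Subgroup G, IsDisc (𝒰.sub K) (Rep.res K.subtype A))

/-- SH-2. `T` and `U` turn a short exact sequence with discrete middle term into short exact
sequences of complexes. -/
def Stmt_shSES : Prop :=
  ∀ (k : Type) [CommRing k] (G : Type) [Group G] (𝒰 : LevelSys G) (X : Type) [MulAction G X]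
    [Finite X] (ι : Type) (O : OrbitData 𝒰 X ι) (A B C : Rep.{0} k G) (i : A →ₗ[k] B)
    (q : B →ₗ[k] C) (hi : IsEqv A B i) (hq : IsEqv B C q),
    Function.Injective i → Function.Surjective q → (∀ b, q b = 0 ↔ ∃ a, i a = b) → IsDisc 𝒰 B →
    IsSES (shTmap 𝒰 X i hi) (shTmap 𝒰 X q hq) ∧ IsSES (shUmap O i hi) (shUmap O q hq)

/-- SH-3. effacement for `T`. -/
def Stmt_shEffT : Prop :=
  ∀ (k : Type) [CommRing k] (G : Type) [Group G] (𝒰 : LevelSys G) (X : Type) [MulAction G X]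
    (A : Rep.{0} k G) (n : ℕ) (x : (shT 𝒰 X A).H (n + 1)),
    ∃ W₀ ∈ 𝒰.S, ∀ W ∈ 𝒰.S, W ≤ W₀ →
      (shTmap 𝒰 X (constLin (G ⧸ W) A) (constLin_eqv (G ⧸ W) A)).mapH (n + 1) x = 0

/-- SH-4. effacement for `U`. -/
def Stmt_shEffU : Prop :=
  ∀ (k : Type) [CommRing k] (G : Type) [Group G] (𝒰 : LevelSys G) (X : Type) [MulAction G X]
    (ι : Type) [Finite ι] (O : OrbitData 𝒰 X ι) (A : Rep.{0} k G) (n : ℕ)
    (u : (shU O A).H (n + 1)),
    ∃ W₀ ∈ 𝒰.S, ∀ W ∈ 𝒰.S, W ≤ W₀ →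
      (shUmap O (constLin (G ⧸ W) A) (constLin_eqv (G ⧸ W) A)).mapH (n + 1) u = 0

/-- **SHAPIRO-MACKEY for `Hlc`.** -/
def Stmt_shapiroLc : Prop :=
  ∀ (k : Type) [CommRing k] (G : Type) [Group G] (𝒰 : LevelSys G) (X : Type) [MulAction G X]
    [Finite X] (ι : Type) [Finite ι] (O : OrbitData 𝒰 X ι) (A : Rep.{0} k G), IsDisc 𝒰 A →
    ∀ n, Function.Bijective ((shSig O A).mapH n)

end Fermat.Agent.CFT.Top

end
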