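/-
TEAM CFT, LC-TOOLKIT (helper33): Shapiro for permutation modules, in the shapes consumed by
[NUM] and [LOC]:  `Hⁿ(G, Map(G/H, A)) ≃ Hⁿ(H, A)` via `ev_1 ∘ res`, in particular
`Hlc 𝒰 (permRep k H) n ≃ Hlc (𝒰.comap H.subtype) (Rep.trivial k H k) n`.
-/
import Fermat.Agent.CFT.Top.ToolSh
import Fermat.Agent.CFT.Top.Pi
import Fermat.Agent.CFT.Top.DeltaNat

set_option autoImplicit false

noncomputable section

namespace Fermat.Agent.CFT.Top

open Cpx

variable {k : Type} [CommRing k] {G : Type} [Group G]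

lemma ToolShapiroPerm.smul_one_iff (H : Subgroup G) (g : G) :
    g ∈ H ↔ g • ((1 : G) : G ⧸ H) = ((1 : G) : G ⧸ H) := by
  have e : g • ((1 : G) : G ⧸ H) = ((g * 1 : G) : G ⧸ H) := rfl
  rw [e, QuotientGroup.eq]
  simp

/-- the transitive orbit datum of `G ⧸ H` -/
def orbitQuot (𝒰 : LevelSys G) (H : Subgroup G) (hH : 𝒰.IsOpen H) : OrbitData 𝒰 (G ⧸ H) Unit where
  r _ := ((1 : G) : G ⧸ H)
  K _ := H
  mem _ g := ToolShapiroPerm.smul_one_iff H g
  isOpen _ := hH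
  uniq x := by
    refine ⟨(), ?_, fun _ _ => rfl⟩
    induction x using QuotientGroup.induction_on with
    | H g => exact ⟨g, by
        show ((g * 1 : G) : G ⧸ H) = _
        rw [mul_one]⟩

/-- the Shapiro map `ev_1 ∘ res : C(G, Map(G/H, A)) → C(H, A)`. -/
def shQuot (𝒰 : LevelSys G) (H : Subgroup G) (A : Rep.{0} k G) :
    Cpx.Hom (lcCpx 𝒰 (mapRep (G ⧸ H) A)) (lcCpx (𝒰.sub H) (Rep.res H.subtype A)) :=
  evHom 𝒰 (G ⧸ H) A ((1 : G) : G ⧸ H) H fun g hg => (ToolShapiroPerm.smul_one_iff H g).1 hg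

lemma LevelSys.IsOpen.finiteIndex {𝒰 : LevelSys G} {H : Subgroup G} (hH : 𝒰.IsOpen H) :
    H.FiniteIndex := by
  obtain ⟨U, hU, hUH⟩ := hH
  have := 𝒰.fin U hU
  exact Subgroup.finiteIndex_of_le hUH

/-- **Shapiro**: `ev_1 ∘ res` is bijective on `Hlc`, all degrees, all discrete `A`. -/
theorem tool_shQuot_bijective (h : Stmt_shapiroLc) (𝒰 : LevelSys G) (H : Subgroup G)
    (hH : 𝒰.IsOpen H) (A : Rep.{0} k G) (hA : IsDisc 𝒰 A) (n : ℕ) :
    Function.Bijective ((shQuot 𝒰 H A).mapH n) := by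
  have := hH.finiteIndex
  have h1 := h k G 𝒰 (G ⧸ H) Unit (orbitQuot 𝒰 H hH) A hA n
  have h2 := stmt_piH k Unit
    (fun i => lcCpx (𝒰.sub ((orbitQuot 𝒰 H hH).K i)) (Rep.res ((orbitQuot 𝒰 H hH).K i).subtype A)) n
  have h3 : Function.Bijective
      ((piProj (fun i => lcCpx (𝒰.sub ((orbitQuot 𝒰 H hH).K i))
        (Rep.res ((orbitQuot 𝒰 H hH).K i).subtype A)) ()).mapH n) := by
    constructor
    · intro x y hxy
      exact h2.1 (funext fun _ => hxy)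
    · intro y
      obtain ⟨x, hx⟩ := h2.2 (fun _ => y)
      exact ⟨x, congrFun hx ()⟩
  have h4 : ∀ x, (shQuot 𝒰 H A).mapH n x =
      (piProj (fun i => lcCpx (𝒰.sub ((orbitQuot 𝒰 H hH).K i))
        (Rep.res ((orbitQuot 𝒰 H hH).K i).subtype A)) ()).mapH n
        ((shSig (orbitQuot 𝒰 H hH) A).mapH n x) := by
    intro x
    rw [← (stmt_mapH k _ _ _ (shSig (orbitQuot 𝒰 H hH) A) (piProj _ ()) n x).2]
    rfl
  have h5 : ⇑((shQuot 𝒰 H A).mapH n) = fun x =>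
      (piProj (fun i => lcCpx (𝒰.sub ((orbitQuot 𝒰 H hH).K i))
        (Rep.res ((orbitQuot 𝒰 H hH).K i).subtype A)) ()).mapH n
        ((shSig (orbitQuot 𝒰 H hH) A).mapH n x) := funext h4
  rw [h5]
  exact h3.comp h1

lemma ToolShapiroPerm.isDisc_trivial (𝒰 : LevelSys G) : IsDisc 𝒰 (Rep.trivial k G k) := by
  intro m
  obtain ⟨U, hU⟩ := 𝒰.ne
  exact ⟨U, hU, fun _ _ => rfl⟩

/-- the Shapiro map for the permutation module, with values in the trivial module of `H`. -/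
def shPerm (k : Type) [CommRing k] (𝒰 : LevelSys G) (H : Subgroup G) :
    Cpx.Hom (lcCpx 𝒰 (permRep k H)) (lcCpx (𝒰.comap H.subtype) (Rep.trivial k H k)) :=
  shQuot 𝒰 H (Rep.trivial k G k)

theorem tool_shPerm_bijective (h : Stmt_shapiroLc) (k : Type) [CommRing k] (𝒰 : LevelSys G)
    (H : Subgroup G) (hH : 𝒰.IsOpen H) (n : ℕ) : Function.Bijective ((shPerm k 𝒰 H).mapH n) :=
  tool_shQuot_bijective h 𝒰 H hH _ (ToolShapiroPerm.isDisc_trivial 𝒰) n

/-- the shape used by [LOC] (`Local.Stmt_shapiroLc`), for any `k`. -/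
theorem tool_shapiroPerm (h : Stmt_shapiroLc) (k : Type) [CommRing k] (G : Type) [Group G]
    (𝒰 : LevelSys G) (H : Subgroup G) (hH : 𝒰.IsOpen H) (i : ℕ) :
    Nonempty (Hlc 𝒰 (permRep k H) i ≃ₗ[k] Hlc (𝒰.comap H.subtype) (Rep.trivial k H k) i) :=
  ⟨LinearEquiv.ofBijective _ (tool_shPerm_bijective h k 𝒰 H hH i)⟩

end Fermat.Agent.CFT.Top

end
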