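/-
TEAM CFT -> S55, top level, BR0: `ℚ(μ_p)` is unramified outside `S ∋ p`.
-/
import Fermat.Agent.CFT.Top.QDatum
import Fermat.Agent.CFT.CycloBridge

set_option autoImplicit false

namespace Fermat.Agent.CFT.Top

open groupCohomology ExtCitation

theorem stmt_cycloTriv : Stmt_cycloTriv := by
  intro p _ S hpS
  refine ⟨(cycloChar p).ker, ⟨inferInstance, Fermat.Agent.CFT.cycloField p, ⟨inferInstance, ?_⟩, ?_⟩,
    fun u hu => hu⟩
  · intro q hq A hA g hg
    rw [← Fermat.Agent.CFT.cycloChar_eq_one_iff_mem_fixingSubgroup]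
    refine Fermat.Agent.CFT.cycloChar_eq_one_of_mem_inertia p q.2 ?_ A hA hg
    intro hqp
    apply hq
    have : q = pPrime p := Subtype.ext hqp
    rwa [this]
  · intro s hs
    exact (Fermat.Agent.CFT.cycloChar_eq_one_iff_mem_fixingSubgroup p s).mpr hs

end Fermat.Agent.CFT.Top
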