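/-
TEAM CFT -> S55, LC-TOOLKIT (sub-lead helper33).  Definitions + statements-as-Props.

Purpose: pass from FINITE LEVEL results (Mathlib `groupCohomology` of `G ⧸ U` acting on `M^U`,
as delivered by P0 / P1 / P2) to the level constant cohomology `Hlc 𝒰 M n` of `Top/LC.lean`;
effacement; change of rings `ℤ ↔ ZMod p`; Kummer sequences.
Each package proves `theorem tool_xxx (deps as hypotheses) : Stmt_xxx` in its own file
`Fermat/Agent/CFT/Top/Tool<Name>.lean`.
-/
import Fermat.Agent.CFT.Top.Datum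
import Fermat.Agent.CFT.Top.SCa

set_option autoImplicit false

noncomputable section

namespace Fermat.Agent.CFT.Top

open Cpx groupCohomology

section Defs

variable {k : Type} [CommRing k] {G : Type} [Group G]

/-- the discrete level system `{⊥}` on a finite group: `Hlc (botSys Γ) N n` is the cohomology of
ALL inhomogeneous cochains, as an honest subquotient. -/
def botSys (Γ : Type) [Group Γ] [Finite Γ] : LevelSys Γ where
  S := {⊥}
  normal := by rintro _ rfl; infer_instance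
  fin := by rintro _ rfl; infer_instance
  ne := ⟨⊥, rfl⟩
  dir := by rintro _ rfl _ rfl; exact ⟨⊥, rfl, le_rfl, le_rfl⟩

/-- the underlying function of a cocycle of the level constant complex -/
def cocFun {𝒰 : LevelSys G} {M : Rep.{0} k G} {n : ℕ} (z : (lcCpx 𝒰 M).Z n) : (Fin n → G) → M :=
  (show ↥(lcCochains 𝒰 M n) from z.1).1

lemma cocFun_mem {𝒰 : LevelSys G} {M : Rep.{0} k G} {n : ℕ} (z : (lcCpx 𝒰 M).Z n) :
    cocFun z ∈ lcCochains 𝒰 M n := (show ↥(lcCochains 𝒰 M n) from z.1).2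

lemma dd_cocFun {𝒰 : LevelSys G} {M : Rep.{0} k G} {n : ℕ} (z : (lcCpx 𝒰 M).Z n) :
    dd M n (cocFun z) = 0 := by
  have h := Cpx.mem_Z.1 z.2
  exact congrArg (fun y : ↥(lcCochains 𝒰 M (n + 1)) => y.1) h

/-- build a cocycle of the level constant complex from a function -/
def mkCoc {𝒰 : LevelSys G} {M : Rep.{0} k G} {n : ℕ} (f : (Fin n → G) → M)
    (hf : f ∈ lcCochains 𝒰 M n) (hd : dd M n f = 0) : (lcCpx 𝒰 M).Z n :=
  ⟨(⟨f, hf⟩ : ↥(lcCochains 𝒰 M n)), Cpx.mem_Z.2 (Subtype.ext hd)⟩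

@[simp] lemma cocFun_mkCoc {𝒰 : LevelSys G} {M : Rep.{0} k G} {n : ℕ} (f : (Fin n → G) → M)
    (hf : f ∈ lcCochains 𝒰 M n) (hd : dd M n f = 0) : cocFun (mkCoc f hf hd) = f := rfl

/-- `e` is the comparison map between the explicit subquotient and Mathlib's `groupCohomology`. -/
def IsFinCmp {Γ : Type} [Group Γ] [Finite Γ] (N : Rep.{0} k Γ) (n : ℕ)
    (e : Hlc (botSys Γ) N n →ₗ[k] groupCohomology N n) : Prop :=
  ∀ z : (lcCpx (botSys Γ) N).Z n,
    e ((lcCpx (botSys Γ) N).cls n z) = (π N n).hom (cocyclesMk (cocFun z) (dd_cocFun z))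

open Classical in
/-- the comparison map (junk `0` until `Stmt_finCmp` is proved). -/
def finCmp {Γ : Type} [Group Γ] [Finite Γ] (N : Rep.{0} k Γ) (n : ℕ) :
    Hlc (botSys Γ) N n →ₗ[k] groupCohomology N n :=
  if h : ∃ e, IsFinCmp N n e then h.choose else 0

lemma isCont_mk' (𝒰 : LevelSys G) (U : Subgroup G) [U.Normal] [U.FiniteIndex]
    (hU : 𝒰.IsOpen U) : LevelSys.IsCont 𝒰 (botSys (G ⧸ U)) (QuotientGroup.mk' U) := by
  rintro _ rfl
  obtain ⟨V, hV, hVU⟩ := hU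
  refine ⟨V, hV, fun v hv => ?_⟩
  simp only [Subgroup.mem_comap, Subgroup.mem_bot, QuotientGroup.mk'_apply,
    QuotientGroup.eq_one_iff]
  exact hVU hv

/-- inflation from the finite level `U`: `C(G/U, M^U) → C_lc(G, M)`. -/
def lcInf (𝒰 : LevelSys G) (M : Rep.{0} k G) (U : Subgroup G) [U.Normal] [U.FiniteIndex]
    (hU : 𝒰.IsOpen U) :
    Cpx.Hom (lcCpx (botSys (G ⧸ U)) (M.quotientToInvariants U)) (lcCpx 𝒰 M) :=
  lcMap (QuotientGroup.mk' U) (isCont_mk' 𝒰 U hU)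
    ((Representation.invariants (M.ρ.comp U.subtype)).subtype :
      (M.quotientToInvariants U) →ₗ[k] M) (fun _ _ => rfl)

/-- the inclusion `M^U → M^V` for `V ≤ U` -/
def invIncl (M : Rep.{0} k G) {U V : Subgroup G} (h : V ≤ U) :
    ↥(Representation.invariants (M.ρ.comp U.subtype)) →ₗ[k]
      ↥(Representation.invariants (M.ρ.comp V.subtype)) :=
  Submodule.inclusion fun _ hm v => hm ⟨v.1, h v.2⟩

/-- transition (inflation) between two finite levels `V ≤ U`: `C(G/U, M^U) → C(G/V, M^V)`. -/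
def lcTrans (M : Rep.{0} k G) (U V : Subgroup G) [U.Normal] [U.FiniteIndex] [V.Normal]
    [V.FiniteIndex] (h : V ≤ U) :
    Cpx.Hom (lcCpx (botSys (G ⧸ U)) (M.quotientToInvariants U))
      (lcCpx (botSys (G ⧸ V)) (M.quotientToInvariants V)) :=
  lcMap (QuotientGroup.map V U (MonoidHom.id G) h)
    (by rintro _ rfl; exact ⟨⊥, rfl, bot_le⟩)
    (invIncl M h : (M.quotientToInvariants U) →ₗ[k] (M.quotientToInvariants V))
    (by
      intro g m
      induction g using QuotientGroup.induction_on with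
      | H g => rfl)

/-- the constant functions `A → Map(X, A)` -/
def constLin (X : Type) [MulAction G X] (A : Rep.{0} k G) : A →ₗ[k] mapRep X A :=
  LinearMap.pi fun _ => LinearMap.id

lemma constLin_comm (X : Type) [MulAction G X] (A : Rep.{0} k G) (g : G) (a : A) :
    constLin X A (A.ρ g a) = (mapRep X A).ρ g (constLin X A a) := rfl

/-- the invariants `M^G` as an additive subgroup (avoids the `Module ℤ` diamond) -/
def invAdd (M : Rep.{0} k G) : AddSubgroup M where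
  carrier := {m | ∀ g, M.ρ g m = m}
  add_mem' ha hb g := by rw [map_add, ha g, hb g]
  zero_mem' g := map_zero _
  neg_mem' ha g := by rw [map_neg, ha g]

/-- the induced level system on a subgroup -/
abbrev LevelSys.sub (𝒰 : LevelSys G) (H : Subgroup G) : LevelSys H := 𝒰.comap H.subtype

end Defs

/-! ### T1-T2 : comparison with Mathlib at a finite level -/

/-- T1. `finCmp` is the comparison map and it is bijective. -/
def Stmt_finCmp : Prop :=
  ∀ (k : Type) [CommRing k] (Γ : Type) [Group Γ] [Finite Γ] (N : Rep.{0} k Γ) (n : ℕ),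
    IsFinCmp N n (finCmp N n) ∧ Function.Bijective (finCmp N n)

/-- T2. naturality of `finCmp` for Mathlib's `groupCohomology.map`. -/
def Stmt_finCmpNat : Prop :=
  ∀ (k : Type) [CommRing k] (Γ Γ' : Type) [Group Γ] [Finite Γ] [Group Γ'] [Finite Γ']
    (φ : Γ' →* Γ) (N : Rep.{0} k Γ) (N' : Rep.{0} k Γ') (ψ : Rep.res φ N ⟶ N') (n : ℕ)
    (x : Hlc (botSys Γ) N n),
    finCmp N' n ((lcMap (𝒰' := botSys Γ') (𝒰 := botSys Γ) φ
        (by rintro _ rfl; exact ⟨⊥, rfl, bot_le⟩) (M := N) (M' := N')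
        (ψ.hom.toLinearMap : N →ₗ[k] N')
        (fun g m => Rep.hom_comm_apply ψ g m)).mapH n x)
      = (groupCohomology.map φ ψ n).hom (finCmp N n x)

/-! ### T3-T5 : `Hlc` is the colimit of the finite levels -/

/-- T3. every class of `Hlc` is inflated from a finite level (which can be taken inside any given
level). -/
def Stmt_fromLevel : Prop :=
  ∀ (k : Type) [CommRing k] (G : Type) [Group G] (𝒰 : LevelSys G) (M : Rep.{0} k G) (n : ℕ)
    (x : Hlc 𝒰 M n) (U₀ : Subgroup G), U₀ ∈ 𝒰.S →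
    ∃ (U : Subgroup G) (hU : U ∈ 𝒰.S), U ≤ U₀ ∧
      haveI := 𝒰.normal U hU
      haveI := 𝒰.fin U hU
      ∃ y, (lcInf 𝒰 M U ⟨U, hU, le_rfl⟩).mapH n y = x

/-- T4. a finite level class which dies in `Hlc` dies at a deeper finite level. -/
def Stmt_diesDeeper : Prop :=
  ∀ (k : Type) [CommRing k] (G : Type) [Group G] (𝒰 : LevelSys G) (M : Rep.{0} k G) (n : ℕ)
    (U : Subgroup G) (hU : U ∈ 𝒰.S),
    haveI := 𝒰.normal U hU
    haveI := 𝒰.fin U hU
    ∀ y, (lcInf 𝒰 M U ⟨U, hU, le_rfl⟩).mapH n y = 0 →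
      ∃ (V : Subgroup G) (hV : V ∈ 𝒰.S) (h : V ≤ U),
        haveI := 𝒰.normal V hV
        haveI := 𝒰.fin V hV
        (lcTrans M U V h).mapH n y = 0

/-- T5. compatibility of the inflations. -/
def Stmt_infTrans : Prop :=
  ∀ (k : Type) [CommRing k] (G : Type) [Group G] (𝒰 : LevelSys G) (M : Rep.{0} k G) (n : ℕ)
    (U V : Subgroup G) [U.Normal] [U.FiniteIndex] [V.Normal] [V.FiniteIndex] (h : V ≤ U)
    (hV : 𝒰.IsOpen V) (hU : 𝒰.IsOpen U) (y : Hlc (botSys (G ⧸ U)) (M.quotientToInvariants U) n),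
    (lcInf 𝒰 M V hV).mapH n ((lcTrans M U V h).mapH n y) = (lcInf 𝒰 M U hU).mapH n y

/-- T6. vanishing at cofinally many finite levels (Mathlib form) implies vanishing of `Hlc`. -/
def Stmt_lcVanish : Prop :=
  ∀ (k : Type) [CommRing k] (G : Type) [Group G] (𝒰 : LevelSys G) (M : Rep.{0} k G) (n : ℕ),
    (∀ U₀ ∈ 𝒰.S, ∃ (U : Subgroup G) (hU : U ∈ 𝒰.S), U ≤ U₀ ∧
      haveI := 𝒰.normal U hU
      CategoryTheory.Limits.IsZero (groupCohomology (M.quotientToInvariants U) n)) →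
    Subsingleton (Hlc 𝒰 M n)

/-! ### T7 : inflation is injective -/

/-- T7a. inflation is injective on `H¹`. -/
def Stmt_infInj1 : Prop :=
  ∀ (k : Type) [CommRing k] (G : Type) [Group G] (𝒰 : LevelSys G) (M : Rep.{0} k G)
    (U : Subgroup G) [U.Normal] [U.FiniteIndex] (hU : 𝒰.IsOpen U),
    Function.Injective ((lcInf 𝒰 M U hU).mapH 1)

/-- T7b. inflation is injective on `H²` if `H¹(U, M) = 0`. -/
def Stmt_infInj2 : Prop :=
  ∀ (k : Type) [CommRing k] (G : Type) [Group G] (𝒰 : LevelSys G) (M : Rep.{0} k G)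
    (U : Subgroup G) [U.Normal] [U.FiniteIndex] (hU : 𝒰.IsOpen U),
    Subsingleton (Hlc (𝒰.sub U) (Rep.res U.subtype M) 1) →
    Function.Injective ((lcInf 𝒰 M U hU).mapH 2)

/-! ### T8 : change of rings -/

/-- T8. `Hlc` only depends on the underlying abelian group with `G`-action. -/
def Stmt_changeRing : Prop :=
  ∀ (k k' : Type) [CommRing k] [CommRing k'] (G : Type) [Group G] (𝒰 : LevelSys G)
    (M : Rep.{0} k G) (M' : Rep.{0} k' G) (e : M ≃+ M'),
    (∀ (g : G) (m : M), e (M.ρ g m) = M'.ρ g (e m)) →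
    ∀ n, Nonempty (Hlc 𝒰 M n ≃+ Hlc 𝒰 M' n)

/-! ### T9 : Kummer sequences -/

/-- T9. Kummer package.  `M` a discrete `ℤ[G]`-module on which `p` is surjective, `T` an
`𝔽_p[G]`-module identified with `M[p]` through `j`.  If `H¹(G, M) = 0` then
`H¹(G,T) = M^G / p` and `H²(G,T) = H²(G,M)[p]`. -/
def Stmt_kummer : Prop :=
  ∀ (p : ℕ) [Fact p.Prime] (G : Type) [Group G] (𝒰 : LevelSys G) (M : Rep.{0} ℤ G)
    (T : Rep.{0} (ZMod p) G) (j : T →+ M),
    IsDisc 𝒰 M → (∀ m : M, ∃ m' : M, p • m' = m) → Function.Injective j →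
    (∀ (g : G) (t : T), j (T.ρ g t) = M.ρ g (j t)) → (∀ m : M, p • m = 0 ↔ ∃ t, j t = m) →
    Subsingleton (Hlc 𝒰 M 1) →
    Nonempty (Hlc 𝒰 T 1 ≃+
      (↥(invAdd M) ⧸ (AddMonoidHom.range (nsmulAddMonoidHom (α := ↥(invAdd M)) p)))) ∧
    Nonempty (Hlc 𝒰 T 2 ≃+ ↥(AddMonoidHom.ker (nsmulAddMonoidHom (α := Hlc 𝒰 M 2) p)))

/-! ### T10 : the p-torsion of `H²` of a "class formation" -/

/-- T10. If `H¹(U, M) = 0` for all levels `U`, and `H²(G/U, M^U)` is cyclic of order `[G:U]` for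
all levels, and `p` divides some `[G:U]`, then `H²(G, M)[p]` has order `p`. -/
def Stmt_H2tors : Prop :=
  ∀ (p : ℕ) [Fact p.Prime] (G : Type) [Group G] (𝒰 : LevelSys G) (M : Rep.{0} ℤ G),
    (∀ U ∈ 𝒰.S, Subsingleton (Hlc (𝒰.sub U) (Rep.res U.subtype M) 1)) →
    (∀ (U : Subgroup G) (hU : U ∈ 𝒰.S),
      haveI := 𝒰.normal U hU
      Nat.card (groupCohomology (M.quotientToInvariants U) 2) = U.index ∧
      ∃ γ : groupCohomology (M.quotientToInvariants U) 2, ∀ x, ∃ m : ℤ, x = m • γ) →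
    (∃ U ∈ 𝒰.S, p ∣ U.index) →
    Nat.card ↥(AddMonoidHom.ker (nsmulAddMonoidHom (α := Hlc 𝒰 M 2) p)) = p

/-! ### T11-T12 : effacement -/

/-- T11. EFFACEMENT: a class of positive degree which has level `W` dies in `Map(G/W, A)`
(`W` a normal subgroup; the cocycle has level `W`, so its values are fixed by `W`). -/
def Stmt_efface : Prop :=
  ∀ (k : Type) [CommRing k] (G : Type) [Group G] (𝒰 : LevelSys G) (A : Rep.{0} k G)
    (W : Subgroup G), W ∈ 𝒰.S → ∀ (n : ℕ) (z : (lcCpx 𝒰 A).Z (n + 1)),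
    IsLevel A W (n + 1) (cocFun z) →
    (lcLin 𝒰 (constLin (G ⧸ W) A) (constLin_comm (G ⧸ W) A)).mapH (n + 1)
      ((lcCpx 𝒰 A).cls (n + 1) z) = 0

/-- T12. EFFACEMENT for subgroups: `H ≤ G` any subgroup, a class of `Hⁿ⁺¹(H, A)` of level
`W ∩ H` dies in `Res_H Map(G/W, A)`. -/
def Stmt_effaceSub : Prop :=
  ∀ (k : Type) [CommRing k] (G : Type) [Group G] (𝒰 : LevelSys G) (A : Rep.{0} k G)
    (H W : Subgroup G), W ∈ 𝒰.S → ∀ (n : ℕ) (z : (lcCpx (𝒰.sub H) (Rep.res H.subtype A)).Z (n + 1)),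
    IsLevel (Rep.res H.subtype A) (W.subgroupOf H) (n + 1) (cocFun z) →
    (lcLin (𝒰.sub H) (M := Rep.res H.subtype A) (N := Rep.res H.subtype (mapRep (G ⧸ W) A))
      (constLin (G ⧸ W) A) (fun h a => constLin_comm (G ⧸ W) A h.1 a)).mapH (n + 1)
      ((lcCpx (𝒰.sub H) (Rep.res H.subtype A)).cls (n + 1) z) = 0

/-- T13. a finite dimensional (more generally finite) family of classes has a common level:
every cocycle of the level constant complex has SOME level in `𝒰`, below any given level. -/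
def Stmt_hasLevel : Prop :=
  ∀ (k : Type) [CommRing k] (G : Type) [Group G] (𝒰 : LevelSys G) (A : Rep.{0} k G) (n : ℕ)
    (s : Set (Hlc 𝒰 A n)), s.Finite → ∀ U₀ ∈ 𝒰.S, ∃ W ∈ 𝒰.S, W ≤ U₀ ∧
      ∀ x ∈ s, ∃ z : (lcCpx 𝒰 A).Z n, (lcCpx 𝒰 A).cls n z = x ∧ IsLevel A W n (cocFun z)

end Fermat.Agent.CFT.Top

end
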