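/-
CFT LC-TOOLKIT, T8 (= P1-H2): `Hlc` only depends on the underlying abelian group with `G`-action.
-/
import Fermat.Agent.CFT.Top.Tool

set_option autoImplicit false

noncomputable section

namespace Fermat.Agent.CFT.Top

open Cpx

/-- additive equivalences commuting with the differentials induce additive equivalences on
cohomology (the base rings may differ). -/
theorem changeRing_addEquivH {k k' : Type} [CommRing k] [CommRing k'] (C : Cpx k) (C' : Cpx k')
    (E : ∀ n, C.X n ≃+ C'.X n) (hE : ∀ n x, E (n + 1) (C.d n x) = C'.d n (E n x)) (n : ℕ) :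
    Nonempty (C.H n ≃+ C'.H n) := by
  have hEs : ∀ n y, (E (n + 1)).symm (C'.d n y) = C.d n ((E n).symm y) := fun n y => by
    rw [AddEquiv.symm_apply_eq, hE, AddEquiv.apply_symm_apply]
  let ZE : ↥(C.Z n) ≃+ ↥(C'.Z n) :=
    { toFun := fun z => ⟨E n z.1, by
        rw [mem_Z, ← hE, mem_Z.1 z.2, map_zero]⟩
      invFun := fun z => ⟨(E n).symm z.1, by
        rw [mem_Z, ← hEs, mem_Z.1 z.2, map_zero]⟩
      left_inv := fun z => Subtype.ext ((E n).symm_apply_apply z.1)
      right_inv := fun z => Subtype.ext ((E n).apply_symm_apply z.1)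
      map_add' := fun a b => Subtype.ext ((E n).map_add a.1 b.1) }
  have hB : ∀ x : C.X n, x ∈ C.B n ↔ E n x ∈ C'.B n := by
    intro x
    cases n with
    | zero =>
      rw [mem_B_zero, mem_B_zero]
      exact ((E 0).map_eq_zero_iff).symm
    | succ m =>
      rw [mem_B_succ, mem_B_succ]
      constructor
      · rintro ⟨y, rfl⟩
        exact ⟨E m y, (hE m y).symm⟩
      · rintro ⟨y, hy⟩
        refine ⟨(E m).symm y, ?_⟩
        apply (E (m + 1)).injective
        rw [hE, AddEquiv.apply_symm_apply, hy]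
  let P : Submodule ℤ ↥(C.Z n) := ((C.B n).comap (C.Z n).subtype).restrictScalars ℤ
  let Q : Submodule ℤ ↥(C'.Z n) := ((C'.B n).comap (C'.Z n).subtype).restrictScalars ℤ
  have hPQ : P.map (ZE.toIntLinearEquiv : ↥(C.Z n) →ₗ[ℤ] ↥(C'.Z n)) = Q := by
    ext z
    constructor
    · rintro ⟨y, hy, rfl⟩
      exact (hB y.1).1 hy
    · intro hz
      refine ⟨ZE.symm z, ?_, ZE.apply_symm_apply z⟩
      show (ZE.symm z).1 ∈ C.B n
      rw [hB]
      have : E n (ZE.symm z).1 = z.1 := (E n).apply_symm_apply z.1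
      rw [this]
      exact hz
  let e1 := Submodule.Quotient.restrictScalarsEquiv ℤ ((C.B n).comap (C.Z n).subtype)
  let e2 := Submodule.Quotient.equiv P Q ZE.toIntLinearEquiv hPQ
  let e3 := Submodule.Quotient.restrictScalarsEquiv ℤ ((C'.B n).comap (C'.Z n).subtype)
  exact ⟨(e1.symm.trans (e2.trans e3)).toAddEquiv⟩

section

variable {k k' : Type} [CommRing k] [CommRing k'] {G : Type} [Group G]

lemma changeRing_neg_one_pow_smul {M : Type} [AddCommGroup M] [Module k M] (j : ℕ) (x : M) :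
    ((-1 : k) ^ j) • x = ((-1 : ℤ) ^ j) • x := by
  rcases neg_one_pow_eq_or k j with h | h <;> rcases Nat.even_or_odd j with h' | h'
  · rw [h'.neg_one_pow, h'.neg_one_pow, one_smul, one_smul]
  · rw [h'.neg_one_pow, h'.neg_one_pow, neg_smul, neg_smul, one_smul, one_smul]
  · rw [h'.neg_one_pow, h'.neg_one_pow, one_smul, one_smul]
  · rw [h'.neg_one_pow, h'.neg_one_pow, neg_smul, neg_smul, one_smul, one_smul]

lemma changeRing_dd (M : Rep.{0} k G) (M' : Rep.{0} k' G) (e : M →+ M')
    (he : ∀ (g : G) (m : M), e (M.ρ g m) = M'.ρ g (e m)) (n : ℕ) (f : (Fin n → G) → M) :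
    (fun g => e (dd M n f g)) = dd M' n (fun g => e (f g)) := by
  funext g
  rw [dd_apply, dd_apply, map_add, map_sum, he]
  congr 1
  refine Finset.sum_congr rfl fun j _ => ?_
  rw [changeRing_neg_one_pow_smul (k := k), changeRing_neg_one_pow_smul (k := k'), map_zsmul]

lemma changeRing_isLevel (M : Rep.{0} k G) (M' : Rep.{0} k' G) (e : M →+ M')
    (he : ∀ (g : G) (m : M), e (M.ρ g m) = M'.ρ g (e m)) {U : Subgroup G} {n : ℕ}
    {f : (Fin n → G) → M} (hf : IsLevel M U n f) : IsLevel M' U n (fun g => e (f g)) :=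
  ⟨fun g g' hg => by
    show e (f g) = e (f g')
    rw [hf.1 g g' hg], fun g u hu => by
    show M'.ρ u (e (f g)) = e (f g)
    rw [← he, hf.2 g u hu]⟩

/-- the additive equivalence on level constant cochains -/
def changeRingX (𝒰 : LevelSys G) (M : Rep.{0} k G) (M' : Rep.{0} k' G) (e : M ≃+ M')
    (he : ∀ (g : G) (m : M), e (M.ρ g m) = M'.ρ g (e m)) (n : ℕ) :
    (lcCpx 𝒰 M).X n ≃+ (lcCpx 𝒰 M').X n where
  toFun f := ⟨fun g => e ((show ↥(lcCochains 𝒰 M n) from f).1 g), by
    obtain ⟨U, hU, h⟩ := (show ↥(lcCochains 𝒰 M n) from f).2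
    exact ⟨U, hU, changeRing_isLevel M M' e.toAddMonoidHom he h⟩⟩
  invFun f := ⟨fun g => e.symm ((show ↥(lcCochains 𝒰 M' n) from f).1 g), by
    obtain ⟨U, hU, h⟩ := (show ↥(lcCochains 𝒰 M' n) from f).2
    refine ⟨U, hU, changeRing_isLevel M' M e.symm.toAddMonoidHom (fun g m => ?_) h⟩
    show e.symm (M'.ρ g m) = M.ρ g (e.symm m)
    rw [AddEquiv.symm_apply_eq, he, AddEquiv.apply_symm_apply]⟩
  left_inv f := Subtype.ext (funext fun g => e.symm_apply_apply _)
  right_inv f := Subtype.ext (funext fun g => e.apply_symm_apply _)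
  map_add' a b := Subtype.ext (funext fun g => e.map_add _ _)

end

/-- T8. -/
theorem tool_changeRing : Stmt_changeRing := by
  intro k k' _ _ G _ 𝒰 M M' e he n
  refine changeRing_addEquivH (lcCpx 𝒰 M) (lcCpx 𝒰 M') (changeRingX 𝒰 M M' e he) ?_ n
  intro m x
  exact Subtype.ext (changeRing_dd M M' e.toAddMonoidHom he m _)

end Fermat.Agent.CFT.Top

end
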