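/-
TEAM CFT, LC-TOOLKIT T11 (helper33): effacement.  A class of positive degree and level `W` dies in
`Map(G/W, A)`; explicit contracting homotopy `h(g)(y) = y f(y⁻¹, g)`.
-/
import Fermat.Agent.CFT.Top.Tool

set_option autoImplicit false

noncomputable section

namespace Fermat.Agent.CFT.Top

open Cpx groupCohomology

namespace ToolEfface

lemma contractNth_succ_cons {α : Type*} {n : ℕ} (j : Fin (n + 1)) (op : α → α → α) (a : α)
    (g : Fin (n + 1) → α) :
    Fin.contractNth j.succ op (Fin.cons a g : Fin (n + 2) → α)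
      = Fin.cons a (Fin.contractNth j op g) := by
  funext i
  refine Fin.cases ?_ (fun i' => ?_) i
  · rw [Fin.contractNth_apply_of_lt _ _ _ _ (by simp)]
    simp
  · rw [Fin.cons_succ]
    rcases lt_trichotomy (i' : ℕ) (j : ℕ) with h | h | h
    · rw [Fin.contractNth_apply_of_lt _ _ _ _ (by simpa using h),
        Fin.contractNth_apply_of_lt _ _ _ _ h, ← Fin.succ_castSucc, Fin.cons_succ]
    · rw [Fin.contractNth_apply_of_eq _ _ _ _ (by simpa using h),
        Fin.contractNth_apply_of_eq _ _ _ _ h, ← Fin.succ_castSucc, Fin.cons_succ, Fin.cons_succ]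
    · rw [Fin.contractNth_apply_of_gt _ _ _ _ (by simpa using h),
        Fin.contractNth_apply_of_gt _ _ _ _ h, Fin.cons_succ]

lemma contractNth_zero_cons {α : Type*} {n : ℕ} (op : α → α → α) (a : α)
    (g : Fin (n + 1) → α) :
    Fin.contractNth 0 op (Fin.cons a g : Fin (n + 2) → α)
      = Fin.cons (op a (g 0)) (fun i : Fin n => g i.succ) := by
  funext i
  refine Fin.cases ?_ (fun i' => ?_) i
  · rw [Fin.contractNth_apply_of_eq _ _ _ _ (by simp)]
    simp
  · rw [Fin.contractNth_apply_of_gt _ _ _ _ (by simp), Fin.cons_succ, Fin.cons_succ]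

variable {k : Type} [CommRing k] {G : Type} [Group G]

/-- the contracting homotopy -/
def hom (A : Rep.{0} k G) (W : Subgroup G) {n : ℕ} (f : (Fin (n + 1) → G) → A) :
    (Fin n → G) → (mapRep (G ⧸ W) A) :=
  fun g q => A.ρ q.out (f (Fin.cons q.out⁻¹ g))

lemma hom_mk (A : Rep.{0} k G) (W : Subgroup G) [W.Normal] {n : ℕ} {f : (Fin (n + 1) → G) → A}
    (hf : IsLevel A W (n + 1) f) (g : Fin n → G) (y : G) :
    hom A W f g (y : G ⧸ W) = A.ρ y (f (Fin.cons y⁻¹ g)) := by
  obtain ⟨w, hw⟩ := QuotientGroup.mk_out_eq_mul W y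
  show A.ρ (y : G ⧸ W).out (f (Fin.cons (y : G ⧸ W).out⁻¹ g)) = _
  rw [hw, map_mul, Module.End.mul_apply, hf.2 _ _ w.2]
  congr 1
  refine hf.1 _ _ fun i => ?_
  refine Fin.cases ?_ (fun i' => ?_) i
  · simp only [Fin.cons_zero, inv_inv]
    have := (inferInstance : W.Normal).conj_mem w.1 w.2 y
    simpa using this
  · simp only [Fin.cons_succ, inv_mul_cancel]
    exact W.one_mem

lemma hom_isLevel (A : Rep.{0} k G) (W : Subgroup G) [W.Normal] {n : ℕ}
    {f : (Fin (n + 1) → G) → A} (hf : IsLevel A W (n + 1) f) :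
    IsLevel (mapRep (G ⧸ W) A) W n (hom A W f) := by
  refine ⟨fun g g' hg => ?_, fun g u hu => ?_⟩
  · funext q
    show A.ρ q.out (f (Fin.cons q.out⁻¹ g)) = A.ρ q.out (f (Fin.cons q.out⁻¹ g'))
    congr 1
    refine hf.1 _ _ fun i => ?_
    refine Fin.cases ?_ (fun i' => ?_) i
    · simp only [Fin.cons_zero, inv_inv, mul_inv_cancel]
      exact W.one_mem
    · simpa only [Fin.cons_succ] using hg i'
  · funext q
    induction q using QuotientGroup.induction_on with
    | H y =>
      rw [mapRep_ρ_apply]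
      have e : u⁻¹ • (y : G ⧸ W) = ((u⁻¹ * y : G) : G ⧸ W) := rfl
      rw [e, hom_mk A W hf, hom_mk A W hf, ← Module.End.mul_apply, ← map_mul,
        mul_inv_cancel_left]
      congr 1
      refine hf.1 _ _ fun i => ?_
      refine Fin.cases ?_ (fun i' => ?_) i
      · simp only [Fin.cons_zero, mul_inv_rev, inv_inv]
        have : u⁻¹ * y * y⁻¹ = u⁻¹ := by group
        rw [this]
        exact W.inv_mem hu
      · simp only [Fin.cons_succ, inv_mul_cancel]
        exact W.one_mem

lemma dd_hom (A : Rep.{0} k G) (W : Subgroup G) [W.Normal] {n : ℕ}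
    {f : (Fin (n + 1) → G) → A} (hf : IsLevel A W (n + 1) f) (hd : dd A (n + 1) f = 0) :
    dd (mapRep (G ⧸ W) A) n (hom A W f) = fun g => constLin (G ⧸ W) A (f g) := by
  funext g q
  induction q using QuotientGroup.induction_on with
  | H y =>
    have h0 := congrFun hd (Fin.cons y⁻¹ g)
    rw [dd_apply, Fin.sum_univ_succ] at h0
    simp only [Fin.cons_zero, Fin.cons_succ, contractNth_succ_cons, contractNth_zero_cons,
      Fin.val_zero, Fin.val_succ, Pi.zero_apply] at h0
    have h1 := congrArg (A.ρ y) h0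
    rw [map_zero, map_add, map_add, ← Module.End.mul_apply, ← map_mul, mul_inv_cancel, map_one,
      Module.End.one_apply, map_sum] at h1
    rw [dd_apply]
    show ((mapRep (G ⧸ W) A).ρ (g 0) (hom A W f fun i => g i.succ)) (y : G ⧸ W) +
      (Finset.univ.sum fun j : Fin (n + 1) =>
        (-1 : k) ^ ((j : ℕ) + 1) • hom A W f (Fin.contractNth j (· * ·) g)) (y : G ⧸ W) = f g
    rw [mapRep_ρ_apply, Finset.sum_apply]
    have e : (g 0)⁻¹ • (y : G ⧸ W) = (((g 0)⁻¹ * y : G) : G ⧸ W) := rfl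
    rw [e, hom_mk A W hf, ← Module.End.mul_apply, ← map_mul, mul_inv_cancel_left]
    have e2 : ((g 0)⁻¹ * y)⁻¹ = y⁻¹ * g 0 := by group
    rw [e2]
    have e3 : ∀ j : Fin (n + 1),
        ((-1 : k) ^ ((j : ℕ) + 1) • hom A W f (Fin.contractNth j (· * ·) g)) (y : G ⧸ W)
          = - A.ρ y ((-1 : k) ^ ((j : ℕ) + 1 + 1) • f (Fin.cons y⁻¹ (Fin.contractNth j (· * ·) g))) := by
      intro j
      rw [Pi.smul_apply, hom_mk A W hf, map_smul, pow_succ (-1 : k) ((j : ℕ) + 1)]
      simp
    rw [Finset.sum_congr rfl fun j _ => e3 j, Finset.sum_neg_distrib]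
    simp only [zero_add, pow_one, neg_smul, one_smul, map_neg] at h1
    rw [← sub_eq_zero]
    rw [← neg_eq_zero, ← h1]
    abel

end ToolEfface

open ToolEfface in
theorem tool_efface : Stmt_efface := by
  intro k _ G _ 𝒰 A W hW n z hz
  have := 𝒰.normal W hW
  rw [Hom.mapH_cls, cls_eq_zero_iff, mem_B_succ]
  refine ⟨(⟨hom A W (cocFun z), W, hW, hom_isLevel A W hz⟩ :
    ↥(lcCochains 𝒰 (mapRep (G ⧸ W) A) n)), ?_⟩
  apply Subtype.ext
  exact dd_hom A W hz (dd_cocFun z)

end Fermat.Agent.CFT.Top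

end
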