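/-
TEAM CFT, LC-TOOLKIT T12 (helper81): effacement for subgroups.  A class of `Hⁿ⁺¹(H, A)` of level
`W ∩ H` dies in `Res_H Map(G/W, A)`: it dies in `Map(H/(W ∩ H), A)` by T11, and there is an
`H`-equivariant map `θ : G/W → H/(W ∩ H)`, hence an `H`-linear map
`Map(H/(W ∩ H), A) → Res_H Map(G/W, A)` which preserves the constants.
-/
import Fermat.Agent.CFT.Top.Tool

set_option autoImplicit false

noncomputable section

namespace Fermat.Agent.CFT.Top

open Cpx groupCohomology

namespace ToolEffaceSub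

variable {k : Type} [CommRing k] {G : Type} [Group G]

/-- the chosen representative of the `H`-orbit of `y`. -/
def rep (H W : Subgroup G) (y : G ⧸ W) : G ⧸ W :=
  (Quotient.mk'' y : MulAction.orbitRel.Quotient H (G ⧸ W)).out

lemma exists_smul_rep (H W : Subgroup G) (y : G ⧸ W) : ∃ h : H, h • rep H W y = y := by
  have h1 : (Quotient.mk'' (rep H W y) : MulAction.orbitRel.Quotient H (G ⧸ W))
      = Quotient.mk'' y := Quotient.out_eq' _
  have h2 : y ∈ MulAction.orbit H (rep H W y) := by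
    rw [← MulAction.orbitRel_apply]
    exact (Quotient.eq''.1 h1.symm)
  exact h2

lemma rep_smul (H W : Subgroup G) (h : H) (y : G ⧸ W) : rep H W (h • y) = rep H W y := by
  unfold rep
  congr 1
  apply Quotient.sound'
  show (MulAction.orbitRel H (G ⧸ W)) (h • y) y
  rw [MulAction.orbitRel_apply]
  exact ⟨h, rfl⟩

/-- the chosen element of `H` moving the representative to `y`. -/
def elt (H W : Subgroup G) (y : G ⧸ W) : H := (exists_smul_rep H W y).choose

lemma elt_smul_rep (H W : Subgroup G) (y : G ⧸ W) : elt H W y • rep H W y = y :=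
  (exists_smul_rep H W y).choose_spec

/-- the `H`-equivariant map `G/W → H/(W ∩ H)`. -/
def theta (H W : Subgroup G) (y : G ⧸ W) : H ⧸ W.subgroupOf H := (elt H W y : H ⧸ W.subgroupOf H)

lemma mk_eq_of_smul_eq (H W : Subgroup G) [W.Normal] (a b : H) (t : G ⧸ W)
    (h : a • t = b • t) : (a : H ⧸ W.subgroupOf H) = (b : H ⧸ W.subgroupOf H) := by
  induction t using QuotientGroup.induction_on with
  | H g =>
    have h' : (((a : G) * g : G) : G ⧸ W) = (((b : G) * g : G) : G ⧸ W) := h
    rw [QuotientGroup.eq] at h' ⊢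
    rw [Subgroup.mem_subgroupOf]
    have := (inferInstance : W.Normal).conj_mem _ h' g
    have e : g * (((a : G) * g)⁻¹ * ((b : G) * g)) * g⁻¹ = (a : G)⁻¹ * (b : G) := by group
    rw [e] at this
    simpa using this

lemma theta_smul (H W : Subgroup G) [W.Normal] (h : H) (y : G ⧸ W) :
    theta H W (h • y) = h • theta H W y := by
  show (elt H W (h • y) : H ⧸ W.subgroupOf H) = ((h * elt H W y : H) : H ⧸ W.subgroupOf H)
  refine mk_eq_of_smul_eq H W _ _ (rep H W y) ?_
  have h1 := elt_smul_rep H W (h • y)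
  rw [rep_smul] at h1
  rw [h1, mul_smul, elt_smul_rep]

/-- `F ↦ F ∘ θ`. -/
def push (A : Rep.{0} k G) (H W : Subgroup G) :
    (mapRep (H ⧸ W.subgroupOf H) (Rep.res H.subtype A)) →ₗ[k]
      (Rep.res H.subtype (mapRep (G ⧸ W) A)) :=
  (LinearMap.funLeft k A (theta H W) :
    ((H ⧸ W.subgroupOf H) → A) →ₗ[k] ((G ⧸ W) → A))

lemma push_comm (A : Rep.{0} k G) (H W : Subgroup G) [W.Normal] (h : H)
    (F : mapRep (H ⧸ W.subgroupOf H) (Rep.res H.subtype A)) :
    push A H W ((mapRep (H ⧸ W.subgroupOf H) (Rep.res H.subtype A)).ρ h F)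
      = (Rep.res H.subtype (mapRep (G ⧸ W) A)).ρ h (push A H W F) := by
  funext y
  show A.ρ h.1 (F (h⁻¹ • theta H W y)) = A.ρ h.1 (F (theta H W ((h.1)⁻¹ • y)))
  have : ((h.1)⁻¹ • y : G ⧸ W) = h⁻¹ • y := rfl
  rw [this, theta_smul]

end ToolEffaceSub

open ToolEffaceSub in
theorem tool_effaceSub (h : Stmt_efface) : Stmt_effaceSub := by
  intro k _ G _ 𝒰 A H W hW n z hz
  have := 𝒰.normal W hW
  have h0 := h k H (𝒰.sub H) (Rep.res H.subtype A) (W.subgroupOf H) ⟨W, hW, rfl⟩ n z hz
  have h1 := congrArg ((lcLin (𝒰.sub H) (push A H W) (push_comm A H W)).mapH (n + 1)) h0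
  rw [map_zero] at h1
  exact h1

end Fermat.Agent.CFT.Top

end
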