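/-
TEAM CFT, LC-TOOLKIT, task TOOL-SH1 (helper35): discreteness of `Map(Y, A)`, `Map(Y, A) / A`,
`Res_K A`; stabilisers of points of `G ⧸ W` contain `W`.  `tool_shDisc : Stmt_shDisc`.
-/
import Fermat.Agent.CFT.Top.ToolSh
import Fermat.Agent.CFT.Top.SCa

set_option autoImplicit false

noncomputable section

namespace Fermat.Agent.CFT.Top

variable {k : Type} [CommRing k] {G : Type} [Group G]

lemma toolShDisc_mapRep {𝒰 : LevelSys G} {A : Rep.{0} k G} (hA : IsDisc 𝒰 A) (Y : Type)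
    [MulAction G Y] [Finite Y] (hY : ∀ y : Y, 𝒰.IsOpen (MulAction.stabilizer G y)) :
    IsDisc 𝒰 (mapRep Y A) := by
  intro f
  choose U hU hUf using fun y : Y => hA ((show Y → A from f) y)
  choose V hV hVy using hY
  obtain ⟨W₁, hW₁, h₁⟩ := 𝒰.exists_le_of_finite U hU
  obtain ⟨W₂, hW₂, h₂⟩ := 𝒰.exists_le_of_finite V hV
  obtain ⟨W, hW, hWW₁, hWW₂⟩ := 𝒰.dir W₁ hW₁ W₂ hW₂
  refine ⟨W, hW, fun w hw => funext fun y => ?_⟩
  have h3 : w⁻¹ • y = y := by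
    have : w ∈ MulAction.stabilizer G y := hVy y (h₂ y (hWW₂ hw))
    rw [inv_smul_eq_iff]
    exact (MulAction.mem_stabilizer_iff.mp this).symm
  rw [mapRep_ρ_apply, h3]
  exact hUf y w (h₁ y (hWW₁ hw))

lemma toolShDisc_cokRep {𝒰 : LevelSys G} {A : Rep.{0} k G} (Y : Type) [MulAction G Y]
    (h : IsDisc 𝒰 (mapRep Y A)) : IsDisc 𝒰 (cokRep Y A) := by
  intro m
  obtain ⟨f, rfl⟩ : ∃ f : mapRep Y A, cokLin Y A f = m := Submodule.mkQ_surjective _ m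
  obtain ⟨U, hU, hf⟩ := h f
  refine ⟨U, hU, fun u hu => ?_⟩
  rw [← cokLin_eqv Y A u f, hf u hu]

lemma toolShDisc_stab (𝒰 : LevelSys G) (W : Subgroup G) (hW : W ∈ 𝒰.S) (y : G ⧸ W) :
    𝒰.IsOpen (MulAction.stabilizer G y) := by
  have hn := 𝒰.normal W hW
  refine ⟨W, hW, fun w hw => ?_⟩
  induction y using QuotientGroup.induction_on with
  | H g =>
    rw [MulAction.mem_stabilizer_iff]
    show ((w * g : G) : G ⧸ W) = (g : G ⧸ W)
    rw [QuotientGroup.eq]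
    have h1 : (w * g)⁻¹ * g = g⁻¹ * w⁻¹ * g⁻¹⁻¹ := by group
    rw [h1]
    exact hn.conj_mem _ (W.inv_mem hw) _

lemma toolShDisc_res {𝒰 : LevelSys G} {A : Rep.{0} k G} (hA : IsDisc 𝒰 A) (K : Subgroup G) :
    IsDisc (𝒰.sub K) (Rep.res K.subtype A) := by
  intro m
  obtain ⟨U, hU, hm⟩ := hA m
  exact ⟨U.comap K.subtype, ⟨U, hU, rfl⟩, fun u hu => hm u.1 hu⟩

theorem tool_shDisc : Stmt_shDisc := by
  intro k _ G _ 𝒰 A hA
  refine ⟨fun Y _ _ hY => ?_, fun W hW y => toolShDisc_stab 𝒰 W hW y,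
    fun K => toolShDisc_res hA K⟩
  have h := toolShDisc_mapRep hA Y hY
  exact ⟨h, toolShDisc_cokRep Y h⟩

end Fermat.Agent.CFT.Top

end
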