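/-
TEAM CFT -> S55, LC-TOOLKIT: T3, T4, T5, T13 (`Hlc` is the colimit of the finite levels).
-/
import Fermat.Agent.CFT.Top.Tool

set_option autoImplicit false

noncomputable section

namespace Fermat.Agent.CFT.Top

open Cpx groupCohomology

section Aux

variable {k : Type} [CommRing k] {G : Type} [Group G]

/-- all cochains of a finite group are level constant for `botSys`. -/
lemma ToolColim_mem_bot {Γ : Type} [Group Γ] [Finite Γ] (N : Rep.{0} k Γ) (n : ℕ)
    (f : (Fin n → Γ) → N) : f ∈ lcCochains (botSys Γ) N n := by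
  refine ⟨⊥, rfl, fun g g' h => ?_, fun g u hu => ?_⟩
  · have : g = g' := funext fun i => by
      have := h i
      rw [Subgroup.mem_bot, inv_mul_eq_one] at this
      exact this
    rw [this]
  · rw [Subgroup.mem_bot.1 hu, map_one]
    rfl

/-- inflation on all cochains. -/
abbrev ToolColim_inf (M : Rep.{0} k G) (U : Subgroup G) [U.Normal] (n : ℕ) :
    ((Fin n → G ⧸ U) → M.quotientToInvariants U) →ₗ[k] ((Fin n → G) → M) :=
  pullPush (QuotientGroup.mk' U)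
    ((Representation.invariants (M.ρ.comp U.subtype)).subtype :
      (M.quotientToInvariants U) →ₗ[k] M) n

lemma ToolColim_inf_injective (M : Rep.{0} k G) (U : Subgroup G) [U.Normal] (n : ℕ) :
    Function.Injective (ToolColim_inf M U n) := by
  intro f f' h
  funext q
  have h1 := congrFun h fun i => (q i).out
  simp only [pullPush_apply, QuotientGroup.mk'_apply, QuotientGroup.out_eq'] at h1
  exact Subtype.ext h1

lemma ToolColim_inf_dd (M : Rep.{0} k G) (U : Subgroup G) [U.Normal] (n : ℕ)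
    (f : (Fin n → G ⧸ U) → M.quotientToInvariants U) :
    ToolColim_inf M U (n + 1) (dd _ n f) = dd M n (ToolColim_inf M U n f) :=
  pullPush_dd _ _ (fun _ _ => rfl) n f

/-- KEY LEMMA: a cochain of level `U` is inflated from `G ⧸ U`. -/
lemma ToolColim_exists_descend {M : Rep.{0} k G} {U : Subgroup G} [U.Normal] {n : ℕ}
    {f : (Fin n → G) → M} (hf : IsLevel M U n f) : ∃ fb, ToolColim_inf M U n fb = f := by
  refine ⟨fun q => (⟨f fun i => (q i).out, fun u => hf.2 _ u.1 u.2⟩ :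
    ↥(Representation.invariants (M.ρ.comp U.subtype))), ?_⟩
  funext g
  refine hf.1 _ _ fun i => ?_
  rw [← QuotientGroup.eq]
  exact QuotientGroup.out_eq' _

/-- transition on all cochains. -/
abbrev ToolColim_trans (M : Rep.{0} k G) (U V : Subgroup G) [U.Normal] [V.Normal] (h : V ≤ U)
    (n : ℕ) : ((Fin n → G ⧸ U) → M.quotientToInvariants U) →ₗ[k]
      ((Fin n → G ⧸ V) → M.quotientToInvariants V) :=
  pullPush (QuotientGroup.map V U (MonoidHom.id G) h)
    (invIncl M h : (M.quotientToInvariants U) →ₗ[k] (M.quotientToInvariants V)) n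

lemma ToolColim_inf_trans (M : Rep.{0} k G) (U V : Subgroup G) [U.Normal] [V.Normal] (h : V ≤ U)
    (n : ℕ) (f : (Fin n → G ⧸ U) → M.quotientToInvariants U) :
    ToolColim_inf M V n (ToolColim_trans M U V h n f) = ToolColim_inf M U n f := rfl

lemma ToolColim_cocFun_inf (𝒰 : LevelSys G) (M : Rep.{0} k G) (U : Subgroup G) [U.Normal]
    [U.FiniteIndex] (hU : 𝒰.IsOpen U) (n : ℕ)
    (z : (lcCpx (botSys (G ⧸ U)) (M.quotientToInvariants U)).Z n) :
    cocFun ((lcInf 𝒰 M U hU).mapZ n z) = ToolColim_inf M U n (cocFun z) := rfl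

lemma ToolColim_cocFun_trans (M : Rep.{0} k G) (U V : Subgroup G) [U.Normal] [U.FiniteIndex]
    [V.Normal] [V.FiniteIndex] (h : V ≤ U) (n : ℕ)
    (z : (lcCpx (botSys (G ⧸ U)) (M.quotientToInvariants U)).Z n) :
    cocFun ((lcTrans M U V h).mapZ n z) = ToolColim_trans M U V h n (cocFun z) := rfl

lemma ToolColim_cocFun_injective {𝒰 : LevelSys G} {M : Rep.{0} k G} {n : ℕ}
    {z z' : (lcCpx 𝒰 M).Z n} (h : cocFun z = cocFun z') : z = z' :=
  Subtype.ext (Subtype.ext h : (show ↥(lcCochains 𝒰 M n) from z.1) = z'.1)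

/-- a cocycle is a coboundary in positive degree iff its function is `dd` of a level constant
cochain. -/
lemma ToolColim_cls_eq_zero_succ {𝒰 : LevelSys G} {M : Rep.{0} k G} {n : ℕ}
    (z : (lcCpx 𝒰 M).Z (n + 1)) :
    (lcCpx 𝒰 M).cls (n + 1) z = 0 ↔ ∃ h ∈ lcCochains 𝒰 M n, dd M n h = cocFun z := by
  rw [Cpx.cls_eq_zero_iff, Cpx.mem_B_succ]
  constructor
  · rintro ⟨y, hy⟩
    refine ⟨(show ↥(lcCochains 𝒰 M n) from y).1, (show ↥(lcCochains 𝒰 M n) from y).2, ?_⟩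
    exact congrArg (fun w : ↥(lcCochains 𝒰 M (n + 1)) => w.1) hy
  · rintro ⟨h, hh, hd⟩
    exact ⟨(⟨h, hh⟩ : ↥(lcCochains 𝒰 M n)), Subtype.ext hd⟩

lemma ToolColim_cls_eq_zero_zero {𝒰 : LevelSys G} {M : Rep.{0} k G}
    (z : (lcCpx 𝒰 M).Z 0) : (lcCpx 𝒰 M).cls 0 z = 0 ↔ cocFun z = 0 := by
  rw [Cpx.cls_eq_zero_iff, Cpx.mem_B_zero]
  constructor
  · intro h
    exact congrArg (fun w : ↥(lcCochains 𝒰 M 0) => w.1) h
  · intro h
    exact (Subtype.ext h : (show ↥(lcCochains 𝒰 M 0) from z.1) = 0)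

end Aux

/-- T3. -/
theorem tool_fromLevel : Stmt_fromLevel := by
  intro k _ G _ 𝒰 M n x U₀ hU₀
  obtain ⟨z, rfl⟩ := (lcCpx 𝒰 M).cls_surjective n x
  obtain ⟨U₁, hU₁, hlev⟩ := cocFun_mem z
  obtain ⟨U, hU, hUU₁, hUU₀⟩ := 𝒰.dir U₁ hU₁ U₀ hU₀
  refine ⟨U, hU, hUU₀, ?_⟩
  have := 𝒰.normal U hU
  have := 𝒰.fin U hU
  obtain ⟨fb, hfb⟩ := ToolColim_exists_descend (hlev.mono hUU₁)
  have hd : dd _ n fb = 0 := by
    apply ToolColim_inf_injective M U (n + 1)
    rw [ToolColim_inf_dd, hfb, dd_cocFun, map_zero]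
  refine ⟨(lcCpx _ _).cls n (mkCoc fb (ToolColim_mem_bot _ n fb) hd), ?_⟩
  rw [Cpx.Hom.mapH_cls]
  congr 1
  apply ToolColim_cocFun_injective
  exact hfb

/-- T5. -/
theorem tool_infTrans : Stmt_infTrans := by
  intro k _ G _ 𝒰 M n U V _ _ _ _ h hV hU y
  obtain ⟨z, rfl⟩ := (lcCpx _ _).cls_surjective n y
  rw [Cpx.Hom.mapH_cls, Cpx.Hom.mapH_cls, Cpx.Hom.mapH_cls]
  congr 1

/-- T4. -/
theorem tool_diesDeeper : Stmt_diesDeeper := by
  intro k _ G _ 𝒰 M n U hU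
  have := 𝒰.normal U hU
  have := 𝒰.fin U hU
  intro y hy
  obtain ⟨z, rfl⟩ := (lcCpx _ _).cls_surjective n y
  rw [Cpx.Hom.mapH_cls] at hy
  cases n with
  | zero =>
    refine ⟨U, hU, le_rfl, ?_⟩
    rw [ToolColim_cls_eq_zero_zero] at hy
    change ToolColim_inf M U 0 (cocFun z) = 0 at hy
    have hz : cocFun z = 0 := by
      apply ToolColim_inf_injective M U 0
      rw [hy, map_zero]
    rw [Cpx.Hom.mapH_cls, ToolColim_cls_eq_zero_zero, ToolColim_cocFun_trans, hz, map_zero]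
  | succ n =>
    rw [ToolColim_cls_eq_zero_succ] at hy
    obtain ⟨h, ⟨V₁, hV₁, hlev⟩, hd⟩ := hy
    change dd M n h = ToolColim_inf M U (n + 1) (cocFun z) at hd
    obtain ⟨V, hV, hVV₁, hVU⟩ := 𝒰.dir V₁ hV₁ U hU
    refine ⟨V, hV, hVU, ?_⟩
    have := 𝒰.normal V hV
    have := 𝒰.fin V hV
    obtain ⟨hb, hhb⟩ := ToolColim_exists_descend (hlev.mono hVV₁)
    rw [Cpx.Hom.mapH_cls, ToolColim_cls_eq_zero_succ, ToolColim_cocFun_trans]
    refine ⟨hb, ToolColim_mem_bot _ n hb, ?_⟩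
    apply ToolColim_inf_injective M V (n + 1)
    rw [ToolColim_inf_dd, hhb, hd, ToolColim_inf_trans]

/-- T13. -/
theorem tool_hasLevel : Stmt_hasLevel := by
  intro k _ G _ 𝒰 A n s hs U₀ hU₀
  induction s, hs using Set.Finite.induction_on with
  | empty => exact ⟨U₀, hU₀, le_rfl, fun x hx => absurd hx (Set.notMem_empty x)⟩
  | @insert a s _ _ ih =>
    obtain ⟨W, hW, hWU₀, hall⟩ := ih
    obtain ⟨z, hz⟩ := (lcCpx 𝒰 A).cls_surjective n a
    obtain ⟨U₁, hU₁, hlev⟩ := cocFun_mem z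
    obtain ⟨W', hW', h1, h2⟩ := 𝒰.dir W hW U₁ hU₁
    refine ⟨W', hW', h1.trans hWU₀, fun x hx => ?_⟩
    rcases Set.mem_insert_iff.1 hx with rfl | hx
    · exact ⟨z, hz, hlev.mono h2⟩
    · obtain ⟨z', hz', hl'⟩ := hall x hx
      exact ⟨z', hz', hl'.mono h1⟩

end Fermat.Agent.CFT.Top

end
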