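/-
TEAM CFT, LC-TOOLKIT, SHAPIRO-MACKEY.  Package SH-3 : effacement for `T`.
-/
import Fermat.Agent.CFT.Top.ToolSh
import Fermat.Agent.CFT.Top.ToolEfface
import Fermat.Agent.CFT.Top.ToolColim
import Fermat.Agent.CFT.Top.DeltaNat

set_option autoImplicit false

noncomputable section

namespace Fermat.Agent.CFT.Top

open Cpx

section

variable {k : Type} [CommRing k] {G : Type} [Group G]

/-- the swap `Map(Y, Map(X, A)) → Map(X, Map(Y, A))`. -/
def toolShEffT_swap (X Y : Type) [MulAction G X] [MulAction G Y] (A : Rep.{0} k G) :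
    mapRep Y (mapRep X A) →ₗ[k] mapRep X (mapRep Y A) where
  toFun F := fun x y => F y x
  map_add' _ _ := rfl
  map_smul' _ _ := rfl

lemma toolShEffT_swap_eqv (X Y : Type) [MulAction G X] [MulAction G Y] (A : Rep.{0} k G) :
    IsEqv (mapRep Y (mapRep X A)) (mapRep X (mapRep Y A)) (toolShEffT_swap X Y A) :=
  fun _ _ => rfl

lemma toolShEffT_comp (𝒰 : LevelSys G) (X Y : Type) [MulAction G X] [MulAction G Y]
    (A : Rep.{0} k G) :
    shTmap 𝒰 X (constLin Y A) (constLin_eqv Y A)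
      = (lcLin 𝒰 (constLin Y (mapRep X A)) (constLin_comm Y (mapRep X A))).comp
          (lcLin 𝒰 (toolShEffT_swap X Y A) (toolShEffT_swap_eqv X Y A)) :=
  Hom.ext fun _ _ => rfl

end

theorem tool_shEffT : Stmt_shEffT := by
  intro k _ G _ 𝒰 X _ A n x
  obtain ⟨U₀, hU₀⟩ := 𝒰.ne
  obtain ⟨W₀, hW₀, -, hs⟩ := tool_hasLevel k G 𝒰 (mapRep X A) (n + 1) {x} (Set.finite_singleton x)
    U₀ hU₀
  obtain ⟨z, rfl, hz⟩ := hs x rfl
  refine ⟨W₀, hW₀, fun W hW hWW₀ => ?_⟩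
  rw [toolShEffT_comp, (stmt_mapH k _ _ _ _ _ (n + 1) _).2,
    tool_efface k G 𝒰 (mapRep X A) W hW n z (hz.mono hWW₀), map_zero]

end Fermat.Agent.CFT.Top

end

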