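/-
TEAM CFT, LC-TOOLKIT, SH-4: effacement for `U(A) = ∏_i C(K i, A)`.
-/
import Fermat.Agent.CFT.Top.ToolSh
import Fermat.Agent.CFT.Top.ToolColim
import Fermat.Agent.CFT.Top.Pi
import Fermat.Agent.CFT.Top.DeltaNat

set_option autoImplicit false

noncomputable section

namespace Fermat.Agent.CFT.Top

open Cpx

/-- SH-4. -/
theorem tool_shEffU (h12 : Stmt_effaceSub) : Stmt_shEffU := by
  intro k _ G _ 𝒰 X _ ι _ O A n u
  have h1 : ∀ i, ∃ z : (lcCpx (𝒰.sub (O.K i)) (Rep.res (O.K i).subtype A)).Z (n + 1),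
      (lcCpx (𝒰.sub (O.K i)) (Rep.res (O.K i).subtype A)).cls (n + 1) z =
        (piProj (fun i => lcCpx (𝒰.sub (O.K i)) (Rep.res (O.K i).subtype A)) i).mapH (n + 1) u :=
    fun i => Cpx.cls_surjective _ _ _
  choose z hz using h1
  have h2 : ∀ i, ∃ U ∈ 𝒰.S,
      IsLevel (Rep.res (O.K i).subtype A) (U.subgroupOf (O.K i)) (n + 1) (cocFun (z i)) := by
    intro i
    obtain ⟨V, ⟨U, hU, rfl⟩, hV⟩ := cocFun_mem (z i)
    exact ⟨U, hU, hV⟩
  choose U hU hlev using h2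
  obtain ⟨W₀, hW₀, hle⟩ := 𝒰.exists_le_of_finite U hU
  refine ⟨W₀, hW₀, fun W hW hWW₀ => ?_⟩
  apply (stmt_piH k ι
    (fun i => lcCpx (𝒰.sub (O.K i)) (Rep.res (O.K i).subtype (mapRep (G ⧸ W) A))) (n + 1)).1
  funext i
  show (piProj _ i).mapH (n + 1) _ = (piProj _ i).mapH (n + 1) 0
  rw [map_zero, ← (stmt_mapH k _ _ _ _ _ (n + 1) u).2]
  have hcomp : (shUmap O (constLin (G ⧸ W) A) (constLin_eqv (G ⧸ W) A)).comp
      (piProj (fun i => lcCpx (𝒰.sub (O.K i)) (Rep.res (O.K i).subtype (mapRep (G ⧸ W) A))) i) =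
      (piProj (fun i => lcCpx (𝒰.sub (O.K i)) (Rep.res (O.K i).subtype A)) i).comp
        (lcLin (𝒰.sub (O.K i)) (M := Rep.res (O.K i).subtype A)
          (N := Rep.res (O.K i).subtype (mapRep (G ⧸ W) A)) (constLin (G ⧸ W) A)
          (fun h a => constLin_comm (G ⧸ W) A h.1 a)) := rfl
  rw [hcomp, (stmt_mapH k _ _ _ _ _ (n + 1) u).2, ← hz i]
  exact h12 k G 𝒰 A (O.K i) W hW n (z i)
    ((hlev i).mono (Subgroup.comap_mono (hWW₀.trans (hle i))))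

end Fermat.Agent.CFT.Top

end
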