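/-
TEAM CFT, LC-TOOLKIT (helper33): SHAPIRO-MACKEY for `Hlc`: the induction (assembly of SH0-SH4).
-/
import Fermat.Agent.CFT.Top.ToolSh
import Fermat.Agent.CFT.Top.LES
import Fermat.Agent.CFT.Top.DeltaNat

set_option autoImplicit false

noncomputable section

namespace Fermat.Agent.CFT.Top

open Cpx

namespace ToolShapiro

variable {k : Type} [CommRing k]

/-- the dimension shifting step for a morphism of short exact sequences of complexes. -/
lemma cmp_step {A B C A' B' C' : Cpx k} (i : Hom A B) (q : Hom B C) (i' : Hom A' B')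
    (q' : Hom B' C') (a : Hom A A') (b : Hom B B') (c : Hom C C') (h : IsSES i q)
    (h' : IsSES i' q') (c1 : ∀ n x, i'.f n (a.f n x) = b.f n (i.f n x))
    (c2 : ∀ n x, q'.f n (b.f n x) = c.f n (q.f n x)) (n : ℕ)
    (hb : Function.Surjective (b.mapH n)) (hc : Function.Bijective (c.mapH n)) :
    (∀ x : A.H (n + 1), i.mapH (n + 1) x = 0 → a.mapH (n + 1) x = 0 → x = 0) ∧
    (∀ u : A'.H (n + 1), i'.mapH (n + 1) u = 0 → ∃ x, a.mapH (n + 1) x = u) := by
  have hnat := stmt_deltaNat stmt_delta k A B C A' B' C' i q i' q' a b c h h' c1 c2 n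
  obtain ⟨-, hB, hC, hA⟩ := stmt_les k A B C i q h
  obtain ⟨-, hB', hC', hA'⟩ := stmt_les k A' B' C' i' q' h'
  have hqb : ∀ w : B.H n, q'.mapH n (b.mapH n w) = c.mapH n (q.mapH n w) := by
    intro w
    obtain ⟨z, rfl⟩ := B.cls_surjective n w
    simp only [Hom.mapH_cls]
    congr 1
    exact Subtype.ext (c2 n z.1)
  constructor
  · intro x hx hax
    obtain ⟨y, rfl⟩ := (hA n x).1 hx
    rw [← hnat] at hax
    obtain ⟨w, hw⟩ := (hC' n _).1 hax
    obtain ⟨w', rfl⟩ := hb w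
    rw [hqb] at hw
    have := hc.1 hw
    exact (hC n y).2 ⟨w', this⟩
  · intro u hu
    obtain ⟨v, rfl⟩ := (hA' n u).1 hu
    obtain ⟨y, rfl⟩ := hc.2 v
    exact ⟨delta i q n y, (hnat y).symm⟩

end ToolShapiro

open ToolShapiro in
theorem tool_shapiroLc (h0 : Stmt_sh0) (hd : Stmt_shDisc) (hs : Stmt_shSES) (hT : Stmt_shEffT)
    (hU : Stmt_shEffU) : Stmt_shapiroLc := by
  intro k _ G _ 𝒰 X _ _ ι _ O A hA n
  induction n generalizing A with
  | zero => exact h0 k G 𝒰 X ι O A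
  | succ n ih =>
    -- the step for a given level `W`
    have step : ∀ W ∈ 𝒰.S,
        (∀ x : (shT 𝒰 X A).H (n + 1),
          (shTmap 𝒰 X (constLin (G ⧸ W) A) (constLin_eqv (G ⧸ W) A)).mapH (n + 1) x = 0 →
          (shSig O A).mapH (n + 1) x = 0 → x = 0) ∧
        (∀ u : (shU O A).H (n + 1),
          (shUmap O (constLin (G ⧸ W) A) (constLin_eqv (G ⧸ W) A)).mapH (n + 1) u = 0 →
          ∃ x, (shSig O A).mapH (n + 1) x = u) := by
      intro W hW
      have := 𝒰.fin W hW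
      obtain ⟨hd1, hd2, -⟩ := hd k G 𝒰 A hA
      obtain ⟨hJ, hQ⟩ := hd1 (G ⧸ W) (hd2 W hW)
      have hinj : Function.Injective (constLin (G ⧸ W) A) := fun a a' haa =>
        congrFun haa ((1 : G) : G ⧸ W)
      have hex : ∀ b, cokLin (G ⧸ W) A b = 0 ↔ ∃ a, constLin (G ⧸ W) A a = b := fun b => by
        show Submodule.mkQ _ b = 0 ↔ _
        rw [Submodule.mkQ_apply, Submodule.Quotient.mk_eq_zero, LinearMap.mem_range]
      obtain ⟨sT, sU⟩ := hs k G 𝒰 X ι O A (mapRep (G ⧸ W) A) (cokRep (G ⧸ W) A)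
        (constLin (G ⧸ W) A) (cokLin (G ⧸ W) A) (constLin_eqv (G ⧸ W) A) (cokLin_eqv (G ⧸ W) A)
        hinj (Submodule.mkQ_surjective _) hex hJ
      exact cmp_step _ _ _ _ (shSig O A) (shSig O (mapRep (G ⧸ W) A)) (shSig O (cokRep (G ⧸ W) A))
        sT sU (fun m x => shSig_comm O _ _ m x) (fun m x => shSig_comm O _ _ m x) n
        (ih _ hJ).2 (ih _ hQ)
    constructor
    · rw [injective_iff_map_eq_zero]
      intro x hx
      obtain ⟨W, hW, hW'⟩ := hT k G 𝒰 X A n x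
      exact (step W hW).1 x (hW' W hW le_rfl) hx
    · intro u
      obtain ⟨W, hW, hW'⟩ := hU k G 𝒰 X ι O A n u
      exact (step W hW).2 u (hW' W hW le_rfl)

end Fermat.Agent.CFT.Top

end
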