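/-
TEAM CFT, LC-TOOLKIT, package SH-2: `T` and `U` preserve short exact sequences.
-/
import Fermat.Agent.CFT.Top.ToolSh
import Fermat.Agent.CFT.Top.Pi

set_option autoImplicit false

noncomputable section

namespace Fermat.Agent.CFT.Top

open Cpx

lemma toolShSES_stab_open {G : Type} [Group G] {𝒰 : LevelSys G} {X : Type} [MulAction G X]
    {ι : Type} (O : OrbitData 𝒰 X ι) (x : X) : 𝒰.IsOpen (MulAction.stabilizer G x) := by
  obtain ⟨i, ⟨g, rfl⟩, -⟩ := O.uniq x
  obtain ⟨W, hW, hWK⟩ := O.isOpen i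
  have hn := 𝒰.normal W hW
  refine ⟨W, hW, fun u hu => ?_⟩
  rw [MulAction.mem_stabilizer_iff]
  have h1 : g⁻¹ * u * g ∈ W := by
    have := hn.conj_mem u hu g⁻¹
    simpa using this
  have h2 : (g⁻¹ * u * g) • O.r i = O.r i := (O.mem i _).1 (hWK h1)
  calc u • g • O.r i = g • (g⁻¹ * u * g) • O.r i := by
        rw [smul_smul, smul_smul]; congr 1; group
    _ = g • O.r i := by rw [h2]

theorem tool_shSES (hd : Stmt_shDisc) : Stmt_shSES := by
  intro k _ G _ 𝒰 X _ _ ι O A B C i q hi hq inj surj exact hB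
  obtain ⟨h1, -, h3⟩ := hd k G 𝒰 B hB
  constructor
  · refine lcLin_isSES 𝒰 (postLin X i) (postLin X q) (postLin_eqv X hi) (postLin_eqv X hq)
      ?_ ?_ ?_ (h1 X (toolShSES_stab_open O)).1
    · intro f f' h
      funext x
      exact inj (congrFun h x)
    · intro f
      choose f' hf' using fun x => surj (f x)
      exact ⟨f', funext hf'⟩
    · intro f
      constructor
      · intro h
        choose a ha using fun x => (exact (f x)).1 (congrFun h x)
        exact ⟨a, funext ha⟩
      · rintro ⟨a, rfl⟩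
        funext x
        exact (exact _).2 ⟨a x, rfl⟩
  · exact stmt_piSES k ι _ _ _ _ _ fun v =>
      lcLin_isSES (𝒰.sub (O.K v)) (M₁ := Rep.res (O.K v).subtype A)
        (M₂ := Rep.res (O.K v).subtype B) (M₃ := Rep.res (O.K v).subtype C) i q
        (fun h a => hi h.1 a) (fun h a => hq h.1 a) inj surj exact (h3 (O.K v))

end Fermat.Agent.CFT.Top

end
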