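/-
TEAM CFT -> S55, top level (architect helper62).  File 6: the abstract duality machine (P5).

`CFun` = a functor `Rep (ZMod p) G → Cpx`; pairings are defined through connecting homomorphisms
of the extensions `0 → μ → E_z → N → 0` attached to 1-cocycles `z` with values in `N^*(χ)`.
-/
import Fermat.Agent.CFT.Top.Datum
import Fermat.Agent.CFT.Top.CpxStmts

set_option autoImplicit false

noncomputable section

namespace Fermat.Agent.CFT.Top

open Cpx Module CategoryTheory

section General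

variable {k : Type} [CommRing k] {G : Type} [Group G]

/-- make a morphism of `Rep` from an equivariant linear map -/
def mkHom {A B : Rep.{0} k G} (f : A →ₗ[k] B) (hf : ∀ g a, f (A.ρ g a) = B.ρ g (f a)) : A ⟶ B :=
  Rep.ofHom (LinearMap.intertwiningMap_of_isIntertwiningMap A.ρ B.ρ f hf)

@[simp] lemma mkHom_hom_apply {A B : Rep.{0} k G} (f : A →ₗ[k] B)
    (hf : ∀ g a, f (A.ρ g a) = B.ρ g (f a)) (a : A) : (mkHom f hf).hom a = f a := rfl

/-- short exact sequences of representations, elementwise -/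
def IsShortExact {A B C : Rep.{0} k G} (i : A ⟶ B) (q : B ⟶ C) : Prop :=
  Function.Injective i.hom ∧ Function.Surjective q.hom ∧ ∀ b : B, q.hom b = 0 ↔ ∃ a, i.hom a = b

lemma dd_zero_apply (M : Rep.{0} k G) (f : (Fin 0 → G) → M) (g : Fin 1 → G) :
    dd M 0 f g = M.ρ (g 0) (f default) - f default := by
  rw [dd_apply]
  have h : ∀ a : Fin 0 → G, a = default := fun a => Subsingleton.elim _ _
  rw [h (fun i => g i.succ)]
  simp [sub_eq_add_neg, h (Fin.contractNth 0 (· * ·) g)]

lemma dd_one_apply (M : Rep.{0} k G) (f : (Fin 1 → G) → M) (g : Fin 2 → G) :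
    dd M 1 f g = M.ρ (g 0) (f fun _ => g 1) - f (fun _ => g 0 * g 1) + f (fun _ => g 0) := by
  rw [dd_apply, Fin.sum_univ_two]
  have h0 : Fin.contractNth (0 : Fin 2) (· * ·) g = fun _ => g 0 * g 1 := by
    funext i; fin_cases i; simp [Fin.contractNth]
  have h1 : Fin.contractNth (1 : Fin 2) (· * ·) g = fun _ => g 0 := by
    funext i; fin_cases i; simp [Fin.contractNth]
  have h2 : (fun i : Fin 1 => g i.succ) = fun _ => g 1 := by
    funext i; fin_cases i; rfl
  rw [h0, h1, h2]
  simp [sub_eq_add_neg, add_assoc]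

/-- the function `G → M` underlying a level constant 1-cocycle -/
def z1 {𝒰 : LevelSys G} {M : Rep.{0} k G} (z : (lcCpx 𝒰 M).Z 1) (g : G) : M :=
  (show ↥(lcCochains 𝒰 M 1) from z.1).1 fun _ => g

lemma z1_mul {𝒰 : LevelSys G} {M : Rep.{0} k G} (z : (lcCpx 𝒰 M).Z 1) (g h : G) :
    z1 z (g * h) = z1 z g + M.ρ g (z1 z h) := by
  have h1 : dd M 1 (show ↥(lcCochains 𝒰 M 1) from z.1).1 = 0 :=
    congrArg Subtype.val (Cpx.mem_Z.1 z.2)
  have h2 := congrFun h1 ![g, h]
  rw [dd_one_apply] at h2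
  simp only [Matrix.cons_val_zero, Matrix.cons_val_one, Pi.zero_apply] at h2
  show _ = _ + M.ρ g _
  have h3 := eq_of_sub_eq_zero ((sub_add_eq_add_sub _ _ _).symm.trans h2)
  rw [add_comm]
  exact h3.symm

/-- the element of `M` underlying a level constant 0-cocycle -/
def z0 {𝒰 : LevelSys G} {M : Rep.{0} k G} (z : (lcCpx 𝒰 M).Z 0) : M :=
  (show ↥(lcCochains 𝒰 M 0) from z.1).1 default

/-- The representation on `k × N` attached to a 1-cocycle `x : G → N^*(χ)`:
`g (t, m) = (χ(g) t + x(g)(g m), g m)`. -/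
def extRepr (χ : G →* kˣ) (N : Rep.{0} k G) (x : G → N.dualTwist χ)
    (hx : ∀ g h, x (g * h) = x g + (N.dualTwist χ).ρ g (x h)) :
    Representation k G (k × N) where
  toFun g :=
    { toFun := fun tm =>
        ((χ g : k) * tm.1 + (show Module.Dual k N from x g) (N.ρ g tm.2), N.ρ g tm.2)
      map_add' := fun a b => by
        ext
        · simp only [Prod.fst_add, Prod.snd_add, map_add, mul_add]; ring
        · simp
      map_smul' := fun c a => by
        ext
        · simp only [Prod.smul_fst, Prod.smul_snd, map_smul, smul_eq_mul, RingHom.id_apply]; ring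
        · simp }
  map_one' := by
    have h1 : x 1 = 0 := by
      have := hx 1 1
      rw [mul_one, map_one] at this
      simpa using this
    ext <;> simp [h1]
  map_mul' g h := by
    have h2 : ∀ m : N, (show Module.Dual k N from x (g * h)) (N.ρ (g * h) m)
        = (show Module.Dual k N from x g) (N.ρ g (N.ρ h m))
          + (χ g : k) * (show Module.Dual k N from x h) (N.ρ h m) := fun m => by
      rw [hx g h, Rep.dualTwist_ρ_apply]
      show (show Module.Dual k N from x g) (N.ρ (g * h) m)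
        + (χ g : k) • (show Module.Dual k N from x h) (N.ρ g⁻¹ (N.ρ (g * h) m)) = _
      rw [map_mul, Module.End.mul_apply, ← Module.End.mul_apply (N.ρ g⁻¹), ← map_mul,
        inv_mul_cancel, map_one, Module.End.one_apply, smul_eq_mul]
    refine LinearMap.ext fun tm => ?_
    refine Prod.ext ?_ ?_
    · show (χ (g * h) : k) * tm.1 + (show Module.Dual k N from x (g * h)) (N.ρ (g * h) tm.2)
        = (χ g : k) * ((χ h : k) * tm.1 + (show Module.Dual k N from x h) (N.ρ h tm.2))
          + (show Module.Dual k N from x g) (N.ρ g (N.ρ h tm.2))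
      rw [h2, map_mul, Units.val_mul]; ring
    · show N.ρ (g * h) tm.2 = N.ρ g (N.ρ h tm.2)
      rw [map_mul, Module.End.mul_apply]

/-- The extension `E_z` of `N` by `μ` attached to a level constant 1-cocycle `z`. -/
abbrev extRep {𝒰 : LevelSys G} (χ : G →* kˣ) (N : Rep.{0} k G)
    (z : (lcCpx 𝒰 (N.dualTwist χ)).Z 1) : Rep.{0} k G :=
  Rep.of (extRepr χ N (z1 z) (z1_mul z))

lemma extRep_ρ_apply {𝒰 : LevelSys G} (χ : G →* kˣ) (N : Rep.{0} k G)
    (z : (lcCpx 𝒰 (N.dualTwist χ)).Z 1) (g : G) (t : k) (m : N) :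
    (extRep χ N z).ρ g (t, m)
      = ((χ g : k) * t + (show Module.Dual k N from z1 z g) (N.ρ g m), N.ρ g m) := rfl

/-- `μ → E_z` -/
def extInl {𝒰 : LevelSys G} (χ : G →* kˣ) (N : Rep.{0} k G)
    (z : (lcCpx 𝒰 (N.dualTwist χ)).Z 1) : muRep k χ ⟶ extRep χ N z :=
  mkHom (LinearMap.inl k k N) fun g t => by
    refine Prod.ext ?_ ?_
    · show (χ g : k) • t = (χ g : k) * t + (show Module.Dual k N from z1 z g) (N.ρ g 0)
      simp
    · show (0 : N) = N.ρ g 0
      simp

/-- `E_z → N` -/
def extSnd {𝒰 : LevelSys G} (χ : G →* kˣ) (N : Rep.{0} k G)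
    (z : (lcCpx 𝒰 (N.dualTwist χ)).Z 1) : extRep χ N z ⟶ N :=
  mkHom (LinearMap.snd k k N) fun _ _ => rfl

/-- A (not yet lawful) functor from representations to complexes. -/
structure CFun (k : Type) [CommRing k] (G : Type) [Group G] where
  obj : Rep.{0} k G → Cpx k
  map : ∀ {A B : Rep.{0} k G}, (A ⟶ B) → Hom (obj A) (obj B)

/-- The laws: additive functor, exact on short exact sequences with discrete middle term. -/
structure CFun.Laws (T : CFun k G) (𝒰 : LevelSys G) : Prop where
  map_id : ∀ (A : Rep.{0} k G) (n : ℕ) (x : (T.obj A).X n), (T.map (𝟙 A)).f n x = x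
  map_comp : ∀ {A B C : Rep.{0} k G} (f : A ⟶ B) (g : B ⟶ C) (n : ℕ) (x : (T.obj A).X n),
    (T.map (f ≫ g)).f n x = (T.map g).f n ((T.map f).f n x)
  map_add : ∀ {A B : Rep.{0} k G} (f g : A ⟶ B) (n : ℕ) (x : (T.obj A).X n),
    (T.map (f + g)).f n x = (T.map f).f n x + (T.map g).f n x
  ses : ∀ {A B C : Rep.{0} k G} (i : A ⟶ B) (q : B ⟶ C), IsShortExact i q → IsDisc 𝒰 B →
    IsSES (T.map i) (T.map q)

/-- the functor of level constant cochains -/
def lcFun (𝒰 : LevelSys G) : CFun k G where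
  obj := lcCpx 𝒰
  map := lcCoeff 𝒰

/-- level constant cochains of a group `G'` mapping to `G` -/
def resFun {G' : Type} [Group G'] (𝒰' : LevelSys G') (φ : G' →* G) : CFun k G where
  obj N := lcCpx 𝒰' (Rep.res φ N)
  map f := lcCoeff 𝒰' (Rep.resMap φ f)

lemma z0_inv {𝒰 : LevelSys G} {M : Rep.{0} k G} (z : (lcCpx 𝒰 M).Z 0) (g : G) :
    M.ρ g (z0 z) = z0 z := by
  have h1 : dd M 0 (show ↥(lcCochains 𝒰 M 0) from z.1).1 = 0 :=
    congrArg Subtype.val (Cpx.mem_Z.1 z.2)
  have h2 := congrFun h1 (fun _ => g)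
  rw [dd_zero_apply] at h2
  exact eq_of_sub_eq_zero h2

/-- the dual (twisted) of a morphism -/
def dualTwistMap (χ : G →* kˣ) {A B : Rep.{0} k G} (f : A ⟶ B) :
    B.dualTwist χ ⟶ A.dualTwist χ :=
  mkHom (LinearMap.dualMap f.hom.toLinearMap) fun g n => by
    refine LinearMap.ext fun a => ?_
    show (χ g : k) • (show Module.Dual k B from n) (B.ρ g⁻¹ (f.hom a))
      = (χ g : k) • (show Module.Dual k B from n) (f.hom (A.ρ g⁻¹ a))
    rw [Rep.hom_comm_apply]

lemma dualTwistMap_apply (χ : G →* kˣ) {A B : Rep.{0} k G} (f : A ⟶ B) (n : B.dualTwist χ)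
    (a : A) : (show Module.Dual k A from (dualTwistMap χ f).hom n) a
      = (show Module.Dual k B from n) (f.hom a) := rfl

/-- an invariant element of `N^*(χ)` is a morphism `N → μ` -/
def homOfZ0 {𝒰 : LevelSys G} (χ : G →* kˣ) (N : Rep.{0} k G)
    (w : (lcCpx 𝒰 (N.dualTwist χ)).Z 0) : N ⟶ muRep k χ :=
  mkHom (show Module.Dual k N from z0 w) fun g m => by
    have h := z0_inv w g
    rw [Rep.dualTwist_ρ_apply] at h
    have h2 := LinearMap.congr_fun h (N.ρ g m)
    show (show Module.Dual k N from z0 w) (N.ρ g m) = (χ g : k) • (show Module.Dual k N from z0 w) m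
    rw [← h2]
    show (χ g : k) • (show Module.Dual k N from z0 w) (N.ρ g⁻¹ (N.ρ g m)) = _
    rw [← Module.End.mul_apply, ← map_mul, inv_mul_cancel, map_one, Module.End.one_apply]

end General

end Fermat.Agent.CFT.Top

end
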