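/-
TEAM CFT -> S55, top level (architect helper62).  File 7: the abstract duality theorem `Stmt_AD`
and its decomposition into packages; the reduction of `Stmt_PT` to `Stmt_AD`.
-/
import Fermat.Agent.CFT.Top.Duality

set_option autoImplicit false

noncomputable section

namespace Fermat.Agent.CFT.Top

open Cpx Module CategoryTheory

/-- The set-up of the abstract duality theorem. `T` is `lcFun` with `a = 1` (local duality) or the
compact support functor with `a = 2` (global duality). -/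
structure Setup (p : ℕ) [Fact p.Prime] where
  G : Type
  [grp : Group G]
  𝒰 : LevelSys G
  χ : G →* (ZMod p)ˣ
  χtriv : ∃ U ∈ 𝒰.S, ∀ u ∈ U, χ u = 1
  T : CFun (ZMod p) G
  laws : T.Laws 𝒰
  a : ℕ
  tr : (T.obj (muRep (ZMod p) χ)).H (a + 1) →ₗ[ZMod p] ZMod p

attribute [instance] Setup.grp

namespace Setup

variable {p : ℕ} [Fact p.Prime] (E : Setup p)

/-- the category `𝓜` of finite modules -/
def Fin (N : Rep.{0} (ZMod p) E.G) : Prop := Module.Finite (ZMod p) N ∧ IsTrivOn E.𝒰 N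

/-- `N' = N^*(χ)` -/
abbrev dl (N : Rep.{0} (ZMod p) E.G) : Rep.{0} (ZMod p) E.G := N.dualTwist E.χ

/-- `Tⁿ(N)` -/
abbrev TT (N : Rep.{0} (ZMod p) E.G) (n : ℕ) : Type := (E.T.obj N).H n

/-- the pairing with a 1-cocycle `z` of `N'`: `y ↦ tr (∂_{E_z} y)`. -/
def pairZ (N : Rep.{0} (ZMod p) E.G) (z : (lcCpx E.𝒰 (E.dl N)).Z 1) :
    E.TT N E.a →ₗ[ZMod p] ZMod p :=
  E.tr ∘ₗ delta (E.T.map (extInl E.χ N z)) (E.T.map (extSnd E.χ N z)) E.a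

/-- the pairing with a 0-cocycle `w` of `N'`: `y ↦ tr (w_* y)`. -/
def pairW (N : Rep.{0} (ZMod p) E.G) (w : (lcCpx E.𝒰 (E.dl N)).Z 0) :
    E.TT N (E.a + 1) →ₗ[ZMod p] ZMod p :=
  E.tr ∘ₗ (E.T.map (homOfZ0 E.χ N w)).mapH (E.a + 1)

/-- specification of `β₂` -/
def Spec₂ (N : Rep.{0} (ZMod p) E.G)
    (β : E.TT N E.a →ₗ[ZMod p] Hlc E.𝒰 (E.dl N) 1 →ₗ[ZMod p] ZMod p) : Prop :=
  ∀ y z, β y ((lcCpx E.𝒰 (E.dl N)).cls 1 z) = E.pairZ N z y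

/-- specification of `β₃` -/
def Spec₃ (N : Rep.{0} (ZMod p) E.G)
    (β : E.TT N (E.a + 1) →ₗ[ZMod p] Hlc E.𝒰 (E.dl N) 0 →ₗ[ZMod p] ZMod p) : Prop :=
  ∀ y w, β y ((lcCpx E.𝒰 (E.dl N)).cls 0 w) = E.pairW N w y

open Classical in
/-- `β₂ : T^a(N) × H¹(G,N') → 𝔽_p` -/
def β₂ (N : Rep.{0} (ZMod p) E.G) :
    E.TT N E.a →ₗ[ZMod p] Hlc E.𝒰 (E.dl N) 1 →ₗ[ZMod p] ZMod p :=
  if h : ∃ β, E.Spec₂ N β then h.choose else 0

open Classical in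
/-- `β₃ : T^{a+1}(N) × H⁰(G,N') → 𝔽_p` -/
def β₃ (N : Rep.{0} (ZMod p) E.G) :
    E.TT N (E.a + 1) →ₗ[ZMod p] Hlc E.𝒰 (E.dl N) 0 →ₗ[ZMod p] ZMod p :=
  if h : ∃ β, E.Spec₃ N β then h.choose else 0

/-- hypothesis (I1): `T^{a+1}` is right exact on `𝓜`. -/
def RightExact : Prop :=
  ∀ {A B : Rep.{0} (ZMod p) E.G} (q : A ⟶ B), E.Fin A → Function.Surjective q.hom →
    Function.Surjective ((E.T.map q).mapH (E.a + 1))

/-- hypothesis (I3): the numerical bounds for the permutation modules `R_U`. -/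
def FreeBound : Prop :=
  ∀ U ∈ E.𝒰.S, (∀ u ∈ U, E.χ u = 1) →
    Module.Finite (ZMod p) (E.TT (permRep (ZMod p) U) (E.a + 1)) ∧
    finrank (ZMod p) (E.TT (permRep (ZMod p) U) (E.a + 1)) ≤ 1 ∧
    Module.Finite (ZMod p) (E.TT (permRep (ZMod p) U) E.a) ∧
    Module.Finite (ZMod p) (Hlc E.𝒰 (permRep (ZMod p) U) 1) ∧
    finrank (ZMod p) (E.TT (permRep (ZMod p) U) E.a)
      ≤ finrank (ZMod p) (Hlc E.𝒰 (permRep (ZMod p) U) 1)

/-- all hypotheses -/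
structure Hyp : Prop where
  re : E.RightExact
  tr_ne : E.tr ≠ 0
  fb : E.FreeBound

end Setup

/-- non degeneracy on both sides -/
def IsPerf {k V W : Type} [Field k] [AddCommGroup V] [Module k V] [AddCommGroup W] [Module k W]
    (β : V →ₗ[k] W →ₗ[k] k) : Prop :=
  (∀ v, (∀ w, β v w = 0) → v = 0) ∧ (∀ w, (∀ v, β v w = 0) → w = 0)

/-- left non degeneracy -/
def IsLND {k V W : Type} [Field k] [AddCommGroup V] [Module k V] [AddCommGroup W] [Module k W]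
    (β : V →ₗ[k] W →ₗ[k] k) : Prop := ∀ v, (∀ w, β v w = 0) → v = 0

/-- right non degeneracy -/
def IsRND {k V W : Type} [Field k] [AddCommGroup V] [Module k V] [AddCommGroup W] [Module k W]
    (β : V →ₗ[k] W →ₗ[k] k) : Prop := ∀ w, (∀ v, β v w = 0) → w = 0

/-! ### The packages of the abstract duality theorem -/

/-- AD-P2. `β₂` exists: `pairZ` is additive in `z` (Baer sum: the extension of `N` by `μ × μ`
attached to `(z, z')`, naturality of `delta`, `map_add`) and vanishes on coboundaries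
(`E_{z + dn} ≅ E_z`). -/
def Stmt_P2 : Prop :=
  ∀ (p : ℕ) [Fact p.Prime] (E : Setup p) (N : Rep.{0} (ZMod p) E.G), E.Fin N →
    E.Spec₂ N (E.β₂ N)

/-- AD-P3. `β₃` exists. -/
def Stmt_P3 : Prop :=
  ∀ (p : ℕ) [Fact p.Prime] (E : Setup p) (N : Rep.{0} (ZMod p) E.G), E.Fin N →
    E.Spec₃ N (E.β₃ N)

/-- AD-C1. adjunction: `β(f_* y, x) = β(y, f^* x)` in both degrees. -/
def Stmt_C1 : Prop :=
  ∀ (p : ℕ) [Fact p.Prime] (E : Setup p) (A B : Rep.{0} (ZMod p) E.G) (f : A ⟶ B),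
    E.Fin A → E.Fin B →
    (∀ (y : E.TT A E.a) (x : Hlc E.𝒰 (E.dl B) 1),
      E.β₂ B ((E.T.map f).mapH E.a y) x
        = E.β₂ A y ((lcCoeff E.𝒰 (dualTwistMap E.χ f)).mapH 1 x)) ∧
    (∀ (y : E.TT A (E.a + 1)) (x : Hlc E.𝒰 (E.dl B) 0),
      E.β₃ B ((E.T.map f).mapH (E.a + 1) y) x
        = E.β₃ A y ((lcCoeff E.𝒰 (dualTwistMap E.χ f)).mapH 0 x))

/-- AD-C2. compatibility with connecting homomorphisms: for `0 → N₁ → N₂ → N₃ → 0` and the dual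
sequence `0 → N₃' → N₂' → N₁' → 0`:  `β₃(∂ y, w) = - β₂(y, δ w)`. -/
def Stmt_C2 : Prop :=
  ∀ (p : ℕ) [Fact p.Prime] (E : Setup p) (N₁ N₂ N₃ : Rep.{0} (ZMod p) E.G)
    (i : N₁ ⟶ N₂) (q : N₂ ⟶ N₃), IsShortExact i q → E.Fin N₂ →
    ∀ (y : E.TT N₃ E.a) (w : Hlc E.𝒰 (E.dl N₁) 0),
      E.β₃ N₁ (delta (E.T.map i) (E.T.map q) E.a y) w
        = - E.β₂ N₃ y (delta (lcCoeff E.𝒰 (dualTwistMap E.χ q))
            (lcCoeff E.𝒰 (dualTwistMap E.χ i)) 0 w)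

/-- AD-D2. `β₃` is perfect (and everything is finite dimensional). -/
def Stmt_D2 : Prop :=
  ∀ (p : ℕ) [Fact p.Prime] (E : Setup p), E.Hyp → ∀ (N : Rep.{0} (ZMod p) E.G), E.Fin N →
    Module.Finite (ZMod p) (E.TT N (E.a + 1)) ∧ Module.Finite (ZMod p) (Hlc E.𝒰 (E.dl N) 0) ∧
      IsPerf (E.β₃ N)

/-- AD-D3. `β₂` is right non degenerate. -/
def Stmt_D3 : Prop :=
  ∀ (p : ℕ) [Fact p.Prime] (E : Setup p), E.Hyp → ∀ (N : Rep.{0} (ZMod p) E.G), E.Fin N →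
    Module.Finite (ZMod p) (E.TT N E.a) ∧ Module.Finite (ZMod p) (Hlc E.𝒰 (E.dl N) 1) ∧
      IsRND (E.β₂ N)

/-- **AD. The abstract duality theorem.** -/
def Stmt_AD : Prop :=
  ∀ (p : ℕ) [Fact p.Prime] (E : Setup p), E.Hyp → ∀ (N : Rep.{0} (ZMod p) E.G), E.Fin N →
    Module.Finite (ZMod p) (E.TT N E.a) ∧ Module.Finite (ZMod p) (Hlc E.𝒰 (E.dl N) 1) ∧
      IsPerf (E.β₂ N)

end Fermat.Agent.CFT.Top

end
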