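/-
TEAM CFT -> S55, top level (architect helper62).  File 8: reduction of the abstract Poitou-Tate
theorem `Stmt_PT` to the abstract duality theorem `Stmt_AD` (local and global instances).
-/
import Fermat.Agent.CFT.Top.DualityStmts

set_option autoImplicit false

noncomputable section

namespace Fermat.Agent.CFT.Top

open Cpx Module CategoryTheory

namespace Cpx

variable {k : Type} [CommRing k]

open Classical in
/-- inclusion of a factor in a product of complexes -/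
def piIncl {ι : Type} (D : ι → Cpx k) (v : ι) : Hom (D v) (pi D) where
  f n := LinearMap.single k (fun w => (D w).X n) v
  comm n x := by
    funext w
    show (Pi.single v ((D v).d n x) : ∀ w, (D w).X (n + 1)) w
      = (D w).d n ((Pi.single v x : ∀ w, (D w).X n) w)
    by_cases h : w = v
    · subst h; simp
    · simp [Pi.single_eq_of_ne h]

end Cpx

namespace Datum

variable {p : ℕ} [Fact p.Prime] (D : Datum p)

/-- the map induced by `f : A ⟶ B` on the products of the local complexes -/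
def locMap {A B : Rep.{0} (ZMod p) D.G} (f : A ⟶ B) : Hom (D.locCpx A) (D.locCpx B) :=
  piLift fun v => (piProj (fun v => D.locCpxAt A v) v).comp
    (lcCoeff (D.𝒰v v) (Rep.resMap (D.φ v) f))

/-- the compact support functor -/
def cFun : CFun (ZMod p) D.G where
  obj := D.cCpx
  map {A B} f := coneMap (D.loc A) (D.loc B) (lcCoeff D.𝒰 f) (D.locMap f) fun _ _ => rfl

/-- the local character -/
abbrev χv (v : D.ι) : D.Gv v →* (ZMod p)ˣ := D.χ.comp (D.φ v)

lemma χv_triv (v : D.ι) : ∃ U ∈ (D.𝒰v v).S, ∀ u ∈ U, D.χv v u = 1 := by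
  obtain ⟨U, hU, h⟩ := D.χtriv
  obtain ⟨V, hV, hVU⟩ := D.cont v U hU
  exact ⟨V, hV, fun u hu => h _ (hVU hu)⟩

/-- identification `μ_{χ_v} → Res_v μ_χ` on local complexes -/
def muLoc (v : D.ι) : Hom (lcCpx (D.𝒰v v) (muRep (ZMod p) (D.χv v))) (D.locCpxAt D.mu v) :=
  lcMap (MonoidHom.id _) (D.𝒰v v).isCont_id
    (LinearMap.id : muRep (ZMod p) (D.χv v) →ₗ[ZMod p] Rep.res (D.φ v) D.mu) fun _ _ => rfl

/-- the local trace induced by a global trace -/
def trv (tr : (D.cCpx D.mu).H 3 →ₗ[ZMod p] ZMod p) (v : D.ι) :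
    Hlc (D.𝒰v v) (muRep (ZMod p) (D.χv v)) 2 →ₗ[ZMod p] ZMod p :=
  tr ∘ₗ coneι (D.loc D.mu) 2 ∘ₗ (piIncl (fun v => D.locCpxAt D.mu v) v).mapH 2 ∘ₗ
    (D.muLoc v).mapH 2

/-- the global set-up -/
def gSetup (h : D.cFun.Laws D.𝒰) (tr : (D.cCpx D.mu).H 3 →ₗ[ZMod p] ZMod p) : Setup p where
  G := D.G
  𝒰 := D.𝒰
  χ := D.χ
  χtriv := D.χtriv
  T := D.cFun
  laws := h
  a := 2
  tr := tr

/-- the local set-up at `v` -/
def lSetup (v : D.ι) (h : (lcFun (k := ZMod p) (D.𝒰v v)).Laws (D.𝒰v v))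
    (tr : (D.cCpx D.mu).H 3 →ₗ[ZMod p] ZMod p) : Setup p where
  G := D.Gv v
  𝒰 := D.𝒰v v
  χ := D.χv v
  χtriv := D.χv_triv v
  T := lcFun (D.𝒰v v)
  laws := h
  a := 1
  tr := D.trv tr v

/-- restriction `H¹(G, N') → H¹(G_v, (Res_v N)')` -/
def resDual (N : Rep.{0} (ZMod p) D.G) (v : D.ι) :
    Hom (lcCpx D.𝒰 (N.dualTwist D.χ)) (lcCpx (D.𝒰v v) ((Rep.res (D.φ v) N).dualTwist (D.χv v))) :=
  lcMap (D.φ v) (D.cont v)
    (LinearMap.id : N.dualTwist D.χ →ₗ[ZMod p] (Rep.res (D.φ v) N).dualTwist (D.χv v))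
    fun g n => by
      show (N.dualTwist D.χ).ρ (D.φ v g) n = ((Rep.res (D.φ v) N).dualTwist (D.χv v)).ρ g n
      rw [Rep.dualTwist_ρ_apply, Rep.dualTwist_ρ_apply, Rep.coe_res_obj_ρ', map_inv (D.φ v) g]
      rfl

end Datum

/-- LAWS-1. the level constant cochain functor is lawful (exactness = lifting of level constant
cochains along a surjection of discrete modules; uses finiteness of `G/U`). -/
def Stmt_lcLaws : Prop :=
  ∀ (k : Type) [CommRing k] (G : Type) [Group G] (𝒰 : LevelSys G), (lcFun (k := k) 𝒰).Laws 𝒰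

/-- LAWS-2. the restricted functor is lawful. -/
def Stmt_resLaws : Prop :=
  ∀ (k : Type) [CommRing k] (G G' : Type) [Group G] [Group G'] (𝒰 : LevelSys G)
    (𝒰' : LevelSys G') (φ : G' →* G), LevelSys.IsCont 𝒰' 𝒰 φ → (resFun (k := k) 𝒰' φ).Laws 𝒰

/-- LAWS-3. the compact support functor is lawful. -/
def Stmt_cLaws : Prop :=
  ∀ (p : ℕ) [Fact p.Prime] (D : Datum p), D.cFun.Laws D.𝒰

/-- VAN. Sylow + filtration + direct summand argument: if `Hⁿ(G, R_H) = 0` for all open subgroups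
`H` on which `χ` is trivial then `Hⁿ(G, N) = 0` for all finite `N`. -/
def Stmt_vanish : Prop :=
  ∀ (p : ℕ) [Fact p.Prime] (G : Type) [Group G] (𝒰 : LevelSys G) (χ : G →* (ZMod p)ˣ),
    (∃ U ∈ 𝒰.S, ∀ u ∈ U, χ u = 1) → ∀ n : ℕ,
    (∀ H : Subgroup G, 𝒰.IsOpen H → (∀ h ∈ H, χ h = 1) →
      Subsingleton (Hlc 𝒰 (permRep (ZMod p) H) n)) →
    ∀ N : Rep.{0} (ZMod p) G, Module.Finite (ZMod p) N → IsTrivOn 𝒰 N → Subsingleton (Hlc 𝒰 N n)

/-- PT-TR. existence of the global trace, non zero on every local factor. -/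
def Stmt_trace : Prop :=
  ∀ (p : ℕ) [Fact p.Prime] (D : Datum p), D.Inputs →
    ∃ tr : (D.cCpx D.mu).H 3 →ₗ[ZMod p] ZMod p, ∀ v, D.trv tr v ≠ 0

/-- PT-LH. the hypotheses of the abstract duality theorem hold locally. -/
def Stmt_localHyp : Prop :=
  ∀ (p : ℕ) [Fact p.Prime] (D : Datum p), D.Inputs →
    ∀ (tr : (D.cCpx D.mu).H 3 →ₗ[ZMod p] ZMod p) (v : D.ι) (h), D.trv tr v ≠ 0 →
      (D.lSetup v h tr).Hyp

/-- PT-GH. the hypotheses of the abstract duality theorem hold globally. -/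
def Stmt_globalHyp : Prop :=
  ∀ (p : ℕ) [Fact p.Prime] (D : Datum p), D.Inputs →
    ∀ (tr : (D.cCpx D.mu).H 3 →ₗ[ZMod p] ZMod p) (h), (∀ v, D.trv tr v ≠ 0) →
      (D.gSetup h tr).Hyp

/-- PT-C3. compatibility of the global pairing with the local pairings. -/
def Stmt_C3 : Prop :=
  ∀ (p : ℕ) [Fact p.Prime] (D : Datum p) (tr : (D.cCpx D.mu).H 3 →ₗ[ZMod p] ZMod p)
    (hg : D.cFun.Laws D.𝒰) (hl : ∀ v, (lcFun (k := ZMod p) (D.𝒰v v)).Laws (D.𝒰v v))
    (N : Rep.{0} (ZMod p) D.G), Module.Finite (ZMod p) N → IsTrivOn D.𝒰 N →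
    ∀ (b : (D.locCpx N).H 1) (x : Hlc D.𝒰 (N.dualTwist D.χ) 1),
      (D.gSetup hg tr).β₂ N (coneι (D.loc N) 1 b) x
        = - ∑ v, (D.lSetup v (hl v) tr).β₂ (Rep.res (D.φ v) N)
            ((piProj (fun v => D.locCpxAt N v) v).mapH 1 b) ((D.resDual N v).mapH 1 x)

/-- PT-COUNT. the final count: `Stmt_PT` from everything above. -/
def Stmt_count : Prop :=
  Stmt_AD → Stmt_lcLaws → Stmt_cLaws → Stmt_trace → Stmt_localHyp → Stmt_globalHyp → Stmt_C3 →
    Stmt_coneLES → Stmt_piH → Stmt_PT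

end Fermat.Agent.CFT.Top

end
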