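/-
TEAM CFT -> S55, top level (architect helper62).  File 9: auxiliary statements for the proofs of
`Stmt_AD` and `Stmt_PT`: kernels, dual sequences, free covers, right exactness.
-/
import Fermat.Agent.CFT.Top.PTStmts

set_option autoImplicit false

noncomputable section

namespace Fermat.Agent.CFT.Top

open Cpx Module CategoryTheory

/-- K1. every surjection in `𝓜` has a kernel in `𝓜`. -/
def Stmt_K1 : Prop :=
  ∀ (p : ℕ) [Fact p.Prime] (G : Type) [Group G] (𝒰 : LevelSys G) (B C : Rep.{0} (ZMod p) G)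
    (q : B ⟶ C), Function.Surjective q.hom → Module.Finite (ZMod p) B → IsTrivOn 𝒰 B →
    (Module.Finite (ZMod p) C ∧ IsTrivOn 𝒰 C) ∧
    ∃ (A : Rep.{0} (ZMod p) G) (i : A ⟶ B), IsShortExact i q ∧ Module.Finite (ZMod p) A ∧
      IsTrivOn 𝒰 A

/-- K2. the twisted dual of a short exact sequence is short exact; the twisted dual of a module in
`𝓜` is in `𝓜`; modules in `𝓜` are discrete. -/
def Stmt_K2 : Prop :=
  ∀ (p : ℕ) [Fact p.Prime] (G : Type) [Group G] (𝒰 : LevelSys G) (χ : G →* (ZMod p)ˣ),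
    (∃ U ∈ 𝒰.S, ∀ u ∈ U, χ u = 1) →
    (∀ (A B C : Rep.{0} (ZMod p) G) (i : A ⟶ B) (q : B ⟶ C), IsShortExact i q →
      IsShortExact (dualTwistMap χ q) (dualTwistMap χ i)) ∧
    (∀ N : Rep.{0} (ZMod p) G, Module.Finite (ZMod p) N → IsTrivOn 𝒰 N →
      Module.Finite (ZMod p) (N.dualTwist χ) ∧ IsTrivOn 𝒰 (N.dualTwist χ)) ∧
    (∀ N : Rep.{0} (ZMod p) G, IsTrivOn 𝒰 N → IsDisc 𝒰 N)

/-- FREE. free covers: for `N ∈ 𝓜` and `x ∈ H¹(G, N')` there is a surjection `π : F → N` in `𝓜`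
(`F = Map(G/U, N) ≅ R_U^d`, `π` = sum over `G/U`, `U` a small level) with `π^* x = 0` and with the
numerical bounds `dim T^{a+1}(F) ≤ dim H⁰(F')`, `dim T^a(F) ≤ dim H¹(F')`. -/
def Stmt_Free : Prop :=
  ∀ (p : ℕ) [Fact p.Prime] (E : Setup p), E.FreeBound → ∀ (N : Rep.{0} (ZMod p) E.G), E.Fin N →
    ∀ x : Hlc E.𝒰 (E.dl N) 1, ∃ (F : Rep.{0} (ZMod p) E.G) (π : F ⟶ N), E.Fin F ∧
      Function.Surjective π.hom ∧
      (lcCoeff E.𝒰 (dualTwistMap E.χ π)).mapH 1 x = 0 ∧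
      Module.Finite (ZMod p) (E.TT F (E.a + 1)) ∧ Module.Finite (ZMod p) (E.TT F E.a) ∧
      Module.Finite (ZMod p) (Hlc E.𝒰 (E.dl F) 1) ∧
      finrank (ZMod p) (E.TT F (E.a + 1)) ≤ finrank (ZMod p) (Hlc E.𝒰 (E.dl F) 0) ∧
      finrank (ZMod p) (E.TT F E.a) ≤ finrank (ZMod p) (Hlc E.𝒰 (E.dl F) 1)

/-- FREE-a. module theory of `Map(G/U, N)`: if `U` acts trivially on `N` (of dimension `d`) and
`χ|U = 1`, then `Map(G/U,N) ≅ R_U^d` and `Map(G/U,N)' ≅ R_U^d`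
(`R_U^d` realised as `Map(G/U, trivial (Fin d → 𝔽_p))`). -/
def Stmt_FreeIso : Prop :=
  ∀ (p : ℕ) [Fact p.Prime] (G : Type) [Group G] (χ : G →* (ZMod p)ˣ) (U : Subgroup G) [U.Normal]
    [U.FiniteIndex] (N : Rep.{0} (ZMod p) G), Module.Finite (ZMod p) N →
    (∀ u ∈ U, χ u = 1) → (∀ u ∈ U, ∀ m : N, N.ρ u m = m) →
    Nonempty (mapRep (G ⧸ U) N ≅
      mapRep (G ⧸ U) (Rep.trivial (ZMod p) G (Fin (finrank (ZMod p) N) → ZMod p))) ∧
    Nonempty ((mapRep (G ⧸ U) N).dualTwist χ ≅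
      mapRep (G ⧸ U) (Rep.trivial (ZMod p) G (Fin (finrank (ZMod p) N) → ZMod p)))

/-- FREE-b. a lawful functor is subadditive on powers, and `Hlc` is additive. -/
def Stmt_FreePow : Prop :=
  ∀ (p : ℕ) [Fact p.Prime] (G : Type) [Group G] (𝒰 : LevelSys G) (T : CFun (ZMod p) G),
    T.Laws 𝒰 → ∀ U ∈ 𝒰.S, ∀ (n d : ℕ), Module.Finite (ZMod p) ((T.obj (permRep (ZMod p) U)).H n) →
    Module.Finite (ZMod p)
      ((T.obj (mapRep (G ⧸ U) (Rep.trivial (ZMod p) G (Fin d → ZMod p)))).H n) ∧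
    finrank (ZMod p) ((T.obj (mapRep (G ⧸ U) (Rep.trivial (ZMod p) G (Fin d → ZMod p)))).H n)
      = d * finrank (ZMod p) ((T.obj (permRep (ZMod p) U)).H n)

/-- PT-GRE. right exactness of `H³_c`. -/
def Stmt_globalRE : Prop :=
  ∀ (p : ℕ) [Fact p.Prime] (D : Datum p), D.Inputs →
    ∀ (tr : (D.cCpx D.mu).H 3 →ₗ[ZMod p] ZMod p) (h), (D.gSetup h tr).RightExact

end Fermat.Agent.CFT.Top

end
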