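/-
TEAM CFT -> S55, top level.  Package TOP-AD (helper97): the abstract duality theorem.
-/
import Fermat.Agent.CFT.Top.ADStmts

set_option autoImplicit false

noncomputable section

namespace Fermat.Agent.CFT.Top

open Cpx Module CategoryTheory

section LinAlg

variable {k V W : Type} [Field k] [AddCommGroup V] [Module k V] [AddCommGroup W] [Module k W]

/-- a right non degenerate pairing with `V` finite dimensional represents every functional. -/
theorem AD_surj_of_RND [Module.Finite k V] (β : V →ₗ[k] W →ₗ[k] k) (h : IsRND β)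
    (ψ : W →ₗ[k] k) : ∃ v, β v = ψ := by
  have hinj : Function.Injective β.flip := by
    rw [injective_iff_map_eq_zero]
    intro w hw
    apply h w
    intro v
    have := LinearMap.congr_fun hw v
    simpa using this
  obtain ⟨Φ, hΦ⟩ := LinearMap.dualMap_surjective_of_injective hinj ψ
  obtain ⟨v, hv⟩ := (Module.evalEquiv k V).surjective Φ
  refine ⟨v, LinearMap.ext fun w => ?_⟩
  rw [← hΦ, ← hv]
  simp

theorem AD_LND_of_RND_of_finrank_le [Module.Finite k V] [Module.Finite k W]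
    (β : V →ₗ[k] W →ₗ[k] k) (h : IsRND β) (hle : finrank k V ≤ finrank k W) : IsLND β := by
  have hsurj : Function.Surjective β := AD_surj_of_RND β h
  have h1 : finrank k (W →ₗ[k] k) = finrank k W := Subspace.dual_finrank_eq
  have h2 : finrank k (W →ₗ[k] k) ≤ finrank k V := LinearMap.finrank_le_finrank_of_surjective hsurj
  have hinj : Function.Injective β :=
    (LinearMap.injective_iff_surjective_of_finrank_eq_finrank (by omega)).2 hsurj
  intro v hv
  apply hinj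
  rw [map_zero]
  exact LinearMap.ext hv

/-- a functional killing `ker f` factors through `f`. -/
theorem AD_factor (f : V →ₗ[k] W) (φ : V →ₗ[k] k) (h : ∀ v, f v = 0 → φ v = 0) :
    ∃ ψ : W →ₗ[k] k, ∀ v, ψ (f v) = φ v := by
  obtain ⟨s, hs⟩ := f.rangeRestrict.exists_rightInverse_of_surjective f.range_rangeRestrict
  obtain ⟨ψ, hψ⟩ := LinearMap.exists_extend (φ ∘ₗ s)
  refine ⟨ψ, fun v => ?_⟩
  have h1 : ψ (f v) = φ (s (f.rangeRestrict v)) := LinearMap.congr_fun hψ (f.rangeRestrict v)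
  rw [h1, ← sub_eq_zero, ← map_sub]
  apply h
  rw [map_sub, sub_eq_zero]
  have h2 := LinearMap.congr_fun hs (f.rangeRestrict v)
  exact congrArg Subtype.val h2

end LinAlg

/-- **AD. The abstract duality theorem.** -/
theorem stmt_AD (hD2 : Stmt_D2) (hD3 : Stmt_D3) (hC1 : Stmt_C1) (hC2 : Stmt_C2)
    (hFree : Stmt_Free) (hK1 : Stmt_K1) (hK2 : Stmt_K2) (hles : Stmt_les) (hlc : Stmt_lcLaws) :
    Stmt_AD := by
  intro p _ E hE N hN
  obtain ⟨hf1, hf2, hrnd⟩ := hD3 p E hE N hN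
  refine ⟨hf1, hf2, ?_, hrnd⟩
  intro y hy
  -- a free cover
  obtain ⟨F, π, hF, hπ, -, -, -, -, -, hle⟩ := hFree p E hE.fb N hN 0
  obtain ⟨hFa, hF1, hrndF⟩ := hD3 p E hE F hF
  have hlndF : IsLND (E.β₂ F) := AD_LND_of_RND_of_finrank_le _ hrndF hle
  -- its kernel
  obtain ⟨-, N1, i, hses, hN1f, hN1t⟩ := hK1 p E.G E.𝒰 F N π hπ hF.1 hF.2
  have hN1 : E.Fin N1 := ⟨hN1f, hN1t⟩
  obtain ⟨hK2a, hK2b, hK2c⟩ := hK2 p E.G E.𝒰 E.χ E.χtriv
  have hsesT : IsSES (E.T.map i) (E.T.map π) := E.laws.ses i π hses (hK2c F hF.2)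
  obtain ⟨-, hT2, hT3, -⟩ := hles (ZMod p) _ _ _ _ _ hsesT
  -- `∂ y = 0`
  have hdy : delta (E.T.map i) (E.T.map π) E.a y = 0 := by
    obtain ⟨-, -, hperf⟩ := hD2 p E hE N1 hN1
    apply hperf.1
    intro w
    rw [hC2 p E N1 F N i π hses hF y w, hy, neg_zero]
  obtain ⟨yy, rfl⟩ := (hT3 E.a y).1 hdy
  -- the dual sequence
  have hsesD := hK2a N1 F N i π hses
  have hsesL : IsSES (lcCoeff E.𝒰 (dualTwistMap E.χ π)) (lcCoeff E.𝒰 (dualTwistMap E.χ i)) :=
    (hlc (ZMod p) E.G E.𝒰).ses _ _ hsesD (hK2c _ (hK2b F hF.1 hF.2).2)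
  obtain ⟨-, hL2, -, -⟩ := hles (ZMod p) _ _ _ _ _ hsesL
  obtain ⟨hC1π, -⟩ := hC1 p E F N π hF hN
  obtain ⟨hC1i, -⟩ := hC1 p E N1 F i hN1 hF
  -- `β₂(yy, ·)` factors through `i^*`
  obtain ⟨ψ, hψ⟩ := AD_factor ((lcCoeff E.𝒰 (dualTwistMap E.χ i)).mapH 1) (E.β₂ F yy) (by
    intro x hx
    obtain ⟨x', rfl⟩ := (hL2 1 x).1 hx
    rw [← hC1π]
    exact hy x')
  obtain ⟨hN1a, -, hrndN1⟩ := hD3 p E hE N1 hN1
  obtain ⟨z, hz⟩ := AD_surj_of_RND (E.β₂ N1) hrndN1 ψ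
  have hyy : yy = (E.T.map i).mapH E.a z := by
    rw [← sub_eq_zero]
    apply hlndF
    intro x
    rw [map_sub, LinearMap.sub_apply, hC1i, hz, hψ, sub_self]
  rw [hyy]
  exact (hT2 E.a _).2 ⟨z, rfl⟩

end Fermat.Agent.CFT.Top

end
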