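/-
TEAM CFT -> S55, top level, bridge BR3: the prelude's `sha₁` is the level-constant `Sha¹`.
-/
import Fermat.Agent.CFT.Top.QDatum
import Fermat.Agent.CFT.ShaBridge

set_option autoImplicit false

noncomputable section

namespace Fermat.Agent.CFT.Top

open Cpx Module groupCohomology ExtCitation

namespace BrSha1

section Abstract

variable {k : Type} [CommRing k] {G : Type} [Group G]

lemma dd0_apply (M : Rep.{0} k G) (f : (Fin 0 → G) → M) (g : Fin 1 → G) :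
    dd M 0 f g = M.ρ (g 0) (f default) - f default := by
  rw [dd_apply, Fin.sum_univ_one]
  rw [Subsingleton.elim (fun i : Fin 0 => g i.succ) default,
    Subsingleton.elim (Fin.contractNth 0 (· * ·) g) default, sub_eq_add_neg]
  simp

lemma dd1_apply (M : Rep.{0} k G) (f : (Fin 1 → G) → M) (g : Fin 2 → G) :
    dd M 1 f g = M.ρ (g 0) (f fun _ => g 1) - f (fun _ => g 0 * g 1) + f (fun _ => g 0) := by
  rw [dd_apply, Fin.sum_univ_two]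
  have h1 : (fun i : Fin 1 => g i.succ) = fun _ => g 1 := by
    funext i; fin_cases i; rfl
  have h2 : Fin.contractNth 0 (· * ·) g = fun _ => g 0 * g 1 := by
    funext i; fin_cases i; simp [Fin.contractNth]
  have h3 : Fin.contractNth 1 (· * ·) g = fun _ => g 0 := by
    funext i; fin_cases i; simp [Fin.contractNth]
  rw [h1, h2, h3]
  simp
  abel

omit [Group G] in
lemma fin1_eta (g : Fin 1 → G) : g = fun _ => g 0 := by
  funext i; fin_cases i; rfl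

/-- cochains in one variable -/
def toFun1 (M : Rep.{0} k G) : ((Fin 1 → G) → M) →ₗ[k] (G → M) where
  toFun f g := f fun _ => g
  map_add' _ _ := rfl
  map_smul' _ _ := rfl

@[simp] lemma toFun1_apply (M : Rep.{0} k G) (f : (Fin 1 → G) → M) (g : G) :
    toFun1 M f g = f fun _ => g := rfl

lemma toFun1_mem (M : Rep.{0} k G) (f : (Fin 1 → G) → M) (h : dd M 1 f = 0) :
    toFun1 M f ∈ cocycles₁ M := by
  rw [mem_cocycles₁_iff]
  intro g g'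
  have := congrFun h ![g, g']
  rw [dd1_apply] at this
  simp only [Matrix.cons_val_zero, Matrix.cons_val_one, Pi.zero_apply] at this
  simp only [toFun1_apply]
  rw [← sub_eq_zero, ← neg_eq_zero, ← this]
  abel

lemma dd1_eq_zero_of_cocycle (M : Rep.{0} k G) (c : G → M) (hc : c ∈ cocycles₁ M) :
    dd M 1 (fun g => c (g 0)) = 0 := by
  rw [mem_cocycles₁_iff] at hc
  funext g
  rw [dd1_apply, hc]
  simp

/-- the underlying function of an lc cocycle -/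
def zVal (𝒰 : LevelSys G) (M : Rep.{0} k G) (z : (lcCpx 𝒰 M).Z 1) : (Fin 1 → G) → M :=
  (show ↥(lcCochains 𝒰 M 1) from z.1).1

lemma zVal_mem (𝒰 : LevelSys G) (M : Rep.{0} k G) (z : (lcCpx 𝒰 M).Z 1) :
    zVal 𝒰 M z ∈ lcCochains 𝒰 M 1 :=
  (show ↥(lcCochains 𝒰 M 1) from z.1).2

lemma dd_zVal (𝒰 : LevelSys G) (M : Rep.{0} k G) (z : (lcCpx 𝒰 M).Z 1) :
    dd M 1 (zVal 𝒰 M z) = 0 := by
  have h := mem_Z.1 z.2
  exact congrArg (fun w : ↥(lcCochains 𝒰 M 2) => w.1) h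

/-- from lc cocycles to Mathlib's `cocycles₁` -/
def zToCoc (𝒰 : LevelSys G) (M : Rep.{0} k G) : ↥((lcCpx 𝒰 M).Z 1) →ₗ[k] ↥(cocycles₁ M) where
  toFun z := ⟨toFun1 M (zVal 𝒰 M z), toFun1_mem M _ (dd_zVal 𝒰 M z)⟩
  map_add' _ _ := rfl
  map_smul' _ _ := rfl

lemma zToCoc_apply (𝒰 : LevelSys G) (M : Rep.{0} k G) (z : (lcCpx 𝒰 M).Z 1) (g : G) :
    (zToCoc 𝒰 M z).1 g = zVal 𝒰 M z fun _ => g := rfl

/-- make an lc cocycle -/
def mkZ (𝒰 : LevelSys G) (M : Rep.{0} k G) (f : (Fin 1 → G) → M) (hf : f ∈ lcCochains 𝒰 M 1)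
    (hd : dd M 1 f = 0) : (lcCpx 𝒰 M).Z 1 :=
  ⟨(⟨f, hf⟩ : ↥(lcCochains 𝒰 M 1)), mem_Z.2 (Subtype.ext hd)⟩

lemma zVal_mkZ (𝒰 : LevelSys G) (M : Rep.{0} k G) (f : (Fin 1 → G) → M)
    (hf : f ∈ lcCochains 𝒰 M 1) (hd : dd M 1 f = 0) : zVal 𝒰 M (mkZ 𝒰 M f hf hd) = f := rfl

/-- membership in the lc coboundaries -/
lemma mem_B1_iff (𝒰 : LevelSys G) (M : Rep.{0} k G) (z : (lcCpx 𝒰 M).Z 1) :
    (z : (lcCpx 𝒰 M).X 1) ∈ (lcCpx 𝒰 M).B 1 ↔
      ∃ a : M, (∃ U ∈ 𝒰.S, ∀ u ∈ U, M.ρ u a = a) ∧ ∀ g : G, zVal 𝒰 M z (fun _ => g) = M.ρ g a - a := by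
  rw [mem_B_succ]
  constructor
  · rintro ⟨y, hy⟩
    obtain ⟨U, hU, hlev⟩ := (show ↥(lcCochains 𝒰 M 0) from y).2
    refine ⟨(show ↥(lcCochains 𝒰 M 0) from y).1 default, ⟨U, hU, fun u hu => hlev.2 _ u hu⟩,
      fun g => ?_⟩
    have h1 : dd M 0 (show ↥(lcCochains 𝒰 M 0) from y).1 = zVal 𝒰 M z :=
      congrArg (fun w : ↥(lcCochains 𝒰 M 1) => w.1) hy
    rw [← h1, dd0_apply]
  · rintro ⟨a, ⟨U, hU, hUa⟩, ha⟩
    refine ⟨(⟨fun _ => a, U, hU, fun _ _ _ => rfl, fun _ u hu => hUa u hu⟩ :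
      ↥(lcCochains 𝒰 M 0)), ?_⟩
    apply Subtype.ext
    show dd M 0 (fun _ => a) = zVal 𝒰 M z
    funext g
    rw [dd0_apply, fin1_eta g, ha]

/-- the comparison map `H¹_lc → H¹` -/
def hlcToH1 (𝒰 : LevelSys G) (M : Rep.{0} k G) : Hlc 𝒰 M 1 →ₗ[k] H1 M :=
  Submodule.liftQ _ ((H1π M).hom.comp (zToCoc 𝒰 M)) (by
    intro z hz
    rw [LinearMap.mem_ker]
    obtain ⟨a, -, ha⟩ := (mem_B1_iff 𝒰 M z).1 hz
    show (H1π M).hom (zToCoc 𝒰 M z) = 0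
    rw [H1π_eq_zero_iff]
    refine ⟨a, ?_⟩
    ext g
    rw [d₀₁_hom_apply]
    exact (ha g).symm)

lemma hlcToH1_cls (𝒰 : LevelSys G) (M : Rep.{0} k G) (z : (lcCpx 𝒰 M).Z 1) :
    hlcToH1 𝒰 M ((lcCpx 𝒰 M).cls 1 z) = (H1π M).hom (zToCoc 𝒰 M z) := rfl

lemma hlcToH1_injective (𝒰 : LevelSys G) (M : Rep.{0} k G) (h : IsTrivOn 𝒰 M) :
    Function.Injective (hlcToH1 𝒰 M) := by
  rw [← LinearMap.ker_eq_bot, LinearMap.ker_eq_bot']
  intro x hx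
  obtain ⟨z, rfl⟩ := cls_surjective _ 1 x
  rw [hlcToH1_cls, H1π_eq_zero_iff] at hx
  obtain ⟨a, ha⟩ := hx
  rw [cls_eq_zero_iff, mem_B1_iff]
  obtain ⟨U, hU, htriv⟩ := h
  refine ⟨a, ⟨U, hU, fun u hu => htriv u hu a⟩, fun g => ?_⟩
  have := congrFun ha g
  rw [d₀₁_hom_apply] at this
  exact this.symm

/-- the kernel of a cocycle on a normal subgroup acting trivially is a normal subgroup. -/
lemma exists_level (M : Rep.{0} k G) (c : G → M) (hc : c ∈ cocycles₁ M) (U₀ : Subgroup G)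
    (hn : U₀.Normal) (htriv : ∀ u ∈ U₀, ∀ m : M, M.ρ u m = m) :
    ∃ U : Subgroup G, U.Normal ∧ (∀ u, u ∈ U ↔ u ∈ U₀ ∧ c u = 0) := by
  rw [mem_cocycles₁_iff] at hc
  have hc1 : c 1 = 0 := by
    have := hc 1 1
    simpa using this
  have hinv : ∀ g, c g⁻¹ = - M.ρ g⁻¹ (c g) := by
    intro g
    have := hc g⁻¹ g
    rw [inv_mul_cancel, hc1] at this
    rw [eq_neg_iff_add_eq_zero, add_comm]
    exact this.symm
  refine ⟨{ carrier := {u | u ∈ U₀ ∧ c u = 0}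
            mul_mem' := ?_
            one_mem' := ⟨U₀.one_mem, hc1⟩
            inv_mem' := ?_ }, ⟨?_⟩, fun u => Iff.rfl⟩
  · rintro a b ⟨ha, hca⟩ ⟨hb, hcb⟩
    exact ⟨U₀.mul_mem ha hb, by rw [hc, hca, hcb]; simp⟩
  · rintro a ⟨ha, hca⟩
    exact ⟨U₀.inv_mem ha, by rw [hinv, hca]; simp⟩
  · rintro u ⟨hu, hcu⟩ g
    refine ⟨hn.conj_mem u hu g, ?_⟩
    rw [hc, hc, hcu, hinv, map_zero, zero_add, map_neg, ← Module.End.mul_apply, ← map_mul,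
      htriv _ (hn.conj_mem u hu g)]
    simp

end Abstract

section DatumSec

variable {p : ℕ} [Fact p.Prime]

lemma cls_mem_Sha_iff (D : Datum p) (N : Rep.{0} (ZMod p) D.G) (hN : IsTrivOn D.𝒰 N)
    (z : (lcCpx D.𝒰 N).Z 1) :
    (lcCpx D.𝒰 N).cls 1 z ∈ D.Sha N 1 ↔
      ∀ v, ∃ a : N, ∀ τ : D.Gv v, zVal D.𝒰 N z (fun _ => D.φ v τ) = N.ρ (D.φ v τ) a - a := by
  unfold Datum.Sha
  rw [LinearMap.mem_ker, Hom.mapH_cls, cls_eq_zero_iff, mem_B_succ]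
  constructor
  · rintro ⟨y, hy⟩ v
    refine ⟨(show ↥(lcCochains (D.𝒰v v) (Rep.res (D.φ v) N) 0) from y v).1 default, fun τ => ?_⟩
    have h1 := congrFun hy v
    have h2 : dd (Rep.res (D.φ v) N) 0
        (show ↥(lcCochains (D.𝒰v v) (Rep.res (D.φ v) N) 0) from y v).1
        = pullPush (D.φ v) (LinearMap.id : N →ₗ[ZMod p] Rep.res (D.φ v) N) 1 (zVal D.𝒰 N z) :=
      congrArg (fun w : ↥(lcCochains (D.𝒰v v) (Rep.res (D.φ v) N) 1) => w.1) h1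
    have h3 := congrFun h2 (fun _ => τ)
    rw [dd0_apply, pullPush_apply] at h3
    exact h3.symm
  · intro h
    choose a ha using h
    obtain ⟨U, hU, htriv⟩ := hN
    have hmem : ∀ v, (fun _ => a v : (Fin 0 → D.Gv v) → Rep.res (D.φ v) N) ∈
        lcCochains (D.𝒰v v) (Rep.res (D.φ v) N) 0 := by
      intro v
      obtain ⟨V, hV, hVU⟩ := D.cont v U hU
      exact ⟨V, hV, fun _ _ _ => rfl, fun _ u hu => htriv _ (hVU hu) _⟩
    refine ⟨fun v => (⟨fun _ => a v, hmem v⟩ : ↥(lcCochains (D.𝒰v v) (Rep.res (D.φ v) N) 0)), ?_⟩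
    funext v
    apply Subtype.ext
    show dd (Rep.res (D.φ v) N) 0 (fun _ => a v)
      = pullPush (D.φ v) (LinearMap.id : N →ₗ[ZMod p] Rep.res (D.φ v) N) 1 (zVal D.𝒰 N z)
    funext g
    rw [dd0_apply, pullPush_apply, fin1_eta g]
    exact (ha v (g 0)).symm

/-- abstract form of the bridge -/
theorem abstract_bridge (D : Datum p) (N : Rep.{0} (ZMod p) D.G) (hN : IsTrivOn D.𝒰 N)
    (T : Submodule (ZMod p) (H1 N))
    (hT : ∀ x : H1 N, x ∈ T ↔ ∃ c : cocycles₁ N,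
      (∃ W ∈ D.𝒰.S, ∀ g, ∀ s ∈ W, c.1 (g * s) = c.1 g) ∧ (H1π N).hom c = x ∧
        ∀ v, ∃ a : N, ∀ τ : D.Gv v, c.1 (D.φ v τ) = N.ρ (D.φ v τ) a - a) :
    Nonempty (T ≃ₗ[ZMod p] D.Sha N 1) := by
  have hmem : ∀ x : D.Sha N 1, hlcToH1 D.𝒰 N x.1 ∈ T := by
    rintro ⟨x, hx⟩
    obtain ⟨z, rfl⟩ := cls_surjective _ 1 x
    have hx' := (cls_mem_Sha_iff D N hN z).1 hx
    rw [hlcToH1_cls, hT]
    refine ⟨zToCoc D.𝒰 N z, ?_, rfl, hx'⟩
    obtain ⟨U, hU, hlev⟩ := zVal_mem D.𝒰 N z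
    refine ⟨U, hU, fun g s hs => ?_⟩
    refine (hlev.1 _ _ fun i => ?_).symm
    simpa using hs
  let Ψ : D.Sha N 1 →ₗ[ZMod p] T :=
    LinearMap.codRestrict _ ((hlcToH1 D.𝒰 N).comp (D.Sha N 1).subtype) hmem
  have hinj : Function.Injective Ψ := by
    intro x y hxy
    apply Subtype.ext
    apply hlcToH1_injective D.𝒰 N hN
    exact congrArg Subtype.val hxy
  have hsurj : Function.Surjective Ψ := by
    rintro ⟨x, hx⟩
    obtain ⟨c, ⟨W, hW, hcW⟩, rfl, hloc⟩ := (hT x).1 hx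
    obtain ⟨U₀, hU₀, htr⟩ := id hN
    obtain ⟨U, hU, hUW, hUU₀⟩ := D.𝒰.dir W hW U₀ hU₀
    have hlc : (fun g : Fin 1 → D.G => c.1 (g 0)) ∈ lcCochains D.𝒰 N 1 := by
      refine ⟨U, hU, fun g g' hg => ?_, fun g u hu => htr u (hUU₀ hu) _⟩
      have h0 : g' 0 = g 0 * ((g 0)⁻¹ * g' 0) := by group
      show c.1 (g 0) = c.1 (g' 0)
      rw [h0, hcW _ _ (hUW (hg 0))]
    let z := mkZ D.𝒰 N _ hlc (dd1_eq_zero_of_cocycle N c.1 c.2)
    have hz : (lcCpx D.𝒰 N).cls 1 z ∈ D.Sha N 1 := by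
      rw [cls_mem_Sha_iff D N hN z]
      exact hloc
    refine ⟨⟨_, hz⟩, ?_⟩
    apply Subtype.ext
    show hlcToH1 D.𝒰 N ((lcCpx D.𝒰 N).cls 1 z) = _
    rw [hlcToH1_cls]
    rfl
  exact ⟨(LinearEquiv.ofBijective Ψ ⟨hinj, hsurj⟩).symm⟩

end DatumSec

end BrSha1

open BrSha1 in
/-- BR3. the prelude's `sha₁` is the level-constant `Sha¹`. -/
theorem stmt_bridgeSha1 : Stmt_bridgeSha1 := by
  intro p _ hp S h M _ htriv
  have h2 : (2 : ZMod p) ≠ 0 := by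
    intro h0
    have h1 : ((2 : ℕ) : ZMod p) = 0 := by exact_mod_cast h0
    rw [ZMod.natCast_eq_zero_iff] at h1
    exact hp ((Nat.prime_dvd_prime_iff_eq Fact.out Nat.prime_two).1 h1)
  have key : ∀ x : H1 M, x ∈ sha₁ S M ↔ ∃ c : cocycles₁ M,
      (∃ W ∈ (levS S).S, ∀ g, ∀ s ∈ W, c.1 (g * s) = c.1 g) ∧ (H1π M).hom c = x ∧
        ∀ v : ↥S, ∃ a : M, ∀ τ : primeLocalGaloisGroup v.1,
          c.1 (primeLocalToGlobal v.1 τ) = M.ρ (primeLocalToGlobal v.1 τ) a - a := by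
    intro x
    rw [mem_sha₁_iff h2]
    constructor
    · rintro ⟨c, ⟨F, hF, hcF⟩, rfl, hloc⟩
      refine ⟨c, ?_, rfl, ?_⟩
      · obtain ⟨U₀, hU₀, htr⟩ := htriv
        obtain ⟨hU₀n, F₀, hF₀, hF₀U⟩ := id hU₀
        obtain ⟨U, hUn, hU⟩ := exists_level M c.1 c.2 U₀ hU₀n htr
        have hcoc := (mem_cocycles₁_iff _).1 c.2
        have hc1 : c.1 1 = 0 := by simp
        refine ⟨U, ⟨hUn, F ⊔ F₀, hF.sup hF₀, fun s hs => ?_⟩, fun g s hs => ?_⟩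
        · rw [IntermediateField.fixingSubgroup_sup] at hs
          refine (hU s).2 ⟨hF₀U hs.2, ?_⟩
          have := hcF 1 s hs.1
          rw [one_mul] at this
          exact this.trans hc1
        · rw [hcoc, ((hU s).1 hs).2]
          simp
      · rintro ⟨q, hq⟩
        obtain ⟨a, ha⟩ := hloc q hq
        refine ⟨a, fun τ => ?_⟩
        apply ha
        rw [← range_primeLocalToGlobal]
        exact ⟨τ, rfl⟩
    · rintro ⟨c, ⟨W, ⟨-, F, hF, hFW⟩, hcW⟩, rfl, hloc⟩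
      refine ⟨c, ⟨F, hF, fun g s hs => hcW g s (hFW hs)⟩, rfl, fun q hq => ?_⟩
      obtain ⟨a, ha⟩ := hloc ⟨q, hq⟩
      refine ⟨a, fun σ hσ => ?_⟩
      rw [← range_primeLocalToGlobal] at hσ
      obtain ⟨τ, rfl⟩ := hσ
      exact ha τ
  exact abstract_bridge (qDatum p S h) M htriv (sha₁ S M) key

end Fermat.Agent.CFT.Top

end
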