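/-
TEAM CFT -> S55, top level / bridge P6, package TOP-BR2 (helper32):
the prelude's `sha₂` is the level-constant `Sha²` of the arithmetic datum.
-/
import Fermat.Agent.CFT.Top.BridgeLevels
import Fermat.Agent.CFT.ShaBridge

set_option autoImplicit false

noncomputable section

namespace Fermat.Agent.CFT.Top

open Cpx Module groupCohomology ExtCitation

namespace BrSha2

open BrLev

variable {p : ℕ} [Fact p.Prime] (S : Finset Nat.Primes) (M : Rep.{0} (ZMod p) GQ)

/-- membership in `sha₂`, in terms of the local Galois groups. -/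
theorem mem_sha₂_iff (h2 : IsUnit (2 : ZMod p)) (f : levelCocyclesS₂ S M) :
    continuousH2Sπ S M f ∈ sha₂ S M ↔
      ∀ q : ↥S, ∃ y : primeLocalGaloisGroup q.1 → M, IsLevelConstant₁ (primeLocalToGlobal q.1) y ∧
        ∀ τ τ' : primeLocalGaloisGroup q.1,
          (f : GQ × GQ → M) (primeLocalToGlobal q.1 τ, primeLocalToGlobal q.1 τ')
            = M.ρ (primeLocalToGlobal q.1 τ) (y τ') - y (τ * τ') + y τ := by
  rw [sha₂, LinearMap.mem_ker]
  constructor
  · intro h q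
    have h1 : locRes₂S S M (primeLocalToGlobal q.1) (continuousH2Sπ S M f) = 0 :=
      congrFun h (Sum.inr q)
    exact (locRes₂S_π_eq_zero_iff' (primeLocalToGlobal q.1) S M f).mp h1
  · intro h
    funext v
    rw [locTotal₂S_apply]
    rcases v with v | q
    · have := subsingleton_continuousH2_archimedean h2 M
      exact Subsingleton.elim (α := continuousH2 archimedeanLoc (Rep.res archimedeanLoc M)) _ _
    · exact (locRes₂S_π_eq_zero_iff' (primeLocalToGlobal q.1) S M f).mpr (h q)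

variable {S M}

/-- cocycles of the prelude as cocycles of the level-constant complex. -/
def toZ (hM : IsTrivOn (levS S) M) :
    ↥(levelCocyclesS₂ S M) →ₗ[ZMod p] ↥((lcCpx (levS S) M).Z 2) :=
  LinearMap.codRestrict ((lcCpx (levS S) M).Z 2)
    (LinearMap.codRestrict (lcCochains (levS S) M 2)
      ((e2 M).toLinearMap ∘ₗ (levelCocyclesS₂ S M).subtype)
      (fun f => (e2_mem_levS_iff hM _).2 f.2.2) :
        ↥(levelCocyclesS₂ S M) →ₗ[ZMod p] (lcCpx (levS S) M).X 2)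
    (fun f => mem_Z.2 (Subtype.ext ((dd_e2_eq_zero_iff M _).2 f.2.1)))

lemma toZ_coe (hM : IsTrivOn (levS S) M) (f : levelCocyclesS₂ S M) :
    (show ↥(lcCochains (levS S) M 2) from (toZ hM f).1).1 = e2 M f.1 := rfl

lemma toZ_mem_B_iff (hM : IsTrivOn (levS S) M) (f : levelCocyclesS₂ S M) :
    ((toZ hM f : ↥((lcCpx (levS S) M).Z 2)) : (lcCpx (levS S) M).X 2) ∈ (lcCpx (levS S) M).B 2 ↔
      (f : GQ × GQ → M) ∈ levelCoboundariesS₂ S M := by
  rw [mem_B_succ, mem_levelCoboundariesS₂_iff]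
  constructor
  · rintro ⟨y, hy⟩
    have hy1 : dd M 1 (show ↥(lcCochains (levS S) M 1) from y).1 = e2 M f.1 :=
      congrArg Subtype.val hy
    refine ⟨(e1 M).symm (show ↥(lcCochains (levS S) M 1) from y).1, ?_, ?_⟩
    · rw [← e1_mem_levS_iff hM, LinearEquiv.apply_symm_apply]
      exact (show ↥(lcCochains (levS S) M 1) from y).2
    · apply (e2 M).injective
      rw [← dd_e1, LinearEquiv.apply_symm_apply, hy1]
  · rintro ⟨x, hx, hxf⟩
    refine ⟨(⟨e1 M x, (e1_mem_levS_iff hM x).2 hx⟩ : ↥(lcCochains (levS S) M 1)), ?_⟩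
    apply Subtype.ext
    change dd M 1 (e1 M x) = e2 M f.1
    rw [dd_e1, hxf]

lemma toZ_surjective (hM : IsTrivOn (levS S) M) : Function.Surjective (toZ hM) := by
  rintro ⟨⟨w, hw⟩, hz⟩
  have hz2 : dd M 2 w = 0 := congrArg Subtype.val (mem_Z.1 hz)
  have h1 : (e2 M).symm w ∈ cocycles₂ M := by
    rw [← dd_e2_eq_zero_iff, LinearEquiv.apply_symm_apply, hz2]
  have h2 : IsLevelConstantS₂ S ((e2 M).symm w) := by
    rw [← e2_mem_levS_iff hM, LinearEquiv.apply_symm_apply]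
    exact hw
  refine ⟨⟨(e2 M).symm w, h1, h2⟩, ?_⟩
  apply Subtype.ext
  apply Subtype.ext
  change e2 M ((e2 M).symm w) = w
  rw [LinearEquiv.apply_symm_apply]

/-- the comparison map on cohomology. -/
def toH (hM : IsTrivOn (levS S) M) : continuousH2S S M →ₗ[ZMod p] Hlc (levS S) M 2 :=
  Submodule.mapQ _ _ (toZ hM) fun f hf => by
    simp only [Submodule.mem_comap, Submodule.subtype_apply] at hf ⊢
    exact (toZ_mem_B_iff hM f).2 hf

lemma toH_π (hM : IsTrivOn (levS S) M) (f : levelCocyclesS₂ S M) :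
    toH hM (continuousH2Sπ S M f) = (lcCpx (levS S) M).cls 2 (toZ hM f) := rfl

lemma toH_bijective (hM : IsTrivOn (levS S) M) : Function.Bijective (toH hM) := by
  constructor
  · rw [injective_iff_map_eq_zero]
    intro x hx
    obtain ⟨f, rfl⟩ := Submodule.mkQ_surjective _ x
    change toH hM (continuousH2Sπ S M f) = 0 at hx
    rw [toH_π, cls_eq_zero_iff, toZ_mem_B_iff] at hx
    exact (continuousH2Sπ_eq_zero_iff S M f).2 hx
  · intro x
    obtain ⟨z, rfl⟩ := (lcCpx (levS S) M).cls_surjective 2 x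
    obtain ⟨f, rfl⟩ := toZ_surjective hM z
    exact ⟨continuousH2Sπ S M f, toH_π hM f⟩

/-- the local condition at one place. -/
lemma local_iff {H : Type} [Group H] (r : H →* GQ) (hM : IsTrivOn levAll M) (f : GQ × GQ → M) :
    (∃ w ∈ lcCochains (levAll.comap r) (Rep.res r M) 1,
        dd (Rep.res r M) 1 w = pullPush r (LinearMap.id : M →ₗ[ZMod p] Rep.res r M) 2 (e2 M f)) ↔
      ∃ y : H → M, IsLevelConstant₁ r y ∧ ∀ τ τ' : H,
        f (r τ, r τ') = M.ρ (r τ) (y τ') - y (τ * τ') + y τ := by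
  constructor
  · rintro ⟨w, hw, hd⟩
    refine ⟨(e1 (Rep.res r M)).symm w, ?_, fun τ τ' => ?_⟩
    · rw [← e1_mem_comap_iff r hM]
      rw [LinearEquiv.apply_symm_apply]
      exact hw
    · have h1 : dd (Rep.res r M) 1 (e1 (Rep.res r M) ((e1 (Rep.res r M)).symm w)) ![τ, τ']
          = pullPush r (LinearMap.id : M →ₗ[ZMod p] Rep.res r M) 2 (e2 M f) ![τ, τ'] := by
        rw [LinearEquiv.apply_symm_apply, hd]
      rw [dd_e1, e2_apply, d₁₂_hom_apply] at h1
      exact h1.symm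
  · rintro ⟨y, hy, hf⟩
    refine ⟨e1 (Rep.res r M) y, (e1_mem_comap_iff r hM y).2 hy, ?_⟩
    funext g
    rw [dd_e1, e2_apply, d₁₂_hom_apply]
    exact (hf (g 0) (g 1)).symm

/-- membership in `Sha` for an abstract datum, at cochain level. -/
lemma mem_Sha_cls_iff {p : ℕ} [Fact p.Prime] (D : Datum p) (N : Rep.{0} (ZMod p) D.G) (n : ℕ)
    (c : (Fin (n + 1) → D.G) → N) (hc : c ∈ lcCochains D.𝒰 N (n + 1))
    (hz : (⟨c, hc⟩ : ↥(lcCochains D.𝒰 N (n + 1))) ∈ (lcCpx D.𝒰 N).Z (n + 1)) :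
    (lcCpx D.𝒰 N).cls (n + 1) ⟨(⟨c, hc⟩ : ↥(lcCochains D.𝒰 N (n + 1))), hz⟩ ∈ D.Sha N (n + 1) ↔
      ∀ v, ∃ w ∈ lcCochains (D.𝒰v v) (Rep.res (D.φ v) N) n,
        dd (Rep.res (D.φ v) N) n w
          = pullPush (D.φ v) (LinearMap.id : N →ₗ[ZMod p] Rep.res (D.φ v) N) (n + 1) c := by
  unfold Datum.Sha
  rw [LinearMap.mem_ker, Hom.mapH_cls, cls_eq_zero_iff, mem_B_succ]
  constructor
  · rintro ⟨w, hw⟩ v
    have h1 := congrFun hw v
    refine ⟨(show ↥(lcCochains (D.𝒰v v) (Rep.res (D.φ v) N) n) from w v).1,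
      (show ↥(lcCochains (D.𝒰v v) (Rep.res (D.φ v) N) n) from w v).2, ?_⟩
    exact congrArg Subtype.val h1
  · intro hq
    choose w hw hd using hq
    refine ⟨fun v => (⟨w v, hw v⟩ : ↥(lcCochains (D.𝒰v v) (Rep.res (D.φ v) N) n)), ?_⟩
    funext v
    apply Subtype.ext
    exact hd v

lemma toH_mem_Sha_iff (h : CycloTriv p S) (hM : IsTrivOn (levS S) M) (f : levelCocyclesS₂ S M) :
    toH hM (continuousH2Sπ S M f) ∈ (qDatum p S h).Sha M 2 ↔
      ∀ q : ↥S, ∃ y : primeLocalGaloisGroup q.1 → M, IsLevelConstant₁ (primeLocalToGlobal q.1) y ∧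
        ∀ τ τ' : primeLocalGaloisGroup q.1,
          (f : GQ × GQ → M) (primeLocalToGlobal q.1 τ, primeLocalToGlobal q.1 τ')
            = M.ρ (primeLocalToGlobal q.1 τ) (y τ') - y (τ * τ') + y τ := by
  have hM' := trivOn_levAll hM
  have h1 := mem_Sha_cls_iff (qDatum p S h) M 1 (e2 M f.1) ((e2_mem_levS_iff hM _).2 f.2.2)
    (toZ hM f).2
  refine Iff.trans h1 ?_
  exact forall_congr' fun q => local_iff (primeLocalToGlobal q.1) hM' f.1

end BrSha2

open BrSha2 in
/-- BR2. the prelude's `sha₂` is the level-constant `Sha²`. -/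
theorem stmt_bridgeSha2 : Stmt_bridgeSha2 := by
  intro p _ hp2 S h M _ hM
  have h2 : IsUnit (2 : ZMod p) := by
    have hcop : Nat.Coprime 2 p :=
      (Nat.coprime_primes Nat.prime_two (Fact.out : p.Prime)).2 (Ne.symm hp2)
    have := (ZMod.isUnit_iff_coprime 2 p).2 hcop
    simpa using this
  let e : continuousH2S S M ≃ₗ[ZMod p] Hlc (levS S) M 2 :=
    LinearEquiv.ofBijective (toH hM) (toH_bijective hM)
  refine ⟨LinearEquiv.ofSubmodules e _ _ ?_⟩
  ext x
  rw [Submodule.mem_map]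
  constructor
  · rintro ⟨y, hy, rfl⟩
    obtain ⟨f, rfl⟩ := Submodule.mkQ_surjective _ y
    exact (toH_mem_Sha_iff h hM f).2 ((mem_sha₂_iff S M h2 f).1 hy)
  · intro hx
    obtain ⟨y, rfl⟩ := e.surjective x
    obtain ⟨f, rfl⟩ := Submodule.mkQ_surjective _ y
    exact ⟨_, (mem_sha₂_iff S M h2 f).2 ((toH_mem_Sha_iff h hM f).1 hx), rfl⟩

end Fermat.Agent.CFT.Top

end
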