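/-
TEAM CFT -> S55, top level.  Package G6: the long exact sequence of the cone.
-/
import Fermat.Agent.CFT.Top.CpxStmts

set_option autoImplicit false

noncomputable section

namespace Fermat.Agent.CFT.Top

open Cpx

namespace ConeLES

variable {k : Type} [CommRing k] {C D : Cpx k}

lemma cls_eq_iff {E : Cpx k} {n : ℕ} (z w : E.Z n) :
    E.cls n z = E.cls n w ↔ ((z : E.X n) - w) ∈ E.B n := by
  rw [← sub_eq_zero, ← map_sub, cls_eq_zero_iff]
  rfl

/-- the element `(c, b)` of `coneⁿ⁺¹`. -/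
def cmk (r : Hom C D) (n : ℕ) (c : C.X (n + 1)) (b : D.X n) : (cone r).X (n + 1) := (c, b)

lemma cmk_surj (r : Hom C D) (n : ℕ) (x : (cone r).X (n + 1)) : ∃ c b, x = cmk r n c b :=
  ⟨(show C.X (n + 1) × D.X n from x).1, (show C.X (n + 1) × D.X n from x).2, rfl⟩

lemma cmk_inj (r : Hom C D) (n : ℕ) {c c' : C.X (n + 1)} {b b' : D.X n}
    (h : cmk r n c b = cmk r n c' b') : c = c' ∧ b = b' :=
  ⟨congrArg (fun x : C.X (n + 1) × D.X n => x.1) h,
    congrArg (fun x : C.X (n + 1) × D.X n => x.2) h⟩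

lemma cmk_sub (r : Hom C D) (n : ℕ) (c c' : C.X (n + 1)) (b b' : D.X n) :
    cmk r n c b - cmk r n c' b' = cmk r n (c - c') (b - b') := rfl

lemma cmk_zero (r : Hom C D) (n : ℕ) : cmk r n 0 0 = 0 := rfl

lemma coneInr_eq (r : Hom C D) (n : ℕ) (b : D.X n) : coneInr r n b = cmk r n 0 b := rfl

lemma coneFst_cmk (r : Hom C D) (n : ℕ) (c : C.X (n + 1)) (b : D.X n) :
    (coneFst r).f (n + 1) (cmk r n c b) = c := rfl

lemma cone_d_zero (r : Hom C D) (c : C.X 0) :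
    (cone r).d 0 c = cmk r 0 (C.d 0 c) (r.f 0 c) := rfl

lemma cone_d_succ (r : Hom C D) (n : ℕ) (c : C.X (n + 1)) (b : D.X n) :
    (cone r).d (n + 1) (cmk r n c b)
      = cmk r (n + 1) (C.d (n + 1) c) (r.f (n + 1) c - D.d n b) := rfl

lemma mem_cone_Z_succ (r : Hom C D) (n : ℕ) (c : C.X (n + 1)) (b : D.X n) :
    cmk r n c b ∈ (cone r).Z (n + 1) ↔ C.d (n + 1) c = 0 ∧ r.f (n + 1) c = D.d n b := by
  rw [mem_Z, cone_d_succ, ← cmk_zero]
  constructor
  · intro h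
    obtain ⟨h1, h2⟩ := cmk_inj r _ h
    exact ⟨h1, sub_eq_zero.1 h2⟩
  · rintro ⟨h1, h2⟩
    rw [h1, h2, sub_self]

/-- membership in the coboundaries of the cone, uniformly in the degree:
`(c, b)` is a coboundary iff `c = d c'` and `r c' - b` is a coboundary in `D`. -/
lemma mem_cone_B_succ (r : Hom C D) (n : ℕ) (c : C.X (n + 1)) (b : D.X n) :
    cmk r n c b ∈ (cone r).B (n + 1) ↔ ∃ c' : C.X n, C.d n c' = c ∧ (r.f n c' - b) ∈ D.B n := by
  rw [mem_B_succ]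
  cases n with
  | zero =>
    constructor
    · rintro ⟨y, hy⟩
      have hy' : cmk r 0 (C.d 0 y) (r.f 0 y) = cmk r 0 c b := hy
      obtain ⟨h1, h2⟩ := cmk_inj r _ hy'
      refine ⟨y, h1, ?_⟩
      rw [mem_B_zero]
      exact sub_eq_zero.2 h2
    · rintro ⟨c', h1, h2⟩
      rw [mem_B_zero, sub_eq_zero] at h2
      refine ⟨c', ?_⟩
      rw [cone_d_zero, h1, h2]
  | succ m =>
    constructor
    · rintro ⟨y, hy⟩
      obtain ⟨c', e, rfl⟩ := cmk_surj r m y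
      rw [cone_d_succ] at hy
      obtain ⟨h1, h2⟩ := cmk_inj r _ hy
      refine ⟨c', h1, ?_⟩
      rw [mem_B_succ]
      refine ⟨e, ?_⟩
      rw [← h2]
      abel
    · rintro ⟨c', h1, h2⟩
      obtain ⟨e, he⟩ := mem_B_succ.1 h2
      refine ⟨cmk r m c' e, ?_⟩
      rw [cone_d_succ, h1, he]
      congr 1
      abel

end ConeLES

open ConeLES

theorem stmt_coneLES : Stmt_coneLES := by
  intro k _ C D r n
  refine ⟨?_, ?_, ?_⟩
  · -- exactness at `Hⁿ(D)`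
    intro x
    obtain ⟨⟨b, hb⟩, rfl⟩ := D.cls_surjective n x
    have hz : coneInr r n b ∈ (cone r).Z (n + 1) := by
      rw [mem_Z, coneInr_d, mem_Z.1 hb, map_zero, neg_zero]
    rw [coneι_cls r n ⟨b, hb⟩ hz, cls_eq_zero_iff]
    have key := mem_cone_B_succ r n 0 b
    constructor
    · intro h
      obtain ⟨c', h1, h2⟩ := key.1 h
      refine ⟨C.cls n ⟨c', mem_Z.2 h1⟩, ?_⟩
      rw [Hom.mapH_cls, cls_eq_iff]
      exact h2
    · rintro ⟨y, hy⟩
      obtain ⟨⟨c', hc'⟩, rfl⟩ := C.cls_surjective n y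
      rw [Hom.mapH_cls, cls_eq_iff] at hy
      exact key.2 ⟨c', mem_Z.1 hc', hy⟩
  · -- exactness at `Hⁿ⁺¹(cone)`
    intro x
    obtain ⟨⟨z, hcb⟩, rfl⟩ := (cone r).cls_surjective (n + 1) x
    obtain ⟨c, b, rfl⟩ := cmk_surj r n z
    obtain ⟨hc, hrb⟩ := (mem_cone_Z_succ r n c b).1 hcb
    rw [Hom.mapH_cls, cls_eq_zero_iff]
    constructor
    · intro h
      obtain ⟨c', hc'⟩ := mem_B_succ.1 h
      have hc'' : C.d n c' = c := hc'
      have hb' : b - r.f n c' ∈ D.Z n := by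
        rw [mem_Z, map_sub, ← r.comm, hc'', hrb, sub_self]
      have hz : coneInr r n (b - r.f n c') ∈ (cone r).Z (n + 1) := by
        rw [mem_Z, coneInr_d, mem_Z.1 hb', map_zero, neg_zero]
      refine ⟨D.cls n ⟨b - r.f n c', hb'⟩, ?_⟩
      rw [coneι_cls r n ⟨_, hb'⟩ hz, cls_eq_iff]
      show coneInr r n (b - r.f n c') - cmk r n c b ∈ _
      rw [coneInr_eq, cmk_sub, mem_cone_B_succ]
      refine ⟨-c', by rw [map_neg, hc'', zero_sub], ?_⟩
      have : r.f n (-c') - (b - r.f n c' - b) = 0 := by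
        rw [map_neg]; abel
      rw [this]
      exact Submodule.zero_mem _
    · rintro ⟨y, hy⟩
      obtain ⟨⟨e, he⟩, rfl⟩ := D.cls_surjective n y
      have hz : coneInr r n e ∈ (cone r).Z (n + 1) := by
        rw [mem_Z, coneInr_d, mem_Z.1 he, map_zero, neg_zero]
      rw [coneι_cls r n ⟨e, he⟩ hz, cls_eq_iff] at hy
      have hy' : coneInr r n e - cmk r n c b ∈ (cone r).B (n + 1) := hy
      rw [coneInr_eq, cmk_sub, mem_cone_B_succ] at hy'
      obtain ⟨c', h1, -⟩ := hy'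
      refine mem_B_succ.2 ⟨-c', ?_⟩
      rw [map_neg, h1, zero_sub, neg_neg]
      rfl
  · -- exactness at `Hⁿ⁺¹(C)`
    intro x
    obtain ⟨⟨c, hc⟩, rfl⟩ := C.cls_surjective (n + 1) x
    rw [Hom.mapH_cls, cls_eq_zero_iff]
    constructor
    · intro h
      obtain ⟨b, hb⟩ := mem_B_succ.1 h
      have hb' : D.d n b = r.f (n + 1) c := hb
      have hz : cmk r n c b ∈ (cone r).Z (n + 1) :=
        (mem_cone_Z_succ r n c b).2 ⟨mem_Z.1 hc, hb'.symm⟩
      exact ⟨(cone r).cls (n + 1) ⟨_, hz⟩, rfl⟩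
    · rintro ⟨y, hy⟩
      obtain ⟨⟨z, hcb⟩, rfl⟩ := (cone r).cls_surjective (n + 1) y
      obtain ⟨c₁, b, rfl⟩ := cmk_surj r n z
      obtain ⟨hc₁, hrb⟩ := (mem_cone_Z_succ r n c₁ b).1 hcb
      rw [Hom.mapH_cls, cls_eq_iff] at hy
      obtain ⟨c', hc'⟩ := mem_B_succ.1 hy
      have hc'' : C.d n c' = c₁ - c := hc'
      refine mem_B_succ.2 ⟨b - r.f n c', ?_⟩
      show D.d n (b - r.f n c') = r.f (n + 1) c
      rw [map_sub, ← r.comm, hc'', map_sub, ← hrb]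
      abel

end Fermat.Agent.CFT.Top

end

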