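/-
TEAM CFT -> S55, top level.  G7, G8, G9: cones of short exact sequences, compatibility of `coneι`
with connecting homomorphisms, naturality.
-/
import Fermat.Agent.CFT.Top.CpxStmts

set_option autoImplicit false

noncomputable section

namespace Fermat.Agent.CFT.Top

open Cpx

theorem stmt_coneSES : Stmt_coneSES := by
  intro k _ C₁ C₂ C₃ D₁ D₂ D₃ r₁ r₂ r₃ i q j s h₁ h₂ hC hD
  refine ⟨?_, ?_, ?_⟩
  · intro n
    cases n with
    | zero => exact hC.inj 0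
    | succ m =>
      rintro ⟨c, e⟩ ⟨c', e'⟩ h
      have h' : (i.f (m + 1) c, j.f m e) = (i.f (m + 1) c', j.f m e') := h
      rw [Prod.mk.injEq] at h'
      have e1 := hC.inj _ h'.1
      have e2 := hD.inj _ h'.2
      subst e1 e2
      rfl
  · intro n
    cases n with
    | zero => exact hC.surj 0
    | succ m =>
      rintro ⟨c, e⟩
      obtain ⟨c', rfl⟩ := hC.surj (m + 1) c
      obtain ⟨e', rfl⟩ := hD.surj m e
      exact ⟨(c', e'), rfl⟩
  · intro n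
    cases n with
    | zero => exact hC.exact 0
    | succ m =>
      rintro ⟨c, e⟩
      constructor
      · intro h
        have h' : (q.f (m + 1) c, s.f m e) = ((0 : C₃.X (m + 1)), (0 : D₃.X m)) := h
        rw [Prod.mk.injEq] at h'
        obtain ⟨c', rfl⟩ := (hC.exact (m + 1) c).1 h'.1
        obtain ⟨e', rfl⟩ := (hD.exact m e).1 h'.2
        exact ⟨(c', e'), rfl⟩
      · rintro ⟨⟨c', e'⟩, h⟩
        have h' : (i.f (m + 1) c', j.f m e') = (c, e) := h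
        rw [Prod.mk.injEq] at h'
        obtain ⟨rfl, rfl⟩ := h'
        show (q.f (m + 1) (i.f (m + 1) c'), s.f m (j.f m e')) = ((0 : C₃.X (m + 1)), (0 : D₃.X m))
        rw [(hC.exact (m + 1) _).2 ⟨c', rfl⟩, (hD.exact m _).2 ⟨e', rfl⟩]

theorem stmt_coneNat : Stmt_coneNat := by
  intro k _ C D C' D' r r' a b h n
  refine ⟨?_, ?_⟩
  · intro x
    obtain ⟨z, rfl⟩ := D.cls_surjective n x
    have hz : coneInr r n z ∈ (cone r).Z (n + 1) := by
      rw [mem_Z, coneInr_d, mem_Z.1 z.2, map_zero, neg_zero]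
    have hz' : coneInr r' n (b.mapZ n z) ∈ (cone r').Z (n + 1) := by
      rw [mem_Z, coneInr_d, mem_Z.1 (b.mapZ n z).2, map_zero, neg_zero]
    rw [coneι_cls r n z hz, Hom.mapH_cls, Hom.mapH_cls, coneι_cls r' n _ hz']
    congr 1
    apply Subtype.ext
    show (a.f (n + 1) 0, b.f n z) = ((0 : C'.X (n + 1)), b.f n z)
    rw [map_zero]
  · intro x
    obtain ⟨z, rfl⟩ := (cone r).cls_surjective n x
    simp only [Hom.mapH_cls]
    congr 1
    apply Subtype.ext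
    cases n with
    | zero => rfl
    | succ m => rfl

theorem stmt_coneDelta (h : Stmt_delta) (h7 : Stmt_coneSES) : Stmt_coneDelta := by
  intro k _ C₁ C₂ C₃ D₁ D₂ D₃ r₁ r₂ r₃ i q j s h₁ h₂ hC hD n x
  obtain ⟨z, rfl⟩ := D₃.cls_surjective n x
  obtain ⟨b, hb⟩ := hD.surj n z
  have hsd : s.f (n + 1) (D₂.d n b) = 0 := by
    rw [s.comm, hb, mem_Z.1 z.2]
  obtain ⟨a, ha⟩ := (hD.exact (n + 1) _).1 hsd
  have haZ : a ∈ D₁.Z (n + 1) := by
    rw [mem_Z]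
    apply hD.inj (n + 2)
    rw [j.comm, ha, D₂.d_d, map_zero]
  have hδ := h k D₁ D₂ D₃ j s hD n z b ⟨a, haZ⟩ hb ha
  rw [hδ]
  have hcone := h7 k C₁ C₂ C₃ D₁ D₂ D₃ r₁ r₂ r₃ i q j s h₁ h₂ hC hD
  have hz : coneInr r₃ n z ∈ (cone r₃).Z (n + 1) := by
    rw [mem_Z, coneInr_d, mem_Z.1 z.2, map_zero, neg_zero]
  have haZ' : coneInr r₁ (n + 1) a ∈ (cone r₁).Z (n + 2) := by
    rw [mem_Z, coneInr_d, mem_Z.1 haZ, map_zero, neg_zero]
  have hnegZ : - coneInr r₁ (n + 1) a ∈ (cone r₁).Z (n + 2) := Submodule.neg_mem _ haZ'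
  rw [coneι_cls r₃ n z hz, coneι_cls r₁ (n + 1) ⟨a, haZ⟩ haZ']
  have hδ' := h k _ _ _ _ _ hcone (n + 1) ⟨coneInr r₃ n z, hz⟩ (coneInr r₂ n b)
    ⟨- coneInr r₁ (n + 1) a, hnegZ⟩ ?_ ?_
  · rw [hδ']
    exact map_neg ((cone r₁).cls (n + 2)) ⟨coneInr r₁ (n + 1) a, haZ'⟩
  · show (q.f (n + 1) 0, s.f n b) = ((0 : C₃.X (n + 1)), (z : D₃.X n))
    rw [map_zero, hb]
  · rw [coneInr_d]
    show (i.f (n + 2) (-0), j.f (n + 1) (-a)) = - ((0 : C₂.X (n + 2)), D₂.d n b)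
    rw [neg_zero, map_zero, map_neg, ha]
    simp

end Fermat.Agent.CFT.Top

end
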