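/-
TEAM CFT -> S55, top level.  FINAL: the assembly statement `Stmt_final`.
-/
import Fermat.Agent.CFT.Top.QDatum

set_option autoImplicit false

noncomputable section

namespace Fermat.Agent.CFT.Top

open Cpx Module groupCohomology ExtCitation

namespace Final

/-- two finite dimensional spaces of equal dimension admit a perfect pairing. -/
theorem exists_perfect_pairing {k V W : Type*} [Field k] [AddCommGroup V] [Module k V]
    [AddCommGroup W] [Module k W] [FiniteDimensional k V] [FiniteDimensional k W]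
    (h : finrank k V = finrank k W) :
    ∃ B : V →ₗ[k] W →ₗ[k] k,
      (∀ y, (∀ x, B y x = 0) → y = 0) ∧ (∀ x, (∀ y, B y x = 0) → x = 0) := by
  have e : V ≃ₗ[k] Module.Dual k W :=
    LinearEquiv.ofFinrankEq V (Module.Dual k W) (h.trans Subspace.dual_finrank_eq.symm)
  refine ⟨e.toLinearMap, fun y hy => ?_, fun x hx => ?_⟩
  · have : e y = 0 := LinearMap.ext hy
    exact e.map_eq_zero_iff.mp this
  · refine (Module.forall_dual_apply_eq_zero_iff k x).mp fun φ => ?_
    have := hx (e.symm φ)
    simpa using this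

/-- `dualTwist` of a module trivial on a level (with `χ` trivial on a level) is trivial on a
level. -/
theorem isTrivOn_dualTwist {k : Type} [CommRing k] {G : Type} [Group G] (𝒰 : LevelSys G)
    (M : Rep.{0} k G) (χ : G →* kˣ) (hM : IsTrivOn 𝒰 M) (hχ : ∃ U ∈ 𝒰.S, ∀ u ∈ U, χ u = 1) :
    IsTrivOn 𝒰 (M.dualTwist χ) := by
  obtain ⟨U, hU, hUM⟩ := hM
  obtain ⟨V, hV, hVχ⟩ := hχ
  obtain ⟨W, hW, hWU, hWV⟩ := 𝒰.dir U hU V hV
  refine ⟨W, hW, fun u hu f => ?_⟩
  rw [Rep.dualTwist_ρ_apply, hVχ u (hWV hu), Units.val_one, one_smul]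
  refine LinearMap.ext fun m => ?_
  rw [LinearMap.comp_apply, hUM u⁻¹ (U.inv_mem (hWU hu)) m]

theorem finite_dualTwist {k : Type} [Field k] {G : Type} [Group G]
    (M : Rep.{0} k G) (χ : G →* kˣ) (hM : Module.Finite k M) :
    Module.Finite k (M.dualTwist χ) :=
  (inferInstance : Module.Finite k (Module.Dual k M))

/-- transport version -/
theorem exists_pairing_of_equiv {k V W V' W' : Type*} [Field k] [AddCommGroup V] [Module k V]
    [AddCommGroup W] [Module k W] [AddCommGroup V'] [Module k V'] [AddCommGroup W'] [Module k W']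
    (e1 : V ≃ₗ[k] V') (e2 : W ≃ₗ[k] W') (hV : Module.Finite k V') (hW : Module.Finite k W')
    (h : finrank k W' = finrank k V') :
    ∃ B : V →ₗ[k] W →ₗ[k] k,
      (∀ y, (∀ x, B y x = 0) → y = 0) ∧ (∀ x, (∀ y, B y x = 0) → x = 0) := by
  have : Module.Finite k V := Module.Finite.equiv e1.symm
  have : Module.Finite k W := Module.Finite.equiv e2.symm
  exact exists_perfect_pairing (e1.finrank_eq.trans (h.symm.trans e2.finrank_eq.symm))

end Final

open Final in
/-- FINAL. assembly. -/
theorem stmt_final : Stmt_final := by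
  intro hPT hArith hCyc hTriv hB1 hB2 p _ hp2 S hpS M _ hsm hMur
  have h : CycloTriv p S := hCyc p S hpS
  have hMfin : Module.Finite (ZMod p) M := inferInstance
  have hMtriv : IsTrivOn (levS S) M := hTriv p S M hMfin hsm hMur
  have hin := hArith p hp2 S hpS h
  have hh := hPT p (qDatum p S h) hin M hMfin hMtriv
  obtain ⟨hf2, hf1, hrank⟩ := hh
  have hh2 := hB2 p hp2 S h M hMfin hMtriv
  obtain ⟨e2⟩ := hh2
  have hd1 := finite_dualTwist M (cycloChar p) hMfin
  have hd2 := isTrivOn_dualTwist (levS S) M (cycloChar p) hMtriv h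
  have hh1 := hB1 p hp2 S h (M.dualTwist (cycloChar p)) hd1 hd2
  obtain ⟨e1⟩ := hh1
  exact exists_pairing_of_equiv e1 e2 hf1 hf2 hrank

end Fermat.Agent.CFT.Top

end
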