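/-
TEAM CFT -> S55, top level, package TOP-BR1: a finite dimensional smooth module which is
unramified outside `S` is trivial on an `S`-level.
-/
import Fermat.Agent.CFT.Top.QDatum

set_option autoImplicit false

noncomputable section

namespace Fermat.Agent.CFT.Top

open Module

namespace TrivOn

lemma isGalois_Qbar : IsGalois ℚ (AlgebraicClosure ℚ) := by
  have : Algebra.IsAlgebraic ℚ (AlgebraicClosure ℚ) := AlgebraicClosure.isAlgebraic ℚ
  have : IsAlgClosure ℚ (AlgebraicClosure ℚ) := ⟨inferInstance, inferInstance⟩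
  have : Normal ℚ (AlgebraicClosure ℚ) := IsAlgClosure.normal ℚ (AlgebraicClosure ℚ)
  exact ⟨⟩

/-- a subgroup of `G_ℚ` containing the fixing subgroup of a finite extension is the fixing
subgroup of a finite extension. -/
lemma exists_field_of_le (U : Subgroup GQ) (F0 : IntermediateField ℚ (AlgebraicClosure ℚ))
    [FiniteDimensional ℚ F0] (h : F0.fixingSubgroup ≤ U) :
    ∃ F : IntermediateField ℚ (AlgebraicClosure ℚ), FiniteDimensional ℚ F ∧
      F.fixingSubgroup = U := by
  have := isGalois_Qbar
  have hopen : IsOpen (U : Set GQ) := Subgroup.isOpen_mono h F0.fixingSubgroup_isOpen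
  have hclosed : IsClosed (U : Set GQ) := Subgroup.isClosed_of_isOpen U hopen
  refine ⟨IntermediateField.fixedField U, ?_, ?_⟩
  · have hle : IntermediateField.fixedField U ≤ F0 := by
      have h1 : IntermediateField.fixedField U ≤ IntermediateField.fixedField F0.fixingSubgroup :=
        IntermediateField.fixedField_antitone h
      rwa [InfiniteGalois.fixedField_fixingSubgroup] at h1
    exact FiniteDimensional.of_injective (IntermediateField.inclusion hle).toLinearMap
      (IntermediateField.inclusion_injective hle)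
  · exact InfiniteGalois.fixingSubgroup_fixedField ⟨U, hclosed⟩

end TrivOn

theorem stmt_trivOn : Stmt_trivOn := by
  intro p _ S M hfin hsm hur
  -- a finite level acting trivially
  obtain ⟨F0, hF0, hF0triv⟩ : ∃ F0 : IntermediateField ℚ (AlgebraicClosure ℚ),
      FiniteDimensional ℚ F0 ∧ ∀ s ∈ F0.fixingSubgroup, ∀ m : M, M.ρ s m = m := by
    obtain ⟨T, hT⟩ := hfin.fg_top
    have key : ∀ T' : Finset M, ∃ F0 : IntermediateField ℚ (AlgebraicClosure ℚ),
        FiniteDimensional ℚ F0 ∧ ∀ s ∈ F0.fixingSubgroup, ∀ m ∈ T', M.ρ s m = m := by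
      intro T'
      classical
      induction T' using Finset.induction_on with
      | empty => exact ⟨⊥, inferInstance, fun _ _ _ h => by simp at h⟩
      | insert a T' _ ih =>
        obtain ⟨F1, hF1, h1⟩ := ih
        obtain ⟨F2, hF2, h2⟩ := hsm a
        refine ⟨F1 ⊔ F2, IntermediateField.finiteDimensional_sup F1 F2, ?_⟩
        intro s hs m hm
        rw [IntermediateField.fixingSubgroup_sup] at hs
        rcases Finset.mem_insert.1 hm with rfl | hm
        · exact h2 s hs.2
        · exact h1 s hs.1 m hm
    obtain ⟨F0, hF0, h0⟩ := key T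
    refine ⟨F0, hF0, fun s hs m => ?_⟩
    have hm : m ∈ Submodule.span (ZMod p) (T : Set M) := by rw [hT]; trivial
    induction hm using Submodule.span_induction with
    | mem x hx => exact h0 s hs x hx
    | zero => simp
    | add x y _ _ hx hy => rw [map_add, hx, hy]
    | smul c x _ hx => rw [map_smul, hx]
  have hle : F0.fixingSubgroup ≤ M.ρ.ker := by
    intro s hs
    rw [MonoidHom.mem_ker]
    ext m
    exact hF0triv s hs m
  obtain ⟨F, hF, hFU⟩ := TrivOn.exists_field_of_le M.ρ.ker F0 hle
  refine ⟨M.ρ.ker, ⟨inferInstance, F, ⟨hF, ?_⟩, hFU.le⟩, ?_⟩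
  · intro q hq A hA g hg
    rw [hFU, MonoidHom.mem_ker]
    exact hur q hq A hA g hg
  · intro u hu m
    rw [MonoidHom.mem_ker] at hu
    rw [hu]
    rfl

end Fermat.Agent.CFT.Top

end
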