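/-
TEAM CFT -> S55, top level.  FINAL2: the assembly statement `Stmt_final2` (positivity route), and
the reduction of S55 to `Stmt_PT2` and `Stmt_arith2` only.
-/
import Fermat.Agent.CFT.Top.Final
import Fermat.Agent.CFT.Top.Inputs2
import Fermat.Agent.CFT.Top.CycloTriv
import Fermat.Agent.CFT.Top.TrivOn
import Fermat.Agent.CFT.Top.BridgeSha1
import Fermat.Agent.CFT.Top.BridgeSha2

set_option autoImplicit false

noncomputable section

namespace Fermat.Agent.CFT.Top

open Cpx Module groupCohomology ExtCitation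

open Final in
/-- FINAL2. assembly. -/
theorem stmt_final2 : Stmt_final2 := by
  intro hPT hArith hCyc hTriv hB1 hB2 p _ hp2 S hpS M _ hsm hMur
  have h : CycloTriv p S := hCyc p S hpS
  have hMfin : Module.Finite (ZMod p) M := inferInstance
  have hMtriv : IsTrivOn (levS S) M := hTriv p S M hMfin hsm hMur
  have hin := hArith p hp2 S hpS h
  have hh := hPT p (qDatum p S h) hin M hMfin hMtriv
  obtain ⟨hf2, hf1, hrank⟩ := hh
  have hh2 := hB2 p hp2 S h M hMfin hMtriv
  obtain ⟨e2⟩ := hh2
  have hd1 := finite_dualTwist M (cycloChar p) hMfin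
  have hd2 := isTrivOn_dualTwist (levS S) M (cycloChar p) hMtriv h
  have hh1 := hB1 p hp2 S h (M.dualTwist (cycloChar p)) hd1 hd2
  obtain ⟨e1⟩ := hh1
  exact exists_pairing_of_equiv e1 e2 hf1 hf2 hrank

/-- **S55 from the abstract theorem and the arithmetic inputs.** -/
theorem s55_of_PT2_arith2 (hPT : Stmt_PT2) (hA : Stmt_arith2) : Stmt_S55 :=
  stmt_final2 hPT hA stmt_cycloTriv stmt_trivOn stmt_bridgeSha1 stmt_bridgeSha2

end Fermat.Agent.CFT.Top

end
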