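/-
TEAM CFT -> S55, LC-TOOLKIT T1: the explicit subquotient `Hlc (botSys Γ) N n` is Mathlib's
`groupCohomology N n`.
-/
import Fermat.Agent.CFT.Top.Tool
import Fermat.Agent.CFT.P0.Union

set_option autoImplicit false

noncomputable section

namespace Fermat.Agent.CFT.Top

open Cpx groupCohomology CategoryTheory

namespace ToolFinCmp

open Fermat.Agent.CFT.P0

section General

variable {k : Type} [CommRing k] {G : Type} [Group G]

lemma iCoc_mk (N : Rep.{0} k G) {n : ℕ} (f : (Fin n → G) → N) (h : dd N n f = 0) :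
    (iCocycles N n).hom (cocyclesMk f h) = f := iCocycles_mk f h

lemma iCoc_injective (N : Rep.{0} k G) (n : ℕ) : Function.Injective (iCocycles N n).hom :=
  ProdAux.iCycles_injective (inhomogeneousCochains N) n

lemma dd_iCoc (N : Rep.{0} k G) (n : ℕ) (c : cocycles N n) :
    dd N n ((iCocycles N n).hom c) = 0 := by
  have h := (inhomogeneousCochains N).iCycles_d n (n + 1)
  rw [inhomogeneousCochains.d_def] at h
  exact congrArg (fun f => f.hom c) h

lemma mk_iCoc (N : Rep.{0} k G) (n : ℕ) (c : cocycles N n) :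
    cocyclesMk ((iCocycles N n).hom c) (dd_iCoc N n c) = c :=
  iCoc_injective N n (iCoc_mk N _ _)

lemma mk_add (N : Rep.{0} k G) {n : ℕ} (f g : (Fin n → G) → N) (hf : dd N n f = 0)
    (hg : dd N n g = 0) (hfg : dd N n (f + g) = 0) :
    cocyclesMk (f + g) hfg = cocyclesMk f hf + cocyclesMk g hg := by
  apply iCoc_injective N n
  rw [map_add, iCoc_mk, iCoc_mk, iCoc_mk]

lemma mk_smul (N : Rep.{0} k G) {n : ℕ} (r : k) (f : (Fin n → G) → N) (hf : dd N n f = 0)
    (hrf : dd N n (r • f) = 0) : cocyclesMk (r • f) hrf = r • cocyclesMk f hf := by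
  apply iCoc_injective N n
  rw [map_smul, iCoc_mk, iCoc_mk]

/-- vanishing of a class, with an explicit predecessor -/
lemma π_eq_zero_iff' (K : CochainComplex (ModuleCat.{0} k) ℕ) (i n : ℕ)
    (hi : (ComplexShape.up ℕ).prev n = i) (z : K.cycles n) :
    (K.homologyπ n).hom z = 0 ↔ ∃ w : K.X i, (K.d i n).hom w = (K.iCycles n).hom z := by
  subst hi
  exact ⟨UnionAux.boundary_of_π_eq_zero K n z, fun ⟨w, h⟩ => UnionAux.π_eq_zero_of_boundary K n z w h⟩

lemma π_zero_eq_zero_iff (N : Rep.{0} k G) (c : cocycles N 0) :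
    (π N 0).hom c = 0 ↔ (iCocycles N 0).hom c = 0 := by
  have h := π_eq_zero_iff' (inhomogeneousCochains N) 0 0 CochainComplex.prev_nat_zero c
  have h0 : (inhomogeneousCochains N).d 0 0 = 0 := (inhomogeneousCochains N).shape 0 0 (by simp)
  constructor
  · intro hc
    obtain ⟨w, hw⟩ := h.1 hc
    rw [h0] at hw
    exact hw.symm
  · intro hc
    refine h.2 ⟨0, ?_⟩
    rw [map_zero]
    exact hc.symm

lemma π_succ_eq_zero_iff (N : Rep.{0} k G) (n : ℕ) (c : cocycles N (n + 1)) :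
    (π N (n + 1)).hom c = 0 ↔ ∃ w : (Fin n → G) → N, dd N n w = (iCocycles N (n + 1)).hom c := by
  have h := π_eq_zero_iff' (inhomogeneousCochains N) n (n + 1) (CochainComplex.prev_nat_succ n) c
  rw [inhomogeneousCochains.d_def] at h
  exact h

lemma π_surjective (N : Rep.{0} k G) (n : ℕ) : Function.Surjective (π N n).hom :=
  ProdAux.homologyπ_surjective (inhomogeneousCochains N) n

end General

variable {k : Type} [CommRing k] {Γ : Type} [Group Γ] [Finite Γ]

lemma mem_lc (N : Rep.{0} k Γ) (n : ℕ) (f : (Fin n → Γ) → N) : f ∈ lcCochains (botSys Γ) N n := by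
  refine ⟨⊥, rfl, fun g g' hg => ?_, fun g u hu => ?_⟩
  · have : g = g' := by
      funext i
      have := hg i
      rw [Subgroup.mem_bot, inv_mul_eq_one] at this
      exact this
    rw [this]
  · rw [Subgroup.mem_bot] at hu
    rw [hu, map_one]
    rfl

/-- the comparison map on cocycles -/
def toH (N : Rep.{0} k Γ) (n : ℕ) : ↥((lcCpx (botSys Γ) N).Z n) →ₗ[k] groupCohomology N n where
  toFun z := (π N n).hom (cocyclesMk (cocFun z) (dd_cocFun z))
  map_add' z z' := by
    rw [← map_add, ← mk_add]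
    rfl
  map_smul' r z := by
    rw [RingHom.id_apply, ← map_smul, ← mk_smul]
    rfl

lemma toH_apply (N : Rep.{0} k Γ) (n : ℕ) (z : (lcCpx (botSys Γ) N).Z n) :
    toH N n z = (π N n).hom (cocyclesMk (cocFun z) (dd_cocFun z)) := rfl

lemma toH_eq_zero_iff (N : Rep.{0} k Γ) :
    ∀ (n : ℕ) (z : (lcCpx (botSys Γ) N).Z n),
      toH N n z = 0 ↔ (z : (lcCpx (botSys Γ) N).X n) ∈ (lcCpx (botSys Γ) N).B n
  | 0, z => by
    rw [toH_apply, π_zero_eq_zero_iff, iCoc_mk, mem_B_zero]
    constructor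
    · intro h
      exact Subtype.ext h
    · intro h
      exact congrArg (fun y : ↥(lcCochains (botSys Γ) N 0) => y.1) h
  | (n + 1), z => by
    rw [toH_apply, π_succ_eq_zero_iff, iCoc_mk, mem_B_succ]
    constructor
    · rintro ⟨w, hw⟩
      exact ⟨(⟨w, mem_lc N n w⟩ : ↥(lcCochains (botSys Γ) N n)), Subtype.ext hw⟩
    · rintro ⟨y, hy⟩
      exact ⟨(show ↥(lcCochains (botSys Γ) N n) from y).1,
        congrArg (fun y : ↥(lcCochains (botSys Γ) N (n + 1)) => y.1) hy⟩

/-- the comparison map -/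
def cmp (N : Rep.{0} k Γ) (n : ℕ) : Hlc (botSys Γ) N n →ₗ[k] groupCohomology N n :=
  Submodule.liftQ _ (toH N n) fun z hz => by
    rw [LinearMap.mem_ker, toH_eq_zero_iff]
    exact hz

lemma isFinCmp_cmp (N : Rep.{0} k Γ) (n : ℕ) : IsFinCmp N n (cmp N n) := fun _ => rfl

lemma cmp_bijective (N : Rep.{0} k Γ) (n : ℕ) : Function.Bijective (cmp N n) := by
  constructor
  · rw [← LinearMap.ker_eq_bot, LinearMap.ker_eq_bot']
    intro x hx
    obtain ⟨z, rfl⟩ := cls_surjective _ n x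
    rw [cls_eq_zero_iff, ← toH_eq_zero_iff]
    exact hx
  · intro y
    obtain ⟨c, rfl⟩ := π_surjective N n y
    refine ⟨(lcCpx (botSys Γ) N).cls n
      (mkCoc ((iCocycles N n).hom c) (mem_lc N n _) (dd_iCoc N n c)), ?_⟩
    show (π N n).hom (cocyclesMk ((iCocycles N n).hom c) _) = _
    rw [mk_iCoc]

lemma eq_of_isFinCmp (N : Rep.{0} k Γ) (n : ℕ) {e e' : Hlc (botSys Γ) N n →ₗ[k] groupCohomology N n}
    (h : IsFinCmp N n e) (h' : IsFinCmp N n e') : e = e' := by
  apply LinearMap.ext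
  intro x
  obtain ⟨z, rfl⟩ := cls_surjective _ n x
  rw [h, h']

lemma isFinCmp_finCmp (N : Rep.{0} k Γ) (n : ℕ) : IsFinCmp N n (finCmp N n) := by
  have h : ∃ e, IsFinCmp N n e := ⟨cmp N n, isFinCmp_cmp N n⟩
  unfold finCmp
  rw [dif_pos h]
  exact h.choose_spec

end ToolFinCmp

/-- T1. -/
theorem tool_finCmp : Stmt_finCmp := by
  intro k _ Γ _ _ N n
  refine ⟨ToolFinCmp.isFinCmp_finCmp N n, ?_⟩
  rw [ToolFinCmp.eq_of_isFinCmp N n (ToolFinCmp.isFinCmp_finCmp N n) (ToolFinCmp.isFinCmp_cmp N n)]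
  exact ToolFinCmp.cmp_bijective N n

end Fermat.Agent.CFT.Top

end
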