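/-
TEAM CFT -> S55, LC-TOOLKIT T2: naturality of `finCmp`.
-/
import Fermat.Agent.CFT.Top.ToolFinCmp

set_option autoImplicit false

noncomputable section

namespace Fermat.Agent.CFT.Top

open Cpx groupCohomology CategoryTheory

open Fermat.Agent.CFT.P0 in
/-- T2. -/
theorem tool_finCmpNat (h : Stmt_finCmp) : Stmt_finCmpNat := by
  intro k _ Γ Γ' _ _ _ _ φ N N' ψ n x
  obtain ⟨z, rfl⟩ := cls_surjective _ n x
  rw [Hom.mapH_cls, (h k Γ' N' n).1, (h k Γ N n).1]
  have h1 : (groupCohomology.map φ ψ n).hom ((π N n).hom (cocyclesMk (cocFun z) (dd_cocFun z))) =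
      (π N' n).hom ((cocyclesMap φ ψ n).hom (cocyclesMk (cocFun z) (dd_cocFun z))) :=
    UnionAux.homologyMap_π _ _ (cochainsMap φ ψ) n _
  rw [h1]
  congr 1
  apply ToolFinCmp.iCoc_injective N' n
  rw [ToolFinCmp.iCoc_mk]
  have h2 : (iCocycles N' n).hom ((cocyclesMap φ ψ n).hom (cocyclesMk (cocFun z) (dd_cocFun z))) =
      ((cochainsMap φ ψ).f n).hom ((iCocycles N n).hom (cocyclesMk (cocFun z) (dd_cocFun z))) := by
    have := HomologicalComplex.cyclesMap_i (cochainsMap φ ψ) n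
    exact congrArg (fun f => f.hom (cocyclesMk (cocFun z) (dd_cocFun z))) this
  rw [h2, ToolFinCmp.iCoc_mk]
  rfl

end Fermat.Agent.CFT.Top

end
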