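/-
TEAM CFT -> S55, LC-TOOLKIT, T10: the p-torsion of H^2 of a class formation has order p.
-/
import Fermat.Agent.CFT.Top.Tool

set_option autoImplicit false
set_option linter.style.haveILetI false

namespace Fermat.Agent.CFT.Top.ToolH2tors

/-- in a cyclic group generated by `γ`, a `p`-torsion element is a multiple of any nonzero
`p`-torsion element -/
theorem mem_zmultiples_of_cyclic {H : Type*} [AddCommGroup H] (p : ℕ) (hp : p.Prime) (γ x0 y : H)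
    (hx : x0 ∈ AddSubgroup.zmultiples γ) (hy : y ∈ AddSubgroup.zmultiples γ) (hx0 : x0 ≠ 0)
    (hpx : p • x0 = 0) (hpy : p • y = 0) : y ∈ AddSubgroup.zmultiples x0 := by
  obtain ⟨a, rfl⟩ := AddSubgroup.mem_zmultiples_iff.mp hx
  obtain ⟨b, rfl⟩ := AddSubgroup.mem_zmultiples_iff.mp hy
  set n : ℤ := (addOrderOf γ : ℤ) with hndef
  have h1 : n ∣ p * a := by
    rw [hndef, addOrderOf_dvd_iff_zsmul_eq_zero, mul_smul]
    simpa using hpx
  have h2 : n ∣ p * b := by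
    rw [hndef, addOrderOf_dvd_iff_zsmul_eq_zero, mul_smul]
    simpa using hpy
  have h3 : ¬ n ∣ a := by
    rw [hndef, addOrderOf_dvd_iff_zsmul_eq_zero]
    exact hx0
  obtain ⟨a', ha'⟩ := h1
  obtain ⟨b', hb'⟩ := h2
  have hpZ : Prime (p : ℤ) := Nat.prime_iff_prime_int.mp hp
  have hpa' : ¬ (p : ℤ) ∣ a' := by
    rintro ⟨c, rfl⟩
    apply h3
    refine ⟨c, ?_⟩
    have : (p : ℤ) * a = p * (n * c) := by rw [ha']; ring
    exact mul_left_cancel₀ hpZ.ne_zero this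
  have hpn : (p : ℤ) ∣ n := by
    have : (p : ℤ) ∣ n * a' := ⟨a, ha'.symm⟩
    exact (hpZ.dvd_or_dvd this).resolve_right hpa'
  obtain ⟨m, hm⟩ := hpn
  have ha : a = m * a' := by
    have : (p : ℤ) * a = p * (m * a') := by rw [ha', hm]; ring
    exact mul_left_cancel₀ hpZ.ne_zero this
  have hb : b = m * b' := by
    have : (p : ℤ) * b = p * (m * b') := by rw [hb', hm]; ring
    exact mul_left_cancel₀ hpZ.ne_zero this
  -- `a'` is invertible mod `p`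
  have hcop : IsCoprime a' (p : ℤ) := ((hpZ.coprime_iff_not_dvd).mpr hpa').symm
  obtain ⟨u, v, huv⟩ := hcop
  rw [AddSubgroup.mem_zmultiples_iff]
  refine ⟨b' * u, ?_⟩
  rw [← mul_smul, ← sub_eq_zero, ← sub_smul, ← addOrderOf_dvd_iff_zsmul_eq_zero, ← hndef]
  refine ⟨-(b' * v), ?_⟩
  rw [ha, hb, hm]
  have : b' = b' * (u * a' + v * p) := by rw [huv, mul_one]
  calc b' * u * (m * a') - m * b' = b' * u * (m * a') - m * (b' * (u * a' + v * p)) := by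
        rw [← this]
    _ = p * m * -(b' * v) := by ring

/-- abstract form of T10 -/
theorem card_ker_of_directed_cyclic {H : Type*} [AddCommGroup H] (p : ℕ) (hp : p.Prime)
    {I : Type*} (A : I → AddSubgroup H)
    (hdir : ∀ i j, ∃ l, A i ≤ A l ∧ A j ≤ A l)
    (hcov : ∀ x : H, ∃ i, x ∈ A i)
    (hcyc : ∀ i, ∃ γ : H, A i = AddSubgroup.zmultiples γ)
    (hfin : ∀ i, Nat.card (A i) ≠ 0)
    (hdiv : ∃ i, p ∣ Nat.card (A i)) :
    Nat.card ↥(AddMonoidHom.ker (nsmulAddMonoidHom (α := H) p)) = p := by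
  obtain ⟨i0, hi0⟩ := hdiv
  obtain ⟨γ0, hγ0⟩ := hcyc i0
  have hcard0 : Nat.card (A i0) = addOrderOf γ0 := by
    rw [hγ0, Nat.card_zmultiples]
  rw [hcard0] at hi0
  obtain ⟨m, hm⟩ := hi0
  have hord0 : addOrderOf γ0 ≠ 0 := by rw [← hcard0]; exact hfin i0
  have hm0 : m ≠ 0 := by
    rintro rfl
    rw [mul_zero] at hm
    exact hord0 hm
  set x0 : H := m • γ0 with hx0def
  have hx0ord : addOrderOf x0 = p := by
    have := addOrderOf_nsmul_of_dvd (x := γ0) hm0 ⟨p, by rw [hm]; ring⟩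
    rw [hx0def, this, hm]
    exact Nat.mul_div_cancel _ (Nat.pos_of_ne_zero hm0)
  have hx0ne : x0 ≠ 0 := by
    intro h
    rw [h, addOrderOf_zero] at hx0ord
    exact hp.one_lt.ne hx0ord
  have hpx0 : p • x0 = 0 := by rw [← hx0ord]; exact addOrderOf_nsmul_eq_zero x0
  have hx0mem : x0 ∈ A i0 := by
    rw [hγ0]
    exact AddSubgroup.nsmul_mem_zmultiples γ0 m
  have key : AddMonoidHom.ker (nsmulAddMonoidHom (α := H) p) = AddSubgroup.zmultiples x0 := by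
    apply le_antisymm
    · intro y hy
      have hpy : p • y = 0 := hy
      obtain ⟨j, hj⟩ := hcov y
      obtain ⟨l, hl1, hl2⟩ := hdir i0 j
      obtain ⟨γ, hγ⟩ := hcyc l
      exact mem_zmultiples_of_cyclic p hp γ x0 y (hγ ▸ hl1 hx0mem) (hγ ▸ hl2 hj) hx0ne
        hpx0 hpy
    · rw [AddSubgroup.zmultiples_le]
      exact hpx0
  rw [key, Nat.card_zmultiples, hx0ord]

end Fermat.Agent.CFT.Top.ToolH2tors

namespace Fermat.Agent.CFT.Top

open Cpx groupCohomology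

theorem tool_H2tors (h1 : Stmt_finCmp) (h3 : Stmt_fromLevel) (h5 : Stmt_infTrans)
    (h7 : Stmt_infInj2) : Stmt_H2tors := by
  intro p _ G _ 𝒰 M hH1 hH2 hdiv
  let I := {U : Subgroup G // U ∈ 𝒰.S}
  let f : ∀ i : I,
      haveI := 𝒰.normal i.1 i.2
      haveI := 𝒰.fin i.1 i.2
      Hlc (botSys (G ⧸ i.1)) (M.quotientToInvariants i.1) 2 →ₗ[ℤ] Hlc 𝒰 M 2 := fun i =>
    haveI := 𝒰.normal i.1 i.2
    haveI := 𝒰.fin i.1 i.2
    (lcInf 𝒰 M i.1 ⟨i.1, i.2, le_rfl⟩).mapH 2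
  let A : I → AddSubgroup (Hlc 𝒰 M 2) := fun i =>
    haveI := 𝒰.normal i.1 i.2
    haveI := 𝒰.fin i.1 i.2
    (LinearMap.range (f i)).toAddSubgroup
  have hmono : ∀ i j : I, j.1 ≤ i.1 → A i ≤ A j := by
    intro i j hji
    haveI := 𝒰.normal i.1 i.2
    haveI := 𝒰.fin i.1 i.2
    haveI := 𝒰.normal j.1 j.2
    haveI := 𝒰.fin j.1 j.2
    rintro _ ⟨y, rfl⟩
    exact ⟨(lcTrans M i.1 j.1 hji).mapH 2 y,
      h5 ℤ G 𝒰 M 2 i.1 j.1 hji ⟨j.1, j.2, le_rfl⟩ ⟨i.1, i.2, le_rfl⟩ y⟩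
  have hinj : ∀ i : I, Function.Injective (f i) := by
    intro i
    haveI := 𝒰.normal i.1 i.2
    haveI := 𝒰.fin i.1 i.2
    exact h7 ℤ G 𝒰 M i.1 ⟨i.1, i.2, le_rfl⟩ (hH1 i.1 i.2)
  have hcard : ∀ i : I, Nat.card (A i) = i.1.index := by
    intro i
    haveI := 𝒰.normal i.1 i.2
    haveI := 𝒰.fin i.1 i.2
    have e1 : Nat.card (A i) = Nat.card (Hlc (botSys (G ⧸ i.1)) (M.quotientToInvariants i.1) 2) :=
      (Nat.card_congr (LinearEquiv.ofInjective (f i) (hinj i)).toEquiv).symm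
    have e2 := Nat.card_congr (Equiv.ofBijective _ (h1 ℤ (G ⧸ i.1) (M.quotientToInvariants i.1) 2).2)
    rw [e1, e2]
    exact (hH2 i.1 i.2).1
  refine ToolH2tors.card_ker_of_directed_cyclic p Fact.out A ?_ ?_ ?_ ?_ ?_
  · intro i j
    obtain ⟨W, hW, hWi, hWj⟩ := 𝒰.dir i.1 i.2 j.1 j.2
    exact ⟨⟨W, hW⟩, hmono i ⟨W, hW⟩ hWi, hmono j ⟨W, hW⟩ hWj⟩
  · intro x
    obtain ⟨U₀, hU₀⟩ := 𝒰.ne
    obtain ⟨U, hU, _, y, hy⟩ := h3 ℤ G 𝒰 M 2 x U₀ hU₀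
    exact ⟨⟨U, hU⟩, y, hy⟩
  · intro i
    haveI := 𝒰.normal i.1 i.2
    haveI := 𝒰.fin i.1 i.2
    obtain ⟨γ, hγ⟩ := (hH2 i.1 i.2).2
    have hbij := (h1 ℤ (G ⧸ i.1) (M.quotientToInvariants i.1) 2).2
    obtain ⟨y0, hy0⟩ := hbij.2 γ
    refine ⟨f i y0, ?_⟩
    apply le_antisymm
    · rintro _ ⟨y, rfl⟩
      obtain ⟨m, hm⟩ := hγ (finCmp _ 2 y)
      rw [AddSubgroup.mem_zmultiples_iff]
      refine ⟨m, ?_⟩
      have : y = m • y0 := by
        apply hbij.1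
        rw [hm, ← hy0, map_zsmul]
      rw [this, map_zsmul]
    · rw [AddSubgroup.zmultiples_le]
      exact ⟨y0, rfl⟩
  · intro i
    haveI := 𝒰.fin i.1 i.2
    rw [hcard i]
    exact Subgroup.FiniteIndex.index_ne_zero
  · obtain ⟨U, hU, hpU⟩ := hdiv
    exact ⟨⟨U, hU⟩, by rw [hcard]; exact hpU⟩

end Fermat.Agent.CFT.Top
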