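/-
TEAM CFT -> S55, LC-TOOLKIT, package T7: inflation from a finite level is injective on `H¹`, and on
`H²` if `H¹(U, M) = 0`.
-/
import Fermat.Agent.CFT.Top.Tool
import Fermat.Agent.CFT.Top.SCb

set_option autoImplicit false

noncomputable section

namespace Fermat.Agent.CFT.Top

open Cpx groupCohomology

section

variable {k : Type} [CommRing k] {G : Type} [Group G]

lemma toolInfInj_mem_C0_bot {Γ : Type} [Group Γ] [Finite Γ] (N : Rep.{0} k Γ) (m : N) :
    m ∈ C0 (botSys Γ) N := by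
  refine mem_C0.2 ⟨⊥, rfl, fun u hu => ?_⟩
  rw [Subgroup.mem_bot.1 hu, map_one]
  rfl

lemma toolInfInj_mem_C1_bot {Γ : Type} [Group Γ] [Finite Γ] (N : Rep.{0} k Γ) (f : Γ → N) :
    f ∈ C1 (botSys Γ) N := by
  refine mem_C1.2 ⟨⊥, rfl, fun g u hu => ?_, fun g u hu => ?_⟩
  · rw [Subgroup.mem_bot.1 hu, mul_one]
  · rw [Subgroup.mem_bot.1 hu, map_one]
    rfl

lemma toolInfInj_ρ_mul (M : Rep.{0} k G) (x y : G) (m : M) :
    M.ρ (x * y) m = M.ρ x (M.ρ y m) := by
  rw [map_mul]; rfl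

lemma toolInfInj_mapH1 (𝒰 : LevelSys G) (M : Rep.{0} k G) (U : Subgroup G) [U.Normal]
    [U.FiniteIndex] (hU : 𝒰.IsOpen U) (f : Z1 (botSys (G ⧸ U)) (M.quotientToInvariants U)) :
    ∃ hf : (fun g : G => ((f.1 (QuotientGroup.mk' U g)).1 : M)) ∈ Z1 𝒰 M,
      (lcInf 𝒰 M U hU).mapH 1 (cls1 _ _ f) = cls1 𝒰 M ⟨_, hf⟩ :=
  ⟨map_mem_Z1 (QuotientGroup.mk' U) (isCont_mk' 𝒰 U hU)
    ((Representation.invariants (M.ρ.comp U.subtype)).subtype :
      (M.quotientToInvariants U) →ₗ[k] M) (fun _ _ => rfl) f.2, rfl⟩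

lemma toolInfInj_mapH2 (𝒰 : LevelSys G) (M : Rep.{0} k G) (U : Subgroup G) [U.Normal]
    [U.FiniteIndex] (hU : 𝒰.IsOpen U) (f : Z2 (botSys (G ⧸ U)) (M.quotientToInvariants U)) :
    ∃ hf : (fun g : G × G =>
        ((f.1 (QuotientGroup.mk' U g.1, QuotientGroup.mk' U g.2)).1 : M)) ∈ Z2 𝒰 M,
      (lcInf 𝒰 M U hU).mapH 2 (cls2 _ _ f) = cls2 𝒰 M ⟨_, hf⟩ :=
  ⟨map_mem_Z2 (QuotientGroup.mk' U) (isCont_mk' 𝒰 U hU)
    ((Representation.invariants (M.ρ.comp U.subtype)).subtype :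
      (M.quotientToInvariants U) →ₗ[k] M) (fun _ _ => rfl) f.2, rfl⟩

end

theorem tool_infInj1 : Stmt_infInj1 := by
  intro k _ G _ 𝒰 M U _ _ hU
  rw [injective_iff_map_eq_zero]
  intro x hx
  obtain ⟨f, rfl⟩ := cls1_surjective _ _ x
  obtain ⟨hf, hmap⟩ := toolInfInj_mapH1 𝒰 M U hU f
  rw [hmap, cls1_eq_zero_iff] at hx
  obtain ⟨m, -, hm⟩ := hx
  have hcoc := (mem_Z1.1 f.2).1
  have hf1 : f.1 1 = 0 := by
    have := hcoc 1 1
    rw [mul_one, map_one] at this
    simpa using this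
  have hinv : m ∈ Representation.invariants (M.ρ.comp U.subtype) := by
    intro u
    have h1 := hm u.1
    have h2 : QuotientGroup.mk' U (u : G) = 1 := (QuotientGroup.eq_one_iff _).2 u.2
    simp only [h2, hf1] at h1
    exact (sub_eq_zero.1 h1.symm)
  rw [cls1_eq_zero_iff]
  refine ⟨(⟨m, hinv⟩ : (M.quotientToInvariants U)), toolInfInj_mem_C0_bot _ _, fun γ => ?_⟩
  induction γ using QuotientGroup.induction_on with
  | H g => exact Subtype.ext (hm g)

theorem tool_infInj2 : Stmt_infInj2 := by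
  intro k _ G _ 𝒰 M U _ _ hU hH1
  rw [injective_iff_map_eq_zero]
  intro x hx
  obtain ⟨f, rfl⟩ := cls2_surjective _ _ x
  obtain ⟨hf, hmap⟩ := toolInfInj_mapH2 𝒰 M U hU f
  rw [hmap, cls2_eq_zero_iff] at hx
  obtain ⟨c, hc, hfc⟩ := hx
  simp only at hfc
  have hmk : ∀ u ∈ U, QuotientGroup.mk' U (u : G) = 1 := fun u hu =>
    (QuotientGroup.eq_one_iff _).2 hu
  -- the value `a = f̄(1,1)`
  obtain ⟨a, ha⟩ : ∃ a : (M.quotientToInvariants U), a = f.1 (1, 1) := ⟨_, rfl⟩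
  have hcoc : f.1 ∈ cocycles₂ (M.quotientToInvariants U) := f.2.1
  have hsnd : ∀ γ : G ⧸ U, f.1 (γ, 1) = (M.quotientToInvariants U).ρ γ a := by
    intro γ
    rw [ha]
    exact cocycles₂_map_one_snd ⟨f.1, hcoc⟩ γ
  have hfst : ∀ γ : G ⧸ U, f.1 (1, γ) = a := by
    intro γ
    rw [ha]
    exact cocycles₂_map_one_fst ⟨f.1, hcoc⟩ γ
  have haU : ∀ u ∈ U, M.ρ u a.1 = a.1 := fun u hu => a.2 ⟨u, hu⟩
  -- `h = c - a` restricted to `U` is a level constant cocycle
  have hconst : (fun _ : G => (a.1 : M)) ∈ C1 𝒰 M := by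
    obtain ⟨W, hW, hWU⟩ := hU
    exact mem_C1.2 ⟨W, hW, fun _ _ _ => rfl, fun _ u hu => haU u (hWU hu)⟩
  have hh : (fun g : G => c g - a.1) ∈ C1 𝒰 M := (C1 𝒰 M).sub_mem hc hconst
  have hhU : (fun u : U => (c u - a.1 : M)) ∈ Z1 (𝒰.sub U) (Rep.res U.subtype M) := by
    rw [mem_Z1]
    refine ⟨fun u u' => ?_, ?_⟩
    · have h1 := hfc u u'
      rw [hmk u u.2, hmk u' u'.2, ← ha] at h1
      show c ((u : G) * (u' : G)) - a.1 = M.ρ (u : G) (c u' - a.1) + (c u - a.1)
      rw [map_sub, haU u u.2]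
      have h2 : c ((u : G) * (u' : G)) = M.ρ (u : G) (c u') + c u - a.1 := by
        rw [h1]; abel
      rw [h2]; abel
    · exact map_mem_C1 (M := M) (M' := Rep.res U.subtype M) U.subtype (𝒰.isCont_comap U.subtype)
        (LinearMap.id : M →ₗ[k] Rep.res U.subtype M) (fun _ _ => rfl) hh
  have hzero : cls1 (𝒰.sub U) (Rep.res U.subtype M) ⟨_, hhU⟩ = 0 := Subsingleton.elim _ _
  rw [cls1_eq_zero_iff] at hzero
  obtain ⟨m, -, hm⟩ := hzero
  simp only at hm
  have hm' : ∀ u ∈ U, c u - a.1 = M.ρ u m - m := fun u hu => hm ⟨u, hu⟩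
  -- the corrected cochain
  obtain ⟨c', hc'⟩ : ∃ c' : G → M, c' = fun g => c g - (M.ρ g m - m) := ⟨_, rfl⟩
  have hc'U : ∀ u ∈ U, c' u = a.1 := by
    intro u hu
    rw [hc']
    simp only
    rw [← hm' u hu]
    abel
  have hfc' : ∀ g h : G, (f.1 (QuotientGroup.mk' U g, QuotientGroup.mk' U h)).1
      = M.ρ g (c' h) - c' (g * h) + c' g := by
    intro g h
    rw [hfc, hc']
    simp only
    rw [map_sub, map_sub, toolInfInj_ρ_mul]
    abel
  have hright : ∀ (g : G), ∀ u ∈ U, c' (g * u) = c' g := by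
    intro g u hu
    have h1 := hfc' g u
    rw [hmk u hu, hsnd, hc'U u hu] at h1
    have h2 : ((M.quotientToInvariants U).ρ (QuotientGroup.mk' U g) a).1 = M.ρ g a.1 := rfl
    rw [h2] at h1
    have h3 : (0 : M) = - c' (g * u) + c' g := by
      have := congrArg (fun t => t - M.ρ g a.1) h1
      simp only [sub_self] at this
      rw [this]; abel
    have h4 : c' (g * u) = c' g := by
      have := congrArg (fun t => t + c' (g * u)) h3
      simp only [zero_add] at this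
      rw [this]; abel
    exact h4
  have hinvc : ∀ (g : G), ∀ u ∈ U, M.ρ u (c' g) = c' g := by
    intro g u hu
    have h1 := hfc' u g
    rw [hmk u hu, hfst, hc'U u hu] at h1
    have h2 : u * g = g * (g⁻¹ * u * g) := by group
    have h3 : g⁻¹ * u * g ∈ U := by
      have := (inferInstance : U.Normal).conj_mem u hu g⁻¹
      simpa using this
    rw [h2, hright g _ h3] at h1
    have h4 : (0 : M) = M.ρ u (c' g) - c' g := by
      have := congrArg (fun t => t - a.1) h1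
      simp only [sub_self] at this
      rw [this]; abel
    exact sub_eq_zero.1 h4.symm
  have hout : ∀ g : G, c' ((QuotientGroup.mk' U g).out) = c' g := by
    intro g
    obtain ⟨u, hu⟩ := QuotientGroup.mk_out_eq_mul U g
    have : (QuotientGroup.mk' U g).out = g * u := hu
    rw [this, hright g u u.2]
  rw [cls2_eq_zero_iff]
  refine ⟨fun γ => (⟨c' γ.out, fun u => hinvc _ u.1 u.2⟩ : (M.quotientToInvariants U)),
    toolInfInj_mem_C1_bot _ _, fun γ δ => ?_⟩
  induction γ using QuotientGroup.induction_on with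
  | H g =>
    induction δ using QuotientGroup.induction_on with
    | H h =>
      apply Subtype.ext
      have h1 := hfc' g h
      have e1 := hout g
      have e2 := hout h
      have e3 := hout (g * h)
      show (f.1 (QuotientGroup.mk' U g, QuotientGroup.mk' U h)).1
        = M.ρ g (c' (QuotientGroup.mk' U h).out) - c' (QuotientGroup.mk' U (g * h)).out
          + c' (QuotientGroup.mk' U g).out
      rw [e1, e2, e3, h1]

end Fermat.Agent.CFT.Top

end
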