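/-
TEAM CFT -> S55, LC-TOOLKIT, T9: the Kummer package.
-/
import Fermat.Agent.CFT.Top.Tool
import Fermat.Agent.CFT.Top.LES

set_option autoImplicit false

noncomputable section

namespace Fermat.Agent.CFT.Top

open Cpx groupCohomology

section H0

variable {k : Type} [CommRing k] {G : Type} [Group G]

lemma ToolKummer_level0 (𝒰 : LevelSys G) (M : Rep.{0} k G) (m : invAdd M) :
    (fun _ : Fin 0 → G => (m : M)) ∈ lcCochains 𝒰 M 0 := by
  obtain ⟨U, hU⟩ := 𝒰.ne
  exact ⟨U, hU, fun _ _ _ => rfl, fun _ u _ => m.2 u⟩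

lemma ToolKummer_dd0 (M : Rep.{0} k G) (f : (Fin 0 → G) → M) (g : Fin 1 → G) :
    dd M 0 f g = M.ρ (g 0) (f default) - f default := by
  rw [dd_apply, Fin.sum_univ_one, Subsingleton.elim (fun i : Fin 0 => g i.succ) default,
    Subsingleton.elim (Fin.contractNth 0 (· * ·) g) default, sub_eq_add_neg]
  simp

/-- `M^G → H⁰(G, M)`. -/
def ToolKummer_iota (𝒰 : LevelSys G) (M : Rep.{0} k G) : ↥(invAdd M) →+ Hlc 𝒰 M 0 where
  toFun m := (lcCpx 𝒰 M).cls 0 (mkCoc (fun _ => (m : M)) (ToolKummer_level0 𝒰 M m) (by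
    funext g
    rw [ToolKummer_dd0, m.2 (g 0), sub_self]
    rfl))
  map_zero' := by
    rw [← map_zero ((lcCpx 𝒰 M).cls 0)]
    rfl
  map_add' a b := by
    rw [← map_add ((lcCpx 𝒰 M).cls 0)]
    rfl

lemma ToolKummer_iota_injective (𝒰 : LevelSys G) (M : Rep.{0} k G) :
    Function.Injective (ToolKummer_iota 𝒰 M) := by
  rw [injective_iff_map_eq_zero]
  intro m hm
  have h1 := (cls_eq_zero_iff _).1 hm
  rw [mem_B_zero] at h1
  have h2 := congrArg (fun y : ↥(lcCochains 𝒰 M 0) => y.1 default) h1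
  exact Subtype.ext h2

lemma ToolKummer_iota_surjective (𝒰 : LevelSys G) (M : Rep.{0} k G) :
    Function.Surjective (ToolKummer_iota 𝒰 M) := by
  intro x
  obtain ⟨z, rfl⟩ := (lcCpx 𝒰 M).cls_surjective 0 x
  have hz := dd_cocFun z
  have hinv : ∀ g : G, M.ρ g (cocFun z default) = cocFun z default := by
    intro g
    have := congrFun hz (fun _ => g)
    rw [ToolKummer_dd0] at this
    exact sub_eq_zero.1 this
  refine ⟨⟨cocFun z default, hinv⟩, ?_⟩
  show (lcCpx 𝒰 M).cls 0 _ = (lcCpx 𝒰 M).cls 0 z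
  congr 1
  apply Subtype.ext
  apply Subtype.ext
  funext g
  show cocFun z default = cocFun z g
  rw [Subsingleton.elim g default]

end H0

section KummerK

variable {p : ℕ} {G : Type} [Group G]

/-- `T` as a `ℤ[G]`-module. -/
def ToolKummer_K (T : Rep.{0} (ZMod p) G) : Rep.{0} ℤ G :=
  Rep.of (X := T)
    { toFun := fun g => (T.ρ g).toAddMonoidHom.toIntLinearMap
      map_one' := by ext; simp
      map_mul' := fun g h => by ext; simp }

lemma ToolKummer_K_smul (T : Rep.{0} (ZMod p) G) (n : ℤ) (x : ToolKummer_K T) :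
    (ToolKummer_K T).hV2.smul n x = (show T from n • (show T from x)) := rfl

lemma ToolKummer_smul_nsmul {X : Type} [AddCommGroup X] (h : Module ℤ X) (n : ℤ) (p : ℕ) (x : X) :
    p • (h.smul n x) = h.smul n (p • x) := by
  rw [int_smul_eq_zsmul, int_smul_eq_zsmul]
  exact smul_comm p n x

end KummerK

attribute [-instance] AddCommGroup.toIntModule

section Kummer

variable {p : ℕ} {G : Type} [Group G]

/-- `j` as a `ℤ`-linear map. -/
def ToolKummer_i {T : Rep.{0} (ZMod p) G} {M : Rep.{0} ℤ G} (j : T →+ M) :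
    ToolKummer_K T →ₗ[ℤ] M where
  toFun := j
  map_add' := j.map_add
  map_smul' n x := by
    simp only [RingHom.id_apply]
    have h1 : j (n • (show T from x)) = n • j x := map_zsmul j n x
    exact h1.trans (int_smul_eq_zsmul M.hV2 n (j x)).symm

/-- multiplication by `p` as a `ℤ`-linear map. -/
def ToolKummer_q (p : ℕ) (M : Rep.{0} ℤ G) : M →ₗ[ℤ] M where
  toFun m := p • m
  map_add' := smul_add p
  map_smul' n x := ToolKummer_smul_nsmul M.hV2 n p x

lemma ToolKummer_q_mapH (𝒰 : LevelSys G) (M : Rep.{0} ℤ G)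
    (hq : ∀ (g : G) (m : M), ToolKummer_q p M (M.ρ g m) = M.ρ g (ToolKummer_q p M m)) (n : ℕ)
    (x : Hlc 𝒰 M n) : (lcLin 𝒰 (ToolKummer_q p M) hq).mapH n x = p • x := by
  obtain ⟨z, rfl⟩ := (lcCpx 𝒰 M).cls_surjective n x
  rw [Hom.mapH_cls, ← map_nsmul]
  congr 1

end Kummer

theorem tool_kummer (h8 : Stmt_changeRing) : Stmt_kummer := by
  intro p _ G _ 𝒰 M T j hd hsurj hinj hequiv hker hH1
  have hi : ∀ (g : G) (m : ToolKummer_K T),
      ToolKummer_i j ((ToolKummer_K T).ρ g m) = M.ρ g (ToolKummer_i j m) := fun g m => hequiv g m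
  have hq : ∀ (g : G) (m : M), ToolKummer_q p M (M.ρ g m) = M.ρ g (ToolKummer_q p M m) :=
    fun g m => (map_nsmul (M.ρ g) p m).symm
  have hses := lcLin_isSES 𝒰 (ToolKummer_i j) (ToolKummer_q p M) hi hq hinj hsurj
    (fun x => hker x) hd
  obtain ⟨-, hB, hC, hA⟩ := stmt_les ℤ _ _ _ _ _ hses
  obtain ⟨e1⟩ := h8 (ZMod p) ℤ G 𝒰 T (ToolKummer_K T) (AddEquiv.refl _) (fun _ _ => rfl) 1
  obtain ⟨e2⟩ := h8 (ZMod p) ℤ G 𝒰 T (ToolKummer_K T) (AddEquiv.refl _) (fun _ _ => rfl) 2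
  constructor
  · -- `H¹`
    let φ : ↥(invAdd M) →+ Hlc 𝒰 (ToolKummer_K T) 1 :=
      (delta (lcLin 𝒰 (ToolKummer_i j) hi) (lcLin 𝒰 (ToolKummer_q p M) hq) 0).toAddMonoidHom.comp
        (ToolKummer_iota 𝒰 M)
    have hφs : Function.Surjective φ := by
      intro x
      obtain ⟨y, hy⟩ := (hA 0 x).1 (Subsingleton.elim _ _)
      obtain ⟨m, rfl⟩ := ToolKummer_iota_surjective 𝒰 M y
      exact ⟨m, hy⟩
    have hφk : φ.ker = AddMonoidHom.range (nsmulAddMonoidHom (α := ↥(invAdd M)) p) := by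
      ext m
      rw [AddMonoidHom.mem_ker, AddMonoidHom.mem_range]
      constructor
      · intro hm
        obtain ⟨y, hy⟩ := (hC 0 _).1 hm
        obtain ⟨m', rfl⟩ := ToolKummer_iota_surjective 𝒰 M y
        rw [ToolKummer_q_mapH, ← map_nsmul] at hy
        exact ⟨m', ToolKummer_iota_injective 𝒰 M hy⟩
      · rintro ⟨m', rfl⟩
        refine (hC 0 _).2 ⟨ToolKummer_iota 𝒰 M m', ?_⟩
        rw [ToolKummer_q_mapH, ← map_nsmul]
        rfl
    exact ⟨e1.trans ((QuotientAddGroup.quotientKerEquivOfSurjective φ hφs).symm.trans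
      (QuotientAddGroup.quotientAddEquivOfEq hφk))⟩
  · -- `H²`
    let ψ : Hlc 𝒰 (ToolKummer_K T) 2 →+ Hlc 𝒰 M 2 :=
      ((lcLin 𝒰 (ToolKummer_i j) hi).mapH 2).toAddMonoidHom
    have hψi : Function.Injective ψ := by
      rw [injective_iff_map_eq_zero]
      intro x hx
      obtain ⟨y, hy⟩ := (hA 1 x).1 hx
      rw [← hy, Subsingleton.elim y 0, map_zero]
    have hψr : ∀ x, ψ x ∈ AddMonoidHom.ker (nsmulAddMonoidHom (α := Hlc 𝒰 M 2) p) := by
      intro x
      rw [AddMonoidHom.mem_ker]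
      have := (hB 2 (ψ x)).2 ⟨x, rfl⟩
      rw [ToolKummer_q_mapH] at this
      exact this
    let ψ' : Hlc 𝒰 (ToolKummer_K T) 2 →+
        ↥(AddMonoidHom.ker (nsmulAddMonoidHom (α := Hlc 𝒰 M 2) p)) := ψ.codRestrict _ hψr
    have hbij : Function.Bijective ψ' := by
      constructor
      · intro a b hab
        exact hψi (congrArg Subtype.val hab)
      · rintro ⟨y, hy⟩
        rw [AddMonoidHom.mem_ker] at hy
        have hy' : (lcLin 𝒰 (ToolKummer_q p M) hq).mapH 2 y = 0 := by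
          rw [ToolKummer_q_mapH]; exact hy
        obtain ⟨x, hx⟩ := (hB 2 y).1 hy'
        exact ⟨x, Subtype.ext hx⟩
    exact ⟨e2.trans (AddEquiv.ofBijective ψ' hbij)⟩

end Fermat.Agent.CFT.Top

end
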