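/-
TEAM CFT, LC-TOOLKIT: Shapiro-Mackey in degree `0` (`Stmt_sh0`).
-/
import Fermat.Agent.CFT.Top.ToolSh
import Fermat.Agent.CFT.Top.SCb
import Fermat.Agent.CFT.Top.Pi

set_option autoImplicit false

noncomputable section

namespace Fermat.Agent.CFT.Top

open Cpx

section

variable {k : Type} [CommRing k] {G : Type} [Group G] {𝒰 : LevelSys G} {X : Type} [MulAction G X]
  {ι : Type}

lemma toolSh0_inv_apply {A : Rep.{0} k G} (f : (mapRep X A).ρ.invariants) (g : G) (y : X) :
    f.1 (g • y) = A.ρ g (f.1 y) := by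
  have h := congrFun (f.2 g) (g • y)
  rw [mapRep_ρ_apply, inv_smul_smul] at h
  exact h.symm

/-- evaluation at the orbit representatives on invariants -/
def toolSh0Phi (O : OrbitData 𝒰 X ι) (A : Rep.{0} k G) (f : (mapRep X A).ρ.invariants) (i : ι) :
    (Rep.res (O.K i).subtype A).ρ.invariants :=
  ⟨f.1 (O.r i), fun h => by
    have h1 := toolSh0_inv_apply f h.1 (O.r i)
    rw [(O.mem i h.1).1 h.2] at h1
    exact h1.symm⟩

lemma toolSh0Phi_injective (O : OrbitData 𝒰 X ι) (A : Rep.{0} k G) :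
    Function.Injective (toolSh0Phi O A) := by
  intro f f' h
  apply Subtype.ext
  funext x
  obtain ⟨i, ⟨g, rfl⟩, -⟩ := O.uniq x
  rw [toolSh0_inv_apply, toolSh0_inv_apply]
  exact congrArg _ (congrArg Subtype.val (congrFun h i))

lemma toolSh0Phi_surjective (O : OrbitData 𝒰 X ι) (A : Rep.{0} k G) :
    Function.Surjective (toolSh0Phi O A) := by
  intro a
  have hex : ∀ x : X, ∃ i, ∃ g : G, g • O.r i = x := fun x => (O.uniq x).exists
  choose ix hix using hex
  choose gx hgx using hix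
  have key : ∀ (x : X) (i : ι) (g : G), g • O.r i = x →
      A.ρ (gx x) (a (ix x)).1 = A.ρ g (a i).1 := by
    intro x i g h
    have hi : i = ix x := (O.uniq x).unique ⟨g, h⟩ ⟨gx x, hgx x⟩
    subst hi
    have hmem : (gx x)⁻¹ * g ∈ O.K (ix x) := by
      rw [O.mem, mul_smul, h, inv_smul_eq_iff, hgx]
    have h1 : A.ρ ((gx x)⁻¹ * g) (a (ix x)).1 = (a (ix x)).1 := (a (ix x)).2 ⟨_, hmem⟩
    have h2 : g = gx x * ((gx x)⁻¹ * g) := by group
    conv_rhs => rw [h2, map_mul, Module.End.mul_apply, h1]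
  refine ⟨⟨fun x => A.ρ (gx x) (a (ix x)).1, fun g => ?_⟩, ?_⟩
  · funext x
    rw [mapRep_ρ_apply, ← Module.End.mul_apply, ← map_mul]
    refine (key x _ _ ?_).symm
    rw [mul_smul, hgx, smul_inv_smul]
  · funext i
    apply Subtype.ext
    have := key (O.r i) i 1 (one_smul _ _)
    rw [map_one, Module.End.one_apply] at this
    exact this

end

theorem tool_sh0 : Stmt_sh0 := by
  intro k _ G _ 𝒰 X _ ι O A
  have hα := cls0_bijective 𝒰 (mapRep X A)
  have hPi := stmt_piH k ι (fun i => lcCpx (𝒰.sub (O.K i)) (Rep.res (O.K i).subtype A)) 0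
  have hβ : Function.Bijective (fun (a : ∀ i, (Rep.res (O.K i).subtype A).ρ.invariants) (i : ι) =>
      cls0 (𝒰.sub (O.K i)) (Rep.res (O.K i).subtype A) (a i)) :=
    ⟨Function.Injective.piMap fun i => (cls0_bijective _ _).1,
      Function.Surjective.piMap fun i => (cls0_bijective _ _).2⟩
  have hΦ : Function.Bijective (toolSh0Phi O A) :=
    ⟨toolSh0Phi_injective O A, toolSh0Phi_surjective O A⟩
  rw [← Function.Bijective.of_comp_iff _ hα, ← Function.Bijective.of_comp_iff' hPi]
  exact hβ.comp hΦ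

end Fermat.Agent.CFT.Top

end
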