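/-
TEAM CFT -> S55, LC-TOOLKIT T6 : vanishing at cofinally many finite levels => `Hlc = 0`.
-/
import Fermat.Agent.CFT.Top.Tool

set_option autoImplicit false

noncomputable section

namespace Fermat.Agent.CFT.Top

open Cpx groupCohomology

theorem tool_lcVanish (h1 : Stmt_finCmp) (h3 : Stmt_fromLevel) (h5 : Stmt_infTrans) :
    Stmt_lcVanish := by
  intro k _ G _ 𝒰 M n hv
  have key : ∀ x : Hlc 𝒰 M n, x = 0 := by
    intro x
    obtain ⟨U₀, hU₀⟩ := 𝒰.ne
    obtain ⟨U₁, hU₁, _, y, hy⟩ := h3 k G 𝒰 M n x U₀ hU₀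
    obtain ⟨U, hU, hle, hz⟩ := hv U₁ hU₁
    have := 𝒰.normal U₁ hU₁
    have := 𝒰.fin U₁ hU₁
    have := 𝒰.normal U hU
    have := 𝒰.fin U hU
    have e := h5 k G 𝒰 M n U₁ U hle ⟨U, hU, le_rfl⟩ ⟨U₁, hU₁, le_rfl⟩ y
    have hzero : (lcTrans M U₁ U hle).mapH n y = 0 := by
      apply (h1 k (G ⧸ U) (M.quotientToInvariants U) n).2.1
      have hs : Subsingleton (groupCohomology (M.quotientToInvariants U) n) :=
        ModuleCat.subsingleton_of_isZero hz
      exact Subsingleton.elim _ _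
    rw [← hy, ← e, hzero, map_zero]
  exact ⟨fun a b => by rw [key a, key b]⟩

end Fermat.Agent.CFT.Top

end

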