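import Fermat.Agent.CFT.Top.ToolChangeRing
import Fermat.Agent.CFT.Top.ToolColim
import Fermat.Agent.CFT.Top.ToolEfface
import Fermat.Agent.CFT.Top.ToolEffaceSub
import Fermat.Agent.CFT.Top.ToolFinCmp
import Fermat.Agent.CFT.Top.ToolFinCmpNat
import Fermat.Agent.CFT.Top.ToolH2tors
import Fermat.Agent.CFT.Top.ToolInfInj
import Fermat.Agent.CFT.Top.ToolKummer
import Fermat.Agent.CFT.Top.ToolVanish
import Fermat.Agent.CFT.Top.ToolSh0
import Fermat.Agent.CFT.Top.ToolShDisc
import Fermat.Agent.CFT.Top.ToolShSES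
import Fermat.Agent.CFT.Top.ToolShEffT
import Fermat.Agent.CFT.Top.ToolShEffU
import Fermat.Agent.CFT.Top.ToolShapiro
import Fermat.Agent.CFT.Top.ToolShapiroPerm

/-!
# The LC-toolkit, unconditional

Every statement of `Tool.lean` (T1 -- T13) and of `ToolSh.lean` (Shapiro--Mackey), with no
hypothesis left.
-/

namespace Fermat.Agent.CFT.Top

theorem toolAll_finCmp : Stmt_finCmp := tool_finCmp
theorem toolAll_finCmpNat : Stmt_finCmpNat := tool_finCmpNat tool_finCmp
theorem toolAll_fromLevel : Stmt_fromLevel := tool_fromLevel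
theorem toolAll_diesDeeper : Stmt_diesDeeper := tool_diesDeeper
theorem toolAll_infTrans : Stmt_infTrans := tool_infTrans
theorem toolAll_hasLevel : Stmt_hasLevel := tool_hasLevel
theorem toolAll_lcVanish : Stmt_lcVanish := tool_lcVanish tool_finCmp tool_fromLevel tool_infTrans
theorem toolAll_infInj1 : Stmt_infInj1 := tool_infInj1
theorem toolAll_infInj2 : Stmt_infInj2 := tool_infInj2
theorem toolAll_changeRing : Stmt_changeRing := tool_changeRing
theorem toolAll_kummer : Stmt_kummer := tool_kummer tool_changeRing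
theorem toolAll_H2tors : Stmt_H2tors :=
  tool_H2tors tool_finCmp tool_fromLevel tool_infTrans tool_infInj2
theorem toolAll_efface : Stmt_efface := tool_efface
theorem toolAll_effaceSub : Stmt_effaceSub := tool_effaceSub tool_efface

theorem toolAll_sh0 : Stmt_sh0 := tool_sh0
theorem toolAll_shDisc : Stmt_shDisc := tool_shDisc
theorem toolAll_shSES : Stmt_shSES := tool_shSES tool_shDisc
theorem toolAll_shEffT : Stmt_shEffT := tool_shEffT
theorem toolAll_shEffU : Stmt_shEffU := tool_shEffU toolAll_effaceSub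

/-- **Shapiro--Mackey for `Hlc`**, unconditional. -/
theorem toolAll_shapiroLc : Stmt_shapiroLc :=
  tool_shapiroLc toolAll_sh0 toolAll_shDisc toolAll_shSES toolAll_shEffT toolAll_shEffU

/-- Shapiro: `Hlc 𝒰 (Map(G/H, A)) n ≃ Hlc (𝒰|H) (res A) n`. -/
theorem toolAll_shQuot_bijective {k : Type} [CommRing k] {G : Type} [Group G] (𝒰 : LevelSys G)
    (H : Subgroup G) (hH : 𝒰.IsOpen H) (A : Rep.{0} k G) (hA : IsDisc 𝒰 A) (n : ℕ) :
    Function.Bijective ((shQuot 𝒰 H A).mapH n) :=
  tool_shQuot_bijective toolAll_shapiroLc 𝒰 H hH A hA n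

/-- Shapiro for the permutation module. -/
theorem toolAll_shPerm_bijective (k : Type) [CommRing k] {G : Type} [Group G] (𝒰 : LevelSys G)
    (H : Subgroup G) (hH : 𝒰.IsOpen H) (n : ℕ) : Function.Bijective ((shPerm k 𝒰 H).mapH n) :=
  tool_shPerm_bijective toolAll_shapiroLc k 𝒰 H hH n

theorem toolAll_shapiroPerm (k : Type) [CommRing k] (G : Type) [Group G]
    (𝒰 : LevelSys G) (H : Subgroup G) (hH : 𝒰.IsOpen H) (i : ℕ) :
    Nonempty (Hlc 𝒰 (permRep k H) i ≃ₗ[k] Hlc (𝒰.comap H.subtype) (Rep.trivial k H k) i) :=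
  tool_shapiroPerm toolAll_shapiroLc k G 𝒰 H hH i

end Fermat.Agent.CFT.Top
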